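import Fermat.Agent.ModField.Degree
import Fermat.Prelude.Def_ModularCurve_ArithmeticGalois

/-!
# `modularFunctionFieldBar N = modularFunctionFieldFullC ℚ̄ N`
-/

set_option autoImplicit false
set_option linter.style.haveILetI false

noncomputable section

namespace FA.ModField

open ModularCurve IntermediateField

theorem laurentBaseChange_full (L : Type*) [Field L] [Algebra ℚ L] (N : ℕ) [NeZero N] :
    laurentBaseChange L (modularFunctionFieldFull N) = modularFunctionFieldFullC L N := by
  apply le_antisymm
  · rw [laurentBaseChange, adjoin_le_iff]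
    rintro _ ⟨x, hx, rfl⟩
    induction hx using IntermediateField.adjoin_induction with
    | mem y hy =>
      obtain ⟨d, hne, hd, rfl⟩ := hy
      haveI := hne
      have h : coeffEmb L (qExpand ℚ d jq) = qExpand L d (jqModC L) := by
        rw [coeffEmb, coeffMap_qExpand]
        congr 1
        rw [← coeffMap_jqModC (algebraMap ℚ L)]
        rfl
      rw [h]
      exact jqModCd_mem_full L N hd
    | algebraMap a =>
      rw [show coeffEmb L (algebraMap ℚ (LaurentSeries ℚ) a) =
          algebraMap L (LaurentSeries L) (algebraMap ℚ L a) by
        rw [coeffEmb, algebraMap_laurentSeries_eq_single, algebraMap_laurentSeries_eq_single,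
          coeffMap_single]]
      exact IntermediateField.algebraMap_mem _ _
    | add y z _ _ hy hz => rw [map_add]; exact add_mem hy hz
    | inv y _ hy => rw [map_inv₀]; exact inv_mem hy
    | mul y z _ _ hy hz => rw [map_mul]; exact mul_mem hy hz
  · rw [modularFunctionFieldFullC, adjoin_le_iff]
    rintro _ ⟨d, hne, hd, rfl⟩
    haveI := hne
    have h : coeffEmb L (qExpand ℚ d jq) = qExpand L d (jqModC L) := by
      rw [coeffEmb, coeffMap_qExpand]
      congr 1
      rw [← coeffMap_jqModC (algebraMap ℚ L)]
      rfl
    rw [← h]
    exact coeffEmb_mem_laurentBaseChange L (jqd_mem_full N hd)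

theorem modularFunctionFieldBar_eq (N : ℕ) [NeZero N] :
    modularFunctionFieldBar N = modularFunctionFieldFullC (AlgebraicClosure ℚ) N :=
  laurentBaseChange_full _ N

end FA.ModField
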