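import Fermat.Agent.ModField.Embeddings
import Mathlib.FieldTheory.PrimitiveElement

/-!
# The degree of the modular function field over `L(j)` is the index of `Γ₀(N)`
-/

set_option autoImplicit false
set_option linter.style.haveILetI false
set_option linter.unusedSectionVars false
set_option synthInstance.maxHeartbeats 400000
set_option maxHeartbeats 1600000

noncomputable section

namespace FA.ModField

open UpperHalfPlane hiding I
open Complex HahnSeries CongruenceSubgroup ModularCurve IntermediateField
open scoped MatrixGroups Topology Manifold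

/-! ### Descent of linear relations between series -/

/-- A `C`-linear relation between series over `L` gives an `L`-linear one, keeping zero and unit
coefficients. -/
theorem descent {L C : Type*} [Field L] [CommRing C] [Algebra L C] {α : Type*} [Fintype α]
    (v : α → LaurentSeries L) (c : α → C)
    (h : ∑ a, HahnSeries.C (c a) * coeffMap (algebraMap L C) (v a) = 0) (a₀ : α) (hc : c a₀ = 1)
    (hC : (1 : C) ≠ 0) :
    ∃ b : α → L, b a₀ = 1 ∧ (∀ a, c a = 0 → b a = 0) ∧ ∑ a, HahnSeries.C (b a) * v a = 0 := by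
  haveI : Nontrivial C := ⟨⟨1, 0, hC⟩⟩
  obtain ⟨φ, hφ⟩ : ∃ φ : C →ₗ[L] L, φ 1 = 1 :=
    (Module.Projective.exists_dual_ne_zero L hC).elim fun φ hφ =>
      ⟨(φ 1)⁻¹ • φ, by simp [hφ]⟩
  refine ⟨fun a => φ (c a), by simp [hc, hφ], fun a ha => by simp [ha], ?_⟩
  ext n
  have h1 := congrArg (fun s : LaurentSeries C => φ (s.coeff n)) h
  simp only [coeff_sum, map_sum, HahnSeries.C_apply, coeff_single_zero_mul, coeff_zero,
    map_zero, coeffMap_coeff] at h1 ⊢
  refine Eq.trans (Finset.sum_congr rfl fun a _ => ?_) h1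
  rw [mul_comm (c a), ← Algebra.smul_def, map_smul, smul_eq_mul, mul_comm]

/-! ### Invariant functions are polynomials in `j` -/

theorem qp_T_smul (N : ℕ) [NeZero N] (z : ℍ) :
    qp N (ModularGroup.T • z) = (zetaN N : ℂ) * qp N z := by
  rw [qp_eq, qp_eq, zetaN, Units.val_mk0, ← Complex.exp_add]
  congr 1
  rw [modular_T_smul, coe_vadd]
  push_cast
  ring

theorem hasExp_descend {N : ℕ} [NeZero N] {f : ℍ → ℂ} {L : LaurentSeries ℂ}
    (hT : ∀ z, f (ModularGroup.T • z) = f z) (h : HasExp (qp N) f L) :
    ∃ L', HasExp (qp 1) f L' := by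
  have h' := h.comp (U := qp N) (fun z => ModularGroup.T • z) 1 (zetaN N)
    (fun z => by rw [pow_one, qp_T_smul])
  rw [qExpand_one_apply, show f ∘ (fun z => ModularGroup.T • z) = f from funext hT] at h'
  have heq := h.unique (covers_qp N) h'
  have hsupp : ∀ n : ℤ, ¬ (N : ℤ) ∣ n → L.coeff n = 0 := by
    intro n hn
    have h1 := congrArg (fun s : LaurentSeries ℂ => s.coeff n) heq
    simp only [twist_coeff] at h1
    by_contra h0
    have h2 : ((zetaN N ^ n : ℂˣ) : ℂ) = 1 :=
      mul_right_cancel₀ h0 (h1.symm.trans (one_mul _).symm)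
    rw [Units.val_zpow_eq_zpow_val] at h2
    exact hn ((zetaN_prim N).zpow_eq_one_iff_dvd n |>.1 h2)
  have hinj : Function.Injective (fun n : ℤ => (N : ℤ) * n) :=
    mul_right_injective₀ (by exact_mod_cast NeZero.ne N)
  have hpwo : (Function.support fun n : ℤ => L.coeff ((N : ℤ) * n)).IsPWO := by
    rcases eq_or_ne L 0 with rfl | hL
    · simp
    refine (BddBelow.isWF ⟨-(L.order.natAbs : ℤ), fun n hn => ?_⟩).isPWO
    have h1 : L.order ≤ (N : ℤ) * n := order_le_of_coeff_ne_zero hn
    have h2 : (1 : ℤ) ≤ N := by exact_mod_cast Nat.pos_of_ne_zero (NeZero.ne N)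
    by_contra hlt
    push Not at hlt
    have h3 : n < 0 := by omega
    have h4 : (N : ℤ) * n ≤ n := by nlinarith
    omega
  let L' : LaurentSeries ℂ := ⟨fun n => L.coeff ((N : ℤ) * n), hpwo⟩
  refine ⟨L', fun z => ?_⟩
  have hz := (hinj.hasSum_iff (f := fun n : ℤ => L.coeff n * qp N z ^ n) ?_).2 (h z)
  · refine hz.congr_fun fun n => ?_
    simp only [Function.comp_apply, L']
    rw [← qp_pow_self N z, ← zpow_natCast, ← zpow_mul]
  · intro n hn
    rw [hsupp n (fun ⟨m, hm⟩ => hn ⟨m, hm.symm⟩), zero_mul]

/-- Holomorphic functions with expansions in `qp N`. -/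
def expFuns (N : ℕ) : Subring (ℍ → ℂ) where
  carrier := {f | MDiff f ∧ ∃ L, HasExp (qp N) f L}
  mul_mem' := fun ⟨h1, L, hL⟩ ⟨h2, M, hM⟩ => ⟨h1.mul h2, _, hL.mul (qp_ne_zero N) hM⟩
  one_mem' := ⟨mdifferentiable_const, _, hasExp_one⟩
  add_mem' := fun ⟨h1, L, hL⟩ ⟨h2, M, hM⟩ => ⟨h1.add h2, _, hL.add hM⟩
  zero_mem' := ⟨mdifferentiable_const, _, hasExp_zero⟩
  neg_mem' := fun ⟨h1, L, hL⟩ => ⟨h1.neg, _, hL.neg⟩

/-- The value of the modular function `f` on a coset. -/
def cosVal (N : ℕ) (f : ℍ → ℂ) (i : FA.Dim.Cos N) (z : ℍ) : ℂ := f ((Quotient.out i)⁻¹ • z)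

theorem cosVal_mk {N : ℕ} {f : ℍ → ℂ} (hf : f ∈ modFuns N) (g : SL(2, ℤ)) (z : ℍ) :
    cosVal N f (QuotientGroup.mk g) z = f (g⁻¹ • z) := by
  obtain ⟨h, hh⟩ := QuotientGroup.mk_out_eq_mul (Gamma0 N) g
  rw [cosVal, show Quotient.out (QuotientGroup.mk g : FA.Dim.Cos N) = g * h from hh, mul_inv_rev,
    mul_smul, hf.2.1 _ (inv_mem h.2)]

theorem cosVal_smul {N : ℕ} {f : ℍ → ℂ} (hf : f ∈ modFuns N) (i : FA.Dim.Cos N) (g : SL(2, ℤ))
    (z : ℍ) : cosVal N f i (g • z) = cosVal N f (g⁻¹ • i) z := by
  induction i using QuotientGroup.induction_on with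
  | H g' =>
  rw [MulAction.Quotient.smul_mk, smul_eq_mul, cosVal_mk hf, cosVal_mk hf, mul_inv_rev, inv_inv,
    mul_smul]

/-- The product over all cosets of `X - f ∘ γ` has polynomials in `j` as coefficients. -/
theorem exists_modular_equation {N : ℕ} [NeZero N] {f : ℍ → ℂ} (hf : f ∈ modFuns N) :
    ∃ P : ℕ → Polynomial ℂ, P (Nat.card (FA.Dim.Cos N)) = 1 ∧
      ∀ z, ∑ k ∈ Finset.range (Nat.card (FA.Dim.Cos N) + 1), (P k).eval (jfun z) * f z ^ k = 0 := by
  classical
  haveI := Fintype.ofFinite (FA.Dim.Cos N)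
  set n := Nat.card (FA.Dim.Cos N) with hn
  let poly : ℍ → Polynomial ℂ := fun z => ∏ i, (Polynomial.X - Polynomial.C (cosVal N f i z))
  have hmem : ∀ i, cosVal N f i ∈ expFuns N := fun i =>
    ⟨mdiff_comp_smul hf.1 _, hf.2.2.2 _⟩
  have hcoef : ∀ k, (fun z => (poly z).coeff k) ∈ expFuns N := by
    intro k
    let Q : Polynomial (expFuns N) :=
      ∏ i, (Polynomial.X - Polynomial.C (⟨cosVal N f i, hmem i⟩ : expFuns N))
    have : (fun z => (poly z).coeff k) = ((Q.coeff k : expFuns N) : ℍ → ℂ) := by
      funext z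
      have h1 : Q.map ((Pi.evalRingHom (fun _ : ℍ => ℂ) z).comp (expFuns N).subtype) = poly z := by
        simp [Q, poly, Polynomial.map_prod]
      rw [← h1, Polynomial.coeff_map]
      rfl
    rw [this]
    exact (Q.coeff k).2
  have hinv : ∀ (g : SL(2, ℤ)) z, poly (g • z) = poly z := by
    intro g z
    simp only [poly, cosVal_smul hf]
    exact Fintype.prod_equiv (MulAction.toPerm g⁻¹) _ _ fun i => rfl
  have hP : ∀ k, ∃ P : Polynomial ℂ, ∀ z, (poly z).coeff k = P.eval (jfun z) := by
    intro k
    obtain ⟨hm, L, hL⟩ := hcoef k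
    obtain ⟨L', hL'⟩ := hasExp_descend (f := fun z => (poly z).coeff k)
      (fun z => by rw [hinv]) hL
    obtain ⟨P, hP⟩ := exists_polynomial_of_invariant (f := fun z => (poly z).coeff k)
      (fun g z => by rw [hinv]) hm hL'
    exact ⟨P, congrFun hP⟩
  choose P hP using hP
  have hdeg : ∀ z, (poly z).natDegree = n := fun z => by
    show (∏ i, (Polynomial.X - Polynomial.C (cosVal N f i z))).natDegree = _
    rw [Polynomial.natDegree_finset_prod_X_sub_C_eq_card, Finset.card_univ, hn,
      Nat.card_eq_fintype_card]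
  refine ⟨P, ?_, fun z => ?_⟩
  · apply Polynomial.funext
    intro a
    obtain ⟨τ, rfl⟩ := exists_jfun_eq a
    rw [← hP, Polynomial.eval_one, ← hdeg τ]
    exact (Polynomial.monic_prod_X_sub_C _ _).coeff_natDegree
  · simp only [← hP]
    rw [← hdeg z, ← Polynomial.eval_eq_sum_range]
    simp only [poly, Polynomial.eval_prod, Polynomial.eval_sub, Polynomial.eval_X,
      Polynomial.eval_C]
    refine Finset.prod_eq_zero (Finset.mem_univ (QuotientGroup.mk 1 : FA.Dim.Cos N)) ?_
    rw [cosVal_mk hf, inv_one, one_smul, sub_self]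

/-! ### The degree -/

variable {L : Type} [Field L] [Algebra L ℂ] {N : ℕ} [NeZero N]

/-- An algebraic relation over `L[j]`, monic of degree the index, for an element of `genAlg`. -/
theorem exists_monic_relation (a : genAlg L N) :
    ∃ R : ℕ → Polynomial L, R (Nat.card (FA.Dim.Cos N)) = 1 ∧
      ∑ k ∈ Finset.range (Nat.card (FA.Dim.Cos N) + 1),
        Polynomial.aeval (jqModC L) (R k) * (a : LaurentSeries L) ^ k = 0 := by
  classical
  set n := Nat.card (FA.Dim.Cos N)
  obtain ⟨P, hPn, hP⟩ := exists_modular_equation (funHom_mem a)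
  set D := (Finset.range (n + 1)).sup fun k => (P k).natDegree
  let v : Fin (n + 1) × Fin (D + 1) → LaurentSeries L := fun p =>
    jqModC L ^ (p.2 : ℕ) * (a : LaurentSeries L) ^ (p.1 : ℕ)
  let c : Fin (n + 1) × Fin (D + 1) → ℂ := fun p => (P p.1).coeff p.2
  have hser : HasExp (qp 1) (∑ p, (fun z => c p * (jfun z ^ (p.2 : ℕ) * funHom a z ^ (p.1 : ℕ))))
      (∑ p, HahnSeries.C (c p) * coeffMap (algebraMap L ℂ) (v p)) := by
    refine hasExp_sum _ fun p _ => ?_
    rw [map_mul, map_pow, map_pow, coeffMap_jqModC]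
    exact (hasExp_C (c p)).mul (qp_ne_zero 1)
      ((hasExp_jfun.pow (qp_ne_zero 1) _).mul (qp_ne_zero 1)
        ((funHom_exp a).pow (qp_ne_zero 1) _))
  have hzero : (∑ p, (fun z => c p * (jfun z ^ (p.2 : ℕ) * funHom a z ^ (p.1 : ℕ)))) = 0 := by
    funext z
    rw [Pi.zero_apply, ← hP z, Finset.sum_apply, Fintype.sum_prod_type,
      ← Fin.sum_univ_eq_sum_range]
    refine Finset.sum_congr rfl fun k _ => ?_
    rw [Polynomial.eval_eq_sum_range' (n := D + 1) (by
      have := Finset.le_sup (f := fun k => (P k).natDegree) (Finset.mem_range.2 k.2)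
      omega), ← Fin.sum_univ_eq_sum_range, Finset.sum_mul]
    exact Finset.sum_congr rfl fun i _ => by simp only [c]; ring
  rw [hzero] at hser
  obtain ⟨b, hb0, hbz, hb⟩ := descent v c (hasExp_eq_zero (covers_qp 1) hser)
    (⟨n, Nat.lt_succ_self n⟩, 0) (by simp [c, n, hPn]) one_ne_zero
  let R : ℕ → Polynomial L := fun k =>
    if h : k < n + 1 then ∑ i : Fin (D + 1), Polynomial.C (b (⟨k, h⟩, i)) * Polynomial.X ^ (i : ℕ)
    else 0
  refine ⟨R, ?_, ?_⟩
  · simp only [R, dif_pos (Nat.lt_succ_self n)]
    rw [Finset.sum_eq_single 0]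
    · rw [hb0]; simp
    · intro i _ hi
      rw [hbz _ (by simp [c, n, hPn, Polynomial.coeff_one, Fin.val_eq_zero_iff, hi])]
      simp
    · simp
  · rw [← hb, Fintype.sum_prod_type, ← Fin.sum_univ_eq_sum_range]
    refine Finset.sum_congr rfl fun k _ => ?_
    simp only [R, dif_pos k.2, map_sum, Finset.sum_mul, map_mul, map_pow, Polynomial.aeval_C,
      Polynomial.aeval_X, Fin.eta, v, algebraMap_laurentSeries_eq_single, ← HahnSeries.C_apply]
    exact Finset.sum_congr rfl fun i _ => by ring

variable (L N) in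
/-- The subfield `L(j)`. -/
abbrev jField : IntermediateField L (modularFunctionFieldFullC L N) := L⟮jElem L N⟯

theorem jqModC_transcendental (K : Type*) [Field K] : Transcendental K (jqModC K) := by
  rw [transcendental_iff]
  intro p hp
  by_contra hp0
  have h := congrArg (fun s : LaurentSeries K => s.coeff (-(p.natDegree : ℤ))) hp
  simp only [Polynomial.aeval_eq_sum_range, coeff_sum, coeff_zero, Algebra.smul_def,
    algebraMap_laurentSeries_eq_single, coeff_single_zero_mul] at h
  rw [Finset.sum_eq_single p.natDegree] at h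
  · rw [jqModC_pow_coeff, mul_one] at h
    exact hp0 (Polynomial.leadingCoeff_eq_zero.1 h)
  · intro k hk hne
    have : k < p.natDegree := lt_of_le_of_ne (Nat.lt_succ_iff.1 (Finset.mem_range.1 hk)) hne
    rw [(ordGE_jqModC.pow k) _ (by omega), mul_zero]
  · simp

theorem coe_aeval_F (x : modularFunctionFieldFullC L N) (p : Polynomial L) :
    ((Polynomial.aeval x p : modularFunctionFieldFullC L N) : LaurentSeries L) =
      Polynomial.aeval (x : LaurentSeries L) p :=
  (Polynomial.aeval_algHom_apply (modularFunctionFieldFullC L N).val x p).symm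

theorem jElem_transcendental : Transcendental L (jElem L N) := by
  rw [transcendental_iff]
  intro p hp
  have h := congrArg (fun x : modularFunctionFieldFullC L N => (x : LaurentSeries L)) hp
  simp only [coe_aeval_F, ZeroMemClass.coe_zero] at h
  exact (transcendental_iff.1 (jqModC_transcendental L)) p h

variable [CharZero L]

/-- Every element of `genAlg` has degree at most the index over `L(j)`. -/
theorem minpoly_genAlg (a : genAlg L N) :
    IsIntegral (jField L N) (algebraMap (genAlg L N) (modularFunctionFieldFullC L N) a) ∧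
    (minpoly (jField L N) (algebraMap (genAlg L N) (modularFunctionFieldFullC L N) a)).natDegree ≤
      Nat.card (FA.Dim.Cos N) := by
  classical
  set n := Nat.card (FA.Dim.Cos N)
  obtain ⟨R, hRn, hR⟩ := exists_monic_relation a
  set g : Polynomial L →+* jField L N :=
    (Polynomial.aeval (R := L) (IntermediateField.AdjoinSimple.gen L (jElem L N))).toRingHom
  let Q : Polynomial (jField L N) :=
    ∑ k ∈ Finset.range (n + 1), Polynomial.C (g (R k)) * Polynomial.X ^ k
  have hQn : Q.coeff n = 1 := by
    simp only [Q, Polynomial.finsetSum_coeff, Polynomial.coeff_C_mul_X_pow]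
    rw [Finset.sum_eq_single n]
    · rw [if_pos rfl, hRn, map_one]
    · intro k _ hk; rw [if_neg (Ne.symm hk)]
    · simp
  have hQd : Q.natDegree ≤ n := Polynomial.natDegree_sum_le_of_forall_le _ _ fun k hk =>
    (Polynomial.natDegree_C_mul_X_pow_le _ _).trans (Nat.lt_succ_iff.1 (Finset.mem_range.1 hk))
  have hQm : Q.Monic := Polynomial.monic_of_natDegree_le_of_coeff_eq_one n hQd hQn
  have hev : Polynomial.aeval (algebraMap (genAlg L N) (modularFunctionFieldFullC L N) a) Q = 0 := by
    apply Subtype.ext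
    simp only [Q, map_sum, map_mul, map_pow, Polynomial.aeval_C, Polynomial.aeval_X]
    refine Eq.trans ?_ (hR.trans (ZeroMemClass.coe_zero _).symm)
    rw [AddSubmonoidClass.coe_finsetSum]
    refine Finset.sum_congr rfl fun k _ => ?_
    rw [MulMemClass.coe_mul, SubmonoidClass.coe_pow]
    congr 1
    show ((algebraMap (jField L N) (modularFunctionFieldFullC L N) (g (R k)) :
      modularFunctionFieldFullC L N) : LaurentSeries L) = _
    rw [show algebraMap (jField L N) (modularFunctionFieldFullC L N) (g (R k)) =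
      Polynomial.aeval (jElem L N) (R k) from ?_, coe_aeval_F]
    · rfl
    · show (algebraMap (jField L N) (modularFunctionFieldFullC L N))
        (Polynomial.aeval _ (R k)) = _
      rw [← Polynomial.aeval_algebraMap_apply]
      rfl
  exact ⟨⟨Q, hQm, hev⟩,
    (Polynomial.natDegree_le_of_dvd (minpoly.dvd _ _ hev) hQm.ne_zero).trans hQd⟩

/-- Every element has degree at most the index over `L(j)`. -/
theorem minpoly_bound (f : modularFunctionFieldFullC L N) :
    IsIntegral (jField L N) f ∧
    (minpoly (jField L N) f).natDegree ≤ Nat.card (FA.Dim.Cos N) := by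
  classical
  set am := algebraMap (genAlg L N) (modularFunctionFieldFullC L N)
  obtain ⟨a, b, hb, hab⟩ := exists_fraction_eq f
  have hab' : f * am b = am a := hab
  have hbne : am b ≠ 0 := fun h => hb (FaithfulSMul.algebraMap_injective (genAlg L N) (modularFunctionFieldFullC L N) (by
    rw [map_zero]; exact h))
  -- `1/b` is a polynomial in `b` over `L(j)`
  have hint := (minpoly_genAlg b).1
  have hmem : (am b)⁻¹ ∈ Algebra.adjoin (jField L N) {am b} := by
    rw [← IntermediateField.adjoin_simple_toSubalgebra_of_isAlgebraic hint.isAlgebraic,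
      IntermediateField.mem_toSubalgebra]
    exact inv_mem (IntermediateField.mem_adjoin_simple_self (jField L N) (am b))
  rw [Algebra.adjoin_singleton_eq_range_aeval] at hmem
  obtain ⟨p, hp⟩ := hmem
  -- elements with a denominator in `L[j]`
  let den : modularFunctionFieldFullC L N → Prop := fun x => ∃ q : Polynomial L, q ≠ 0 ∧
    ∃ a' : genAlg L N, Polynomial.aeval (jElem L N) q * x = am a'
  have hjmem : ∀ q : Polynomial L, ∃ a' : genAlg L N, Polynomial.aeval (jElem L N) q = am a' := by
    intro q
    refine ⟨Polynomial.aeval (algGen (L := L) 1 (one_dvd N)) q, ?_⟩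
    rw [← Polynomial.aeval_algebraMap_apply]
    congr 1
    exact congrArg _ (Subtype.ext (qExpand_one_apply _)).symm
  have hden0 : ∀ q : Polynomial L, q ≠ 0 → Polynomial.aeval (jElem L N) q ≠ 0 := fun q hq h =>
    hq ((transcendental_iff.1 jElem_transcendental) q h)
  have hscal : ∀ m : jField L N, den (m : modularFunctionFieldFullC L N) := by
    intro m
    obtain ⟨r, s, hrs⟩ := (IntermediateField.mem_adjoin_simple_iff L (m : modularFunctionFieldFullC L N)).1 m.2
    rcases eq_or_ne s 0 with rfl | hs
    · exact ⟨1, one_ne_zero, 0, by rw [hrs]; simp⟩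
    obtain ⟨a', ha'⟩ := hjmem r
    exact ⟨s, hs, a', by rw [hrs, mul_div_cancel₀ _ (hden0 s hs), ha']⟩
  have hdenmul : ∀ (x : modularFunctionFieldFullC L N) (a' : genAlg L N), den x → den (x * am a') := by
    rintro x a' ⟨q, hq, a1, ha1⟩
    exact ⟨q, hq, a1 * a', by rw [← mul_assoc, ha1, map_mul]⟩
  have hdenadd : ∀ x y : modularFunctionFieldFullC L N, den x → den y → den (x + y) := by
    rintro x y ⟨q, hq, a1, ha1⟩ ⟨r, hr, a2, ha2⟩
    obtain ⟨aq, haq⟩ := hjmem q
    obtain ⟨ar, har⟩ := hjmem r
    refine ⟨q * r, mul_ne_zero hq hr, ar * a1 + aq * a2, ?_⟩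
    rw [map_add, map_mul, map_mul, map_mul, ← haq, ← har, ← ha1, ← ha2]
    ring
  have hden : den f := by
    have hf : f = Polynomial.aeval (am b) p * am a := by
      have hp' : Polynomial.aeval (am b) p = (am b)⁻¹ := hp
      rw [hp', ← hab', mul_comm f, ← mul_assoc, inv_mul_cancel₀ hbne, one_mul]
    rw [hf]
    clear hf hp
    induction p using Polynomial.induction_on' with
    | add p1 p2 h1 h2 => rw [map_add, add_mul]; exact hdenadd _ _ h1 h2
    | monomial k m =>
      rw [Polynomial.aeval_monomial, ← map_pow, mul_assoc, ← map_mul]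
      exact hdenmul _ _ (hscal m)
  obtain ⟨q, hq, a', ha'⟩ := hden
  set c : jField L N := Polynomial.aeval (IntermediateField.AdjoinSimple.gen L (jElem L N)) q with hc
  have hc' : algebraMap (jField L N) (modularFunctionFieldFullC L N) c = Polynomial.aeval (jElem L N) q := by
    rw [hc, ← Polynomial.aeval_algebraMap_apply]; rfl
  have hc0 : c ≠ 0 := fun h => hden0 q hq (by rw [← hc', h, map_zero])
  have heq : f = algebraMap (jField L N) (modularFunctionFieldFullC L N) c⁻¹ * am a' := by
    rw [← ha', ← mul_assoc, map_inv₀, hc', inv_mul_cancel₀ (hden0 q hq), one_mul]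
  have hint' : IsIntegral (jField L N) f :=
    heq ▸ isIntegral_algebraMap.mul (minpoly_genAlg a').1
  refine ⟨hint', ?_⟩
  -- `f` lies in `L(j)(a')`
  have hf : f ∈ (jField L N)⟮am a'⟯ := heq ▸ mul_mem (IntermediateField.algebraMap_mem _ _)
    (IntermediateField.mem_adjoin_simple_self _ _)
  haveI := IntermediateField.adjoin.finiteDimensional (minpoly_genAlg a').1
  have h1 := IntermediateField.minpoly_eq (⟨f, hf⟩ : (jField L N)⟮am a'⟯)
  have h2 := minpoly.natDegree_le (A := jField L N) (⟨f, hf⟩ : (jField L N)⟮am a'⟯)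
  rw [IntermediateField.adjoin.finrank (minpoly_genAlg a').1] at h2
  rw [h1] at h2
  exact h2.trans (minpoly_genAlg a').2

theorem exists_primitive : ∃ α : modularFunctionFieldFullC L N,
    (jField L N)⟮α⟯ = ⊤ ∧
      (minpoly (jField L N) α).natDegree ≤ Nat.card (FA.Dim.Cos N) := by
  classical
  set F := modularFunctionFieldFullC L N
  set n := Nat.card (FA.Dim.Cos N)
  obtain ⟨d, hd, hdmax⟩ : ∃ d, (∃ α : F, (minpoly (jField L N) α).natDegree = d) ∧
      ∀ α : F, (minpoly (jField L N) α).natDegree ≤ d := by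
    have hbdd : BddAbove (Set.range fun α : F => (minpoly (jField L N) α).natDegree) :=
      ⟨n, fun x ⟨α, hα⟩ => hα ▸ (minpoly_bound α).2⟩
    exact ⟨_, Nat.sSup_mem (Set.range_nonempty _) hbdd,
      fun α => le_csSup hbdd (Set.mem_range_self α)⟩
  obtain ⟨α, hα⟩ := hd
  refine ⟨α, ?_, (minpoly_bound α).2⟩
  by_contra hne
  obtain ⟨f, -, hf⟩ := SetLike.exists_of_lt (lt_top_iff_ne_top.2 hne)
  set E := IntermediateField.adjoin (jField L N) ({α, f} : Set F)
  haveI : FiniteDimensional (jField L N) E :=
    IntermediateField.finiteDimensional_adjoin_pair (minpoly_bound α).1 (minpoly_bound f).1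
  haveI : CharZero (jField L N) :=
    charZero_of_injective_algebraMap (algebraMap L (jField L N)).injective
  obtain ⟨β, hβ⟩ := Field.exists_primitive_element (jField L N) E
  have hlt : (jField L N)⟮α⟯ < E := by
    refine lt_of_le_of_ne (IntermediateField.adjoin.mono _ _ _ (by simp)) fun h => hf ?_
    rw [h]
    exact IntermediateField.subset_adjoin _ _ (by simp)
  have h1 : Module.finrank (jField L N) (jField L N)⟮α⟯ < Module.finrank (jField L N) E := by
    exact Submodule.finrank_lt_finrank_of_lt (s := Subalgebra.toSubmodule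
      ((jField L N)⟮α⟯).toSubalgebra) (t := Subalgebra.toSubmodule E.toSubalgebra) hlt
  rw [IntermediateField.adjoin.finrank (minpoly_bound α).1, hα] at h1
  have h2 : Module.finrank (jField L N) E = (minpoly (jField L N) (β : F)).natDegree := by
    rw [← IntermediateField.minpoly_eq β,
      ← IntermediateField.adjoin.finrank (IsIntegral.of_finite (jField L N) β), hβ,
      IntermediateField.finrank_top']
  have := hdmax (β : F)
  omega

theorem finite_jField : FiniteDimensional (jField L N) (modularFunctionFieldFullC L N) := by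
  obtain ⟨α, hα, -⟩ := exists_primitive (L := L) (N := N)
  haveI := IntermediateField.adjoin.finiteDimensional (minpoly_bound α).1
  rw [hα] at this
  exact Module.Finite.equiv IntermediateField.topEquiv.toLinearEquiv

theorem embCos_agree (P : Param N) {M : LaurentSeries ℂ}
    (hM : HasExp P.T (fun x => jfun (P.g₀ x)) M) (i j : FA.Dim.Cos N)
    (x : jField L N) : embCos P i (x : modularFunctionFieldFullC L N) =
      embCos P j (x : modularFunctionFieldFullC L N) := by
  have h : (embCos (L := L) P i).comp (jField L N).val = (embCos P j).comp (jField L N).val :=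
    IntermediateField.algHom_ext_of_eq_adjoin L rfl fun z hz => by
      rw [Set.mem_singleton_iff] at hz
      subst hz
      show emb P _ (jElem L N) = emb P _ (jElem L N)
      rw [emb_jElem P _ hM, emb_jElem P _ hM]
  exact AlgHom.congr_fun h x

/-- `[F : L(j)] = ψ(N)`. -/
theorem finrank_jField :
    Module.finrank (jField L N) (modularFunctionFieldFullC L N) = Nat.card (FA.Dim.Cos N) := by
  classical
  haveI := finite_jField (L := L) (N := N)
  haveI := Fintype.ofFinite (FA.Dim.Cos N)
  obtain ⟨α, hα, hαd⟩ := exists_primitive (L := L) (N := N)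
  refine le_antisymm ?_ ?_
  · rw [← IntermediateField.finrank_top', ← hα,
      IntermediateField.adjoin.finrank (minpoly_bound α).1]
    exact hαd
  · haveI : CharZero (jField L N) :=
      charZero_of_injective_algebraMap (algebraMap L (jField L N)).injective
    set P := cuspParam N
    have hM : ∃ M, HasExp P.T (fun x => jfun (P.g₀ x)) M :=
      ⟨_, hasExp_jfun.comp (U := qp N) id N 1 (fun z => by simp [qp_pow_self])⟩
    obtain ⟨M, hM⟩ := hM
    set i₀ : FA.Dim.Cos N := QuotientGroup.mk 1
    letI : Algebra (jField L N) (AlgebraicClosure (LaurentSeries ℂ)) :=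
      ((algebraMap (LaurentSeries ℂ) _).comp
        ((embCos (L := L) P i₀).toRingHom.comp (algebraMap (jField L N) _))).toAlgebra
    let τ : FA.Dim.Cos N →
        modularFunctionFieldFullC L N →ₐ[jField L N] AlgebraicClosure (LaurentSeries ℂ) := fun i =>
      { (algebraMap (LaurentSeries ℂ) _).comp (embCos P i).toRingHom with
        commutes' := fun x => by
          show algebraMap (LaurentSeries ℂ) _ (embCos P i (x : modularFunctionFieldFullC L N)) = _
          rw [embCos_agree P hM i i₀]
          rfl }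
    have hτ : Function.Injective τ := fun i j h => embCos_injective P (AlgHom.ext fun z =>
      (algebraMap (LaurentSeries ℂ) _).injective (AlgHom.congr_fun h z))
    rw [Nat.card_eq_fintype_card,
      ← AlgHom.card (jField L N) _ (AlgebraicClosure (LaurentSeries ℂ))]
    exact Fintype.card_le_of_injective τ hτ

theorem finrank_jField_eq_psi :
    Module.finrank (jField L N) (modularFunctionFieldFullC L N) = dedekindPsi N := by
  rw [finrank_jField, FA.Dim.card_cos]

end FA.ModField
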