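import Mathlib
import Fermat.Prelude.Def_AlgebraicCurve_DivisorClassGroup
import Fermat.Prelude.Def_ModularCurve_CanonicalDivisor

/-!
# Generalities on one-variable function fields over an algebraically closed field:
places have degree one, differentials are spanned by any transcendental element.
-/

set_option autoImplicit false
set_option linter.style.haveILetI false

noncomputable section

namespace FA.ModField

open AlgebraicCurve Polynomial IntermediateField

variable {K F : Type*} [Field K] [Field F] [Algebra K F]

/-! ### Elementary properties of `ord` -/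

section Ord

variable (v : Place K F)

theorem mem_place_of_ord_nonneg {f : F} (h : 0 ≤ v.ord f) : f ∈ v.toValuationSubring := by
  rcases eq_or_ne f 0 with rfl | hf
  · exact zero_mem _
  obtain ⟨π, hπ⟩ := IsDiscreteValuationRing.exists_irreducible v.toValuationSubring
  obtain ⟨u, hu⟩ := v.exists_unit_mul_zpow hf hπ
  obtain ⟨n, hn⟩ := Int.eq_ofNat_of_zero_le h
  rw [hu, hn]
  exact mul_mem (u : v.toValuationSubring).2 (zpow_natCast (π : F) n ▸ pow_mem π.2 n)

theorem ord_nonneg_of_mem {f : F} (h : f ∈ v.toValuationSubring) : 0 ≤ v.ord f := by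
  rcases eq_or_ne f 0 with rfl | hf
  · simp
  obtain ⟨π, hπ⟩ := IsDiscreteValuationRing.exists_irreducible v.toValuationSubring
  obtain ⟨n, u, hu⟩ := IsDiscreteValuationRing.eq_unit_mul_pow_irreducible
    (x := (⟨f, h⟩ : v.toValuationSubring)) (by simpa [Subtype.ext_iff] using hf) hπ
  have h' := congrArg Subtype.val hu
  simp only [MulMemClass.coe_mul, SubmonoidClass.coe_pow] at h'
  rw [h', ← zpow_natCast, v.ord_unit_smul_zpow u hπ]
  positivity

theorem mem_place_iff {f : F} : f ∈ v.toValuationSubring ↔ 0 ≤ v.ord f :=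
  ⟨ord_nonneg_of_mem v, mem_place_of_ord_nonneg v⟩

theorem place_ord_neg (f : F) : v.ord (-f) = v.ord f := by
  simp [Place.ord, Valuation.map_neg]

theorem place_ord_add {f g : F} {n : ℤ} (hfg : f + g ≠ 0) (hf : f = 0 ∨ n ≤ v.ord f)
    (hg : g = 0 ∨ n ≤ v.ord g) : n ≤ v.ord (f + g) := by
  rcases hf with rfl | hf
  · rcases hg with rfl | hg
    · simp at hfg
    · simpa using hg
  rcases hg with rfl | hg
  · simpa using hf
  rcases eq_or_ne f 0 with rfl | hf0
  · simpa using hg
  rcases eq_or_ne g 0 with rfl | hg0
  · simpa using hf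
  obtain ⟨π, hπ⟩ := IsDiscreteValuationRing.exists_irreducible v.toValuationSubring
  have hπ0 : (π : F) ≠ 0 := by simpa using hπ.ne_zero
  have hπn : (π : F) ^ n ≠ 0 := zpow_ne_zero n hπ0
  have hord : v.ord ((π : F) ^ n) = n := by rw [v.ord_zpow, v.ord_coe_irreducible hπ, mul_one]
  have key : ∀ h : F, h ≠ 0 → n ≤ v.ord h → h / (π : F) ^ n ∈ v.toValuationSubring := by
    intro h h0 hn
    apply mem_place_of_ord_nonneg
    rw [div_eq_mul_inv, v.ord_mul h0 (inv_ne_zero hπn), v.ord_inv, hord]
    linarith
  have hmem := add_mem (key f hf0 hf) (key g hg0 hg)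
  rw [← add_div] at hmem
  have := ord_nonneg_of_mem v hmem
  rw [div_eq_mul_inv, v.ord_mul hfg (inv_ne_zero hπn), v.ord_inv, hord] at this
  linarith

theorem place_ord_algebraMap (a : K) : v.ord (algebraMap K F a) = 0 := by
  rcases eq_or_ne a 0 with rfl | ha
  · simp
  have h1 := ord_nonneg_of_mem v (v.algebraMap_mem' a)
  have h2 := ord_nonneg_of_mem v (v.algebraMap_mem' a⁻¹)
  rw [map_inv₀, v.ord_inv] at h2
  omega

theorem exists_uniformizer : ∃ t : F, v.ord t = 1 := by
  obtain ⟨π, hπ⟩ := IsDiscreteValuationRing.exists_irreducible v.toValuationSubring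
  exact ⟨π, v.ord_coe_irreducible hπ⟩

theorem place_ord_pow (f : F) (n : ℕ) : v.ord (f ^ n) = n * v.ord f := by
  simpa using v.ord_zpow f n

end Ord

/-! ### The class of one-variable function fields -/

variable (K F) in
/-- `F` is finite over `K(t)` for every `t` transcendental over `K`. -/
def IsCurve : Prop := ∀ t : F, Transcendental K t → FiniteDimensional K⟮t⟯ F

theorem aevalAeval_eq_eval₂ (x z : F) (P : K[X][X]) :
    P.aevalAeval x z = P.eval₂ (Polynomial.aeval (R := K) x).toRingHom z := by
  induction P using Polynomial.induction_on' with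
  | add a b ha hb => simp only [map_add, ha, hb, eval₂_add]
  | monomial n a => simp [← C_mul_X_pow_eq_monomial, eval₂_mul, eval₂_pow]

theorem isAlgebraic_swap {x z : F} (hz : Transcendental K z) (h : IsAlgebraic K⟮x⟯ z) :
    IsAlgebraic K⟮z⟯ x := by
  classical
  open scoped algebraAdjoinAdjoin in
  have h' : IsAlgebraic (Algebra.adjoin K ({x} : Set F)) z :=
    (IsFractionRing.isAlgebraic_iff (Algebra.adjoin K ({x} : Set F)) K⟮x⟯ F).2 h
  obtain ⟨p, hp0, hp⟩ := h'
  have hlift : p.map (algebraMap (Algebra.adjoin K ({x} : Set F)) F) ∈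
      Polynomial.lifts (Polynomial.aeval (R := K) x).toRingHom := by
    rw [Polynomial.lifts_iff_coeff_lifts]
    intro n
    rw [Polynomial.coeff_map]
    have : ((p.coeff n : Algebra.adjoin K ({x} : Set F)) : F) ∈ (Polynomial.aeval (R := K) x).range :=
      (Algebra.adjoin_singleton_eq_range_aeval K x).le (p.coeff n).2
    exact this
  obtain ⟨P, hP⟩ := hlift
  rw [Polynomial.coe_mapRingHom] at hP
  have hP0 : P ≠ 0 := by
    rintro rfl
    rw [Polynomial.map_zero, eq_comm, Polynomial.map_eq_zero_iff Subtype.val_injective] at hP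
    exact hp0 hP
  have hev : P.aevalAeval x z = 0 := by
    have h1 : (P.map (Polynomial.aeval (R := K) x).toRingHom).eval z = 0 := by
      rw [hP, Polynomial.eval_map, ← Polynomial.aeval_def]; exact hp
    rw [aevalAeval_eq_eval₂, ← Polynomial.eval_map]; exact h1
  refine ⟨(Bivariate.swap P).map
    (Polynomial.aeval (R := K) (IntermediateField.AdjoinSimple.gen K z)).toRingHom, ?_, ?_⟩
  · rw [Ne, Polynomial.map_eq_zero_iff]
    · exact fun h => hP0 (by simpa using h)
    · intro a b hab
      have h2 : Polynomial.aeval z a = Polynomial.aeval z b := by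
        have h1 := congrArg (fun w : K⟮z⟯ => (w : F)) hab
        simpa [IntermediateField.aeval_coe] using h1
      exact transcendental_iff_injective.1 hz h2
  · rw [← Bivariate.aevalAeval_swap] at hev
    rw [Polynomial.aeval_def, Polynomial.eval₂_map]
    have hcomp : (algebraMap K⟮z⟯ F).comp
        (Polynomial.aeval (R := K) (IntermediateField.AdjoinSimple.gen K z)).toRingHom
        = (Polynomial.aeval (R := K) z).toRingHom := by
      apply Polynomial.ringHom_ext
      · intro a; simp [← IsScalarTower.algebraMap_apply]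
      · simp
    rw [hcomp]
    rw [aevalAeval_eq_eval₂] at hev; exact hev

theorem isCurve_of_finiteDimensional {x : F} (hfin : FiniteDimensional K⟮x⟯ F) :
    IsCurve K F := by
  intro z hz
  have hx : IsAlgebraic K⟮z⟯ x := isAlgebraic_swap hz (Algebra.IsAlgebraic.isAlgebraic z)
  haveI : FiniteDimensional K⟮z⟯ K⟮z⟯⟮x⟯ := adjoin.finiteDimensional hx.isIntegral
  have hle : K⟮x⟯ ≤ IntermediateField.restrictScalars K K⟮z⟯⟮x⟯ := by
    rw [IntermediateField.adjoin_le_iff, Set.singleton_subset_iff]
    exact IntermediateField.mem_adjoin_simple_self _ x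
  letI := (IntermediateField.inclusion hle).toRingHom.toAlgebra
  haveI : FiniteDimensional (IntermediateField.restrictScalars K K⟮z⟯⟮x⟯) F := by
    haveI : IsScalarTower K⟮x⟯ (IntermediateField.restrictScalars K K⟮z⟯⟮x⟯) F :=
      IsScalarTower.of_algebraMap_eq fun _ => rfl
    exact Module.Finite.of_restrictScalars_finite K⟮x⟯ _ F
  haveI : FiniteDimensional K⟮z⟯⟮x⟯ F :=
    inferInstanceAs (FiniteDimensional (IntermediateField.restrictScalars K K⟮z⟯⟮x⟯) F)
  exact FiniteDimensional.trans K⟮z⟯ K⟮z⟯⟮x⟯ F

/-! ### Residue fields -/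

section Residue

variable [IsAlgClosed K] (hC : IsCurve K F) (v : Place K F)

theorem transcendental_of_not_const {f : F} (h : ∀ a : K, f ≠ algebraMap K F a) :
    Transcendental K f := by
  intro halg
  obtain ⟨p, hp0, hp⟩ := halg
  have hs : p.Splits := IsAlgClosed.splits p
  rw [hs.eq_prod_roots, map_mul, aeval_C, mul_eq_zero] at hp
  rcases hp with hp | hp
  · simp [hp0] at hp
  · rw [map_multiset_prod, Multiset.map_map, Multiset.prod_eq_zero_iff, Multiset.mem_map] at hp
    obtain ⟨a, -, ha⟩ := hp
    exact h a (sub_eq_zero.1 (by simpa using ha))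

theorem transcendental_of_ord_ne_zero {f : F} (h : v.ord f ≠ 0) : Transcendental K f :=
  transcendental_of_not_const fun a ha => h (ha ▸ place_ord_algebraMap v a)

include hC in
/-- Every element of the valuation ring is congruent to a constant. -/
theorem exists_residue {f : F} (hf : f ∈ v.toValuationSubring) :
    ∃ a : K, f = algebraMap K F a ∨ 0 < v.ord (f - algebraMap K F a) := by
  by_contra hno
  push Not at hno
  have hunit : ∀ a : K, f - algebraMap K F a ≠ 0 ∧ v.ord (f - algebraMap K F a) = 0 := fun a =>
    ⟨sub_ne_zero.2 (hno a).1, le_antisymm (hno a).2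
      (ord_nonneg_of_mem v (sub_mem hf (v.algebraMap_mem' a)))⟩
  have htr : Transcendental K f := transcendental_of_not_const fun a => (hno a).1
  -- every nonzero polynomial in `f` has order zero
  have hpoly : ∀ p : K[X], p ≠ 0 → v.ord (aeval f p) = 0 ∧ aeval f p ≠ 0 := by
    intro p hp
    have hs : p.Splits := IsAlgClosed.splits p
    rw [hs.eq_prod_roots, map_mul, aeval_C, map_multiset_prod, Multiset.map_map]
    induction p.roots using Multiset.induction with
    | empty => simp [place_ord_algebraMap, hp]
    | cons a s ih =>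
      obtain ⟨h1, h2⟩ := ih
      simp only [Multiset.map_cons, Multiset.prod_cons, Function.comp_apply, map_sub, aeval_X,
        aeval_C] at h1 h2 ⊢
      rw [mul_left_comm]
      exact ⟨by rw [v.ord_mul (hunit a).1 h2, (hunit a).2, h1, add_zero],
        mul_ne_zero (hunit a).1 h2⟩
  have hfield : ∀ g : K⟮f⟯, (g : F) ∈ v.toValuationSubring := by
    intro g
    obtain ⟨r, s, hrs⟩ := (IntermediateField.mem_adjoin_simple_iff K (g : F)).1 g.2
    apply mem_place_of_ord_nonneg
    rw [hrs]
    rcases eq_or_ne s 0 with rfl | hs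
    · simp
    rcases eq_or_ne r 0 with rfl | hr
    · simp
    rw [div_eq_mul_inv, v.ord_mul (hpoly r hr).2 (inv_ne_zero (hpoly s hs).2), v.ord_inv,
      (hpoly r hr).1, (hpoly s hs).1]
    simp
  obtain ⟨π, hπ⟩ := IsDiscreteValuationRing.exists_irreducible v.toValuationSubring
  haveI := hC f htr
  -- a relation for `π` with nonzero constant term
  set q := minpoly K⟮f⟯ (π : F) with hq
  have hint : IsIntegral K⟮f⟯ (π : F) := IsIntegral.of_finite _ _
  have hπ0 : (π : F) ≠ 0 := by simpa using hπ.ne_zero
  have hc0 : q.coeff 0 ≠ 0 := minpoly.coeff_zero_ne_zero hint hπ0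
  have heval : aeval (π : F) q = 0 := minpoly.aeval _ _
  rw [← q.X_mul_divX_add, map_add, map_mul, aeval_X, aeval_C] at heval
  have hrest : aeval (π : F) q.divX ∈ v.toValuationSubring := by
    rw [aeval_eq_sum_range]
    refine sum_mem fun i _ => ?_
    rw [Algebra.smul_def]
    exact mul_mem (hfield _) (pow_mem π.2 i)
  have hc : (algebraMap K⟮f⟯ F (q.coeff 0)) ≠ 0 := by simpa using hc0
  have hord0 : v.ord (algebraMap K⟮f⟯ F (q.coeff 0)) = 0 := by
    have h1 := ord_nonneg_of_mem v (hfield (q.coeff 0))
    have h2 := ord_nonneg_of_mem v (hfield (q.coeff 0)⁻¹)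
    rw [IntermediateField.coe_inv, v.ord_inv] at h2
    rw [IntermediateField.algebraMap_apply]
    omega
  have heq : algebraMap K⟮f⟯ F (q.coeff 0) = -((π : F) * aeval (π : F) q.divX) := by
    linear_combination heval
  have hr0 : aeval (π : F) q.divX ≠ 0 := fun h => hc (by rw [heq, h, mul_zero, neg_zero])
  rw [heq, place_ord_neg, v.ord_mul hπ0 hr0, v.ord_coe_irreducible hπ] at hord0
  have := ord_nonneg_of_mem v hrest
  omega

include hC in
/-- Places have degree one. -/
theorem place_deg_eq_one : v.deg = 1 := by
  have hsurj : Function.Surjective (algebraMap K v.ResidueField) := by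
    intro z
    obtain ⟨⟨f, hf⟩, rfl⟩ := IsLocalRing.residue_surjective z
    obtain ⟨a, ha⟩ := exists_residue hC v hf
    refine ⟨a, ?_⟩
    show IsLocalRing.residue _ (algebraMap K v.toValuationSubring a) = _
    rcases ha with ha | ha
    · exact congrArg _ (Subtype.ext (by simp [ha]))
    · symm
      rw [← sub_eq_zero, ← map_sub, IsLocalRing.residue_eq_zero_iff, IsLocalRing.mem_maximalIdeal,
        mem_nonunits_iff]
      intro hu
      have h0 : v.ord (f - algebraMap K F a) = 0 := by
        have h1 := v.ord_coe_unit hu.unit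
        rw [IsUnit.unit_spec] at h1
        simpa using h1
      omega
  have hbij : Function.Bijective (algebraMap K v.ResidueField) :=
    ⟨(algebraMap K v.ResidueField).injective, hsurj⟩
  rw [Place.deg, ← (LinearEquiv.ofBijective (Algebra.linearMap K v.ResidueField) hbij).finrank_eq,
    Module.finrank_self]

include hC in
/-- Truncated expansion in powers of a uniformizer. -/
theorem exists_expansion {t : F} (ht : v.ord t = 1) {f : F} (hf : f ∈ v.toValuationSubring)
    (n : ℕ) : ∃ (P : K[X]) (g : F), g ∈ v.toValuationSubring ∧ f = aeval t P + t ^ n * g := by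
  induction n with
  | zero => exact ⟨0, f, hf, by simp⟩
  | succ n ih =>
    obtain ⟨P, g, hg, hfg⟩ := ih
    obtain ⟨a, ha⟩ := exists_residue hC v hg
    have ht0 : t ≠ 0 := by rintro rfl; simp at ht
    refine ⟨P + C a * X ^ n, (g - algebraMap K F a) / t, ?_, ?_⟩
    · rcases ha with ha | ha
      · simp [ha]
      · apply mem_place_of_ord_nonneg
        have hne : g - algebraMap K F a ≠ 0 := fun h => by simp [h] at ha
        rw [div_eq_mul_inv, v.ord_mul hne (inv_ne_zero ht0), v.ord_inv, ht]
        omega
    · rw [hfg, map_add, map_mul, aeval_C, map_pow, aeval_X]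
      field_simp
      ring

end Residue

/-! ### Approximation -/

theorem exists_neg_pos_pair (v w : Place K F) (h : v ≠ w) :
    ∃ f : F, f ≠ 0 ∧ v.ord f < 0 ∧ 0 < w.ord f := by
  have key : ∀ a b : Place K F, a ≠ b → ∃ x, x ∈ a.toValuationSubring ∧
      x ∉ b.toValuationSubring := by
    intro a b hab
    by_contra hno
    push Not at hno
    apply hab
    apply Place.ext
    refine le_antisymm hno fun y hy => ?_
    by_contra hya
    obtain ⟨π, hπ⟩ := IsDiscreteValuationRing.exists_irreducible a.toValuationSubring
    have hπ0 : (π : F) ≠ 0 := by simpa using hπ.ne_zero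
    have hneg : a.ord y < 0 := by
      rw [mem_place_iff] at hya; omega
    have hy0 : y ≠ 0 := fun h0 => hya (h0 ▸ zero_mem _)
    -- every element lies in `b`
    apply b.ne_top'
    rw [eq_top_iff]
    intro z _
    rcases eq_or_ne z 0 with rfl | hz
    · exact zero_mem _
    set m : ℕ := (a.ord z).natAbs
    have hmem : z / y ^ m ∈ a.toValuationSubring := by
      apply mem_place_of_ord_nonneg
      rw [div_eq_mul_inv, a.ord_mul hz (inv_ne_zero (pow_ne_zero _ hy0)), a.ord_inv,
        place_ord_pow]
      have h1 : (m : ℤ) * a.ord y ≤ -(m : ℤ) := by nlinarith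
      omega
    have := b.toValuationSubring.mul_mem _ _ (hno _ hmem) (pow_mem hy m)
    rwa [div_mul_cancel₀ _ (pow_ne_zero _ hy0)] at this
  obtain ⟨x, hxv, hxw⟩ := key v w h
  obtain ⟨y, hyw, hyv⟩ := key w v h.symm
  rw [mem_place_iff] at hxv hxw hyw hyv
  have hx0 : x ≠ 0 := by rintro rfl; simp at hxw
  have hy0 : y ≠ 0 := by rintro rfl; simp at hyv
  refine ⟨y / x, div_ne_zero hy0 hx0, ?_, ?_⟩ <;>
    rw [div_eq_mul_inv, Place.ord_mul _ hy0 (inv_ne_zero hx0), Place.ord_inv] <;> omega

theorem exists_separating (v : Place K F) (S : Finset (Place K F)) (hv : v ∉ S) :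
    ∃ f : F, f ≠ 0 ∧ v.ord f < 0 ∧ ∀ w ∈ S, 0 < w.ord f := by
  classical
  induction S using Finset.induction with
  | empty =>
    obtain ⟨t, ht⟩ := exists_uniformizer v
    refine ⟨t⁻¹, ?_, ?_, by simp⟩
    · rintro h
      rw [inv_eq_zero] at h
      simp [h] at ht
    · rw [v.ord_inv, ht]; norm_num
  | @insert w S hwS ih =>
    simp only [Finset.mem_insert, not_or] at hv
    obtain ⟨f, hf0, hfv, hfS⟩ := ih hv.2
    obtain ⟨g, hg0, hgv, hgw⟩ := exists_neg_pos_pair v w hv.1
    rcases lt_or_ge 0 (w.ord f) with hw | hw
    · exact ⟨f, hf0, hfv, fun u hu => (Finset.mem_insert.1 hu).elim (fun h => h ▸ hw) (hfS u)⟩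
    set R : ℕ := 1 + (v.ord g).natAbs + ∑ u ∈ S, (u.ord g).natAbs with hR
    have hRu : ∀ u ∈ S, (u.ord g).natAbs < R := fun u hu => by
      have := Finset.single_le_sum (f := fun u : Place K F => (u.ord g).natAbs)
        (fun _ _ => Nat.zero_le _) hu
      omega
    have hpow : f ^ R ≠ 0 := pow_ne_zero _ hf0
    rcases hw.eq_or_lt with hw0 | hwneg
    · refine ⟨f ^ R * g, mul_ne_zero hpow hg0, ?_, ?_⟩
      · rw [v.ord_mul hpow hg0, place_ord_pow]
        nlinarith
      · intro u hu
        rw [u.ord_mul hpow hg0, place_ord_pow]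
        rcases Finset.mem_insert.1 hu with rfl | hu
        · rw [hw0]; simpa using hgw
        · have h1 := hfS u hu
          have h2 := hRu u hu
          have : (R : ℤ) ≤ R * u.ord f := by nlinarith
          omega
    · have hone : (1 : F) + f ^ R ≠ 0 := by
        intro h
        have h' : f ^ R = -1 := by linear_combination h
        have h'' := congrArg w.ord h'
        rw [place_ord_pow, place_ord_neg, w.ord_one] at h''
        rcases mul_eq_zero.1 h'' with h''' | h''' <;> omega
      have hneg : ∀ u : Place K F, u.ord f < 0 → u.ord (1 + f ^ R) = R * u.ord f := by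
        intro u hu
        have hp : u.ord (f ^ R) = R * u.ord f := place_ord_pow u f R
        have hRpos : 0 < R := by omega
        have hneg' : (R : ℤ) * u.ord f < 0 := by
          have : (0 : ℤ) < R := by exact_mod_cast hRpos
          nlinarith
        refine le_antisymm ?_ ?_
        · by_contra hlt
          push Not at hlt
          have h1 := place_ord_add u (f := 1 + f ^ R) (g := -1)
            (n := min (u.ord (1 + f ^ R)) 0) (by simpa using hpow)
            (Or.inr (min_le_left _ _)) (Or.inr (by rw [place_ord_neg, u.ord_one]; exact min_le_right _ _))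
          rw [show (1 : F) + f ^ R + -1 = f ^ R by ring, hp] at h1
          omega
        · exact place_ord_add u hone (Or.inr (by rw [u.ord_one]; omega)) (Or.inr (le_of_eq hp.symm))
      have hq : f ^ R / (1 + f ^ R) ≠ 0 := div_ne_zero hpow hone
      have hordq : ∀ u : Place K F, u.ord (f ^ R / (1 + f ^ R)) =
          R * u.ord f - u.ord (1 + f ^ R) := fun u => by
        rw [div_eq_mul_inv, u.ord_mul hpow (inv_ne_zero hone), u.ord_inv, place_ord_pow]; ring
      refine ⟨f ^ R / (1 + f ^ R) * g, mul_ne_zero hq hg0, ?_, ?_⟩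
      · rw [v.ord_mul hq hg0, hordq, hneg v hfv]; omega
      · intro u hu
        rw [u.ord_mul hq hg0, hordq]
        rcases Finset.mem_insert.1 hu with rfl | hu
        · rw [hneg u hwneg]; omega
        · have h1 := hfS u hu
          have h2 := hRu u hu
          have h3 : (R : ℤ) ≤ R * u.ord f := by nlinarith
          have h4 : u.ord (1 + f ^ R) = 0 := by
            refine le_antisymm ?_ ?_
            · by_contra hlt
              push Not at hlt
              have h1' := place_ord_add u (f := 1 + f ^ R) (g := -f ^ R) (n := 1) (by simp)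
                (Or.inr (by omega)) (Or.inr (by rw [place_ord_neg, place_ord_pow]; omega))
              rw [show (1 : F) + f ^ R + -f ^ R = 1 by ring, u.ord_one] at h1'
              omega
            · exact place_ord_add u hone (Or.inr (by rw [u.ord_one]))
                (Or.inr (by rw [place_ord_pow]; omega))
          omega

/-! ### Differentials -/

open KaehlerDifferential in
/-- If `F` is finite separable over `K(t)` then `Ω[F⁄K]` is spanned by `dt`. -/
theorem exists_eq_smul_D {t : F} [FiniteDimensional K⟮t⟯ F] [Algebra.IsSeparable K⟮t⟯ F]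
    (f : F) : ∃ g : F, D K F f = g • D K F t := by
  set W : Submodule F Ω[F⁄K] := Submodule.span F {D K F t}
  -- differentials of elements of `K(t)` lie in the span
  have hW : ∀ c : K⟮t⟯, D K F (c : F) ∈ W := by
    rintro ⟨c, hc⟩
    induction hc using IntermediateField.adjoin_induction with
    | mem y hy => obtain rfl : y = t := hy; exact Submodule.subset_span rfl
    | algebraMap a => simp
    | add y z _ _ hy hz => simpa using add_mem hy hz
    | inv y _ hy => rw [Derivation.leibniz_inv]; exact W.smul_mem _ hy
    | mul y z _ _ hy hz =>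
      rw [Derivation.leibniz]
      exact add_mem (W.smul_mem _ hz) (W.smul_mem _ hy)
  set q := minpoly K⟮t⟯ f with hq
  have hint : IsIntegral K⟮t⟯ f := IsIntegral.of_finite _ _
  have hsep : aeval f (derivative q) ≠ 0 :=
    (Algebra.IsSeparable.isSeparable K⟮t⟯ f).aeval_derivative_ne_zero (minpoly.aeval _ _)
  have hzero : aeval f q = 0 := minpoly.aeval _ _
  have hmem : ∀ p : K⟮t⟯[X], D K F (aeval f p) - aeval f (derivative p) • D K F f ∈ W := by
    intro p
    induction p using Polynomial.induction_on' with
    | add a b ha hb =>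
      simp only [map_add, add_smul]
      convert add_mem ha hb using 1
      abel
    | monomial n a =>
      simp only [aeval_monomial, derivative_monomial, map_mul, map_natCast, Derivation.leibniz,
        Derivation.leibniz_pow, IntermediateField.algebraMap_apply]
      have := W.smul_mem (f ^ n) (hW a)
      convert this using 1
      rw [← Nat.cast_smul_eq_nsmul F n, smul_smul, smul_smul]
      rw [add_sub_right_comm, ← sub_smul]
      simp [mul_comm, mul_assoc, mul_left_comm]
  have h := hmem q
  rw [hzero, map_zero, zero_sub, neg_mem_iff] at h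
  have h' := W.smul_mem (aeval f (derivative q))⁻¹ h
  rw [smul_smul, inv_mul_cancel₀ hsep, one_smul, Submodule.mem_span_singleton] at h'
  exact h'.imp fun _ h => h.symm

end FA.ModField
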