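import Mathlib
import Fermat.Prelude.Def_ModularCurve_X0
import Fermat.Prelude.Def_ModularCurve_LaurentCoeff

/-!
# Helpers on Laurent series: order, twist, the Euler operator.
-/

set_option autoImplicit false

noncomputable section

namespace FA.ModField

open HahnSeries

variable {R : Type*} [CommRing R]

/-- `OrdGE n f`: all coefficients of `f` below `n` vanish. -/
def OrdGE (n : ℤ) (f : LaurentSeries R) : Prop := ∀ i < n, f.coeff i = 0

theorem ordGE_zero (n : ℤ) : OrdGE n (0 : LaurentSeries R) := fun _ _ => rfl

theorem ordGE_order (f : LaurentSeries R) : OrdGE f.order f :=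
  fun _ hi => coeff_eq_zero_of_lt_order hi

theorem OrdGE.mono {n m : ℤ} {f : LaurentSeries R} (h : OrdGE n f) (hm : m ≤ n) : OrdGE m f :=
  fun i hi => h i (lt_of_lt_of_le hi hm)

theorem ordGE_iff_le_order {n : ℤ} {f : LaurentSeries R} (hf : f ≠ 0) :
    OrdGE n f ↔ n ≤ f.order := by
  refine ⟨fun h => ?_, fun h => (ordGE_order f).mono h⟩
  by_contra hlt
  exact hf (coeff_order_eq_zero.1 (h _ (lt_of_not_ge hlt)))

theorem OrdGE.add {n : ℤ} {f g : LaurentSeries R} (hf : OrdGE n f) (hg : OrdGE n g) :
    OrdGE n (f + g) := fun i hi => by simp [hf i hi, hg i hi]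

theorem OrdGE.neg {n : ℤ} {f : LaurentSeries R} (hf : OrdGE n f) : OrdGE n (-f) :=
  fun i hi => by simp [hf i hi]

theorem OrdGE.sub {n : ℤ} {f g : LaurentSeries R} (hf : OrdGE n f) (hg : OrdGE n g) :
    OrdGE n (f - g) := fun i hi => by simp [hf i hi, hg i hi]

theorem OrdGE.mul {a b : ℤ} {f g : LaurentSeries R} (hf : OrdGE a f) (hg : OrdGE b g) :
    OrdGE (a + b) (f * g) := by
  intro i hi
  rw [coeff_mul]
  refine Finset.sum_eq_zero fun ij hij => ?_
  simp only [Finset.mem_antidiagonal, mem_support] at hij
  obtain ⟨-, -, h3⟩ := hij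
  by_cases h : ij.1 < a
  · rw [hf _ h, zero_mul]
  · rw [hg _ (by omega), mul_zero]

theorem ordGE_C (r : R) : OrdGE 0 (HahnSeries.C r : LaurentSeries R) := fun i hi => by
  simp [HahnSeries.C_apply, hi.ne]

theorem ordGE_one : OrdGE 0 (1 : LaurentSeries R) := by
  simpa using ordGE_C (1 : R)

theorem OrdGE.pow {a : ℤ} {f : LaurentSeries R} (hf : OrdGE a f) (n : ℕ) :
    OrdGE (n * a) (f ^ n) := by
  induction n with
  | zero => simpa using ordGE_one
  | succ n ih => rw [pow_succ]; exact (ih.mul hf).mono (by push_cast; linarith)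

variable (R) in
/-- Series without negative coefficients, as a subring. -/
def nonnegSubring : Subring (LaurentSeries R) where
  carrier := {f | OrdGE 0 f}
  mul_mem' hf hg := by simpa using OrdGE.mul hf hg
  one_mem' := ordGE_one
  add_mem' hf hg := hf.add hg
  zero_mem' := ordGE_zero 0
  neg_mem' hf := hf.neg

theorem mem_nonnegSubring {f : LaurentSeries R} : f ∈ nonnegSubring R ↔ OrdGE 0 f := Iff.rfl

/-! ### Twist `T ↦ cT` -/

/-- The substitution `T ↦ c T`. -/
def twistFun (c : Rˣ) (f : LaurentSeries R) : LaurentSeries R where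
  coeff n := ((c ^ n : Rˣ) : R) * f.coeff n
  isPWO_support' := f.isPWO_support.mono fun n hn => by
    simp only [Function.mem_support, ne_eq] at hn
    exact fun h => hn (by simp only [h, mul_zero])

theorem twistFun_support_subset (c : Rˣ) (f : LaurentSeries R) :
    (twistFun c f).support ⊆ f.support := fun n hn => by
  simp only [mem_support, twistFun, ne_eq] at hn ⊢
  exact fun h => hn (by simp only [h, mul_zero])

/-- The substitution `T ↦ c T`, as a ring endomorphism. -/
def twist (c : Rˣ) : LaurentSeries R →+* LaurentSeries R where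
  toFun := twistFun c
  map_zero' := by ext n; simp [twistFun]
  map_one' := by
    ext n
    rcases eq_or_ne n 0 with rfl | hn
    · simp [twistFun]
    · simp [twistFun, coeff_one, hn]
  map_add' f g := by ext n; simp [twistFun, mul_add]
  map_mul' f g := by
    ext n
    rw [coeff_mul_left' f.isPWO_support (twistFun_support_subset c f)]
    rw [show (twistFun c (f * g)).coeff n = ((c ^ n : Rˣ) : R) * (f * g).coeff n from rfl,
      coeff_mul, Finset.mul_sum]
    refine Eq.symm (Finset.sum_subset_zero_on_sdiff ?_ ?_ ?_)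
    · intro ij hij
      simp only [Finset.mem_antidiagonal, mem_support] at hij ⊢
      exact ⟨hij.1, fun h => hij.2.1 (by simp [twistFun, h]), hij.2.2⟩
    · intro ij hij
      simp only [Finset.mem_sdiff, Finset.mem_antidiagonal, mem_support, not_and] at hij
      obtain ⟨⟨h1, h2, h3⟩, h4⟩ := hij
      have : (twistFun c g).coeff ij.2 = 0 := by
        by_contra h
        exact h4 h1 h h3
      have h5 : g.coeff ij.2 = 0 := by
        simpa [twistFun, (c ^ ij.2).isUnit.mul_right_eq_zero] using this
      simp [h5]
    · intro ij hij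
      simp only [Finset.mem_antidiagonal] at hij
      have h3 := hij.2.2
      simp only [twistFun]
      rw [← h3, zpow_add, Units.val_mul]
      ring

@[simp]
theorem twist_coeff (c : Rˣ) (f : LaurentSeries R) (n : ℤ) :
    (twist c f).coeff n = ((c ^ n : Rˣ) : R) * f.coeff n := rfl

@[simp]
theorem twist_single (c : Rˣ) (k : ℤ) (r : R) :
    twist c (single k r) = single k (((c ^ k : Rˣ) : R) * r) := by
  ext n
  rcases eq_or_ne n k with rfl | hn
  · simp
  · simp [coeff_single_of_ne hn]

theorem twist_C (c : Rˣ) (r : R) : twist c (HahnSeries.C r) = HahnSeries.C r := by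
  simp [HahnSeries.C_apply]

theorem twist_twist (c d : Rˣ) (f : LaurentSeries R) : twist c (twist d f) = twist (c * d) f := by
  ext n
  simp [mul_zpow, mul_assoc]

@[simp]
theorem twist_one_apply (f : LaurentSeries R) : twist (1 : Rˣ) f = f := by
  ext n; simp

theorem twist_injective (c : Rˣ) : Function.Injective (twist c) := fun f g h => by
  have := congrArg (twist c⁻¹) h
  simpa [twist_twist] using this

theorem twist_ordGE {c : Rˣ} {n : ℤ} {f : LaurentSeries R} :
    OrdGE n (twist c f) ↔ OrdGE n f := by
  simp [OrdGE, (c ^ (_ : ℤ)).isUnit.mul_right_eq_zero]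

theorem order_twist (c : Rˣ) (f : LaurentSeries R) : (twist c f).order = f.order := by
  rcases eq_or_ne f 0 with rfl | hf
  · simp
  have hf' : twist c f ≠ 0 := fun h => hf (twist_injective c (by simpa using h))
  refine le_antisymm ?_ ?_
  · rw [← ordGE_iff_le_order hf, ← twist_ordGE (c := c)]; exact ordGE_order _
  · rw [← ordGE_iff_le_order hf', twist_ordGE]; exact ordGE_order _

/-! ### The Euler operator `T d/dT` -/

/-- `T d/dT` on Laurent series. -/
def thetaFun (f : LaurentSeries R) : LaurentSeries R where
  coeff n := (n : R) * f.coeff n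
  isPWO_support' := f.isPWO_support.mono fun n hn => by
    simp only [Function.mem_support, ne_eq] at hn
    exact fun h => hn (by simp only [h, mul_zero])

@[simp]
theorem thetaFun_coeff (f : LaurentSeries R) (n : ℤ) :
    (thetaFun f).coeff n = (n : R) * f.coeff n := rfl

theorem thetaFun_add (f g : LaurentSeries R) : thetaFun (f + g) = thetaFun f + thetaFun g := by
  ext n; simp [mul_add]

theorem thetaFun_mul (f g : LaurentSeries R) :
    thetaFun (f * g) = f * thetaFun g + thetaFun f * g := by
  have hsub : ∀ h : LaurentSeries R, (thetaFun h).support ⊆ h.support := fun h n hn => by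
    simp only [mem_support, thetaFun_coeff, ne_eq] at hn ⊢
    exact fun h' => hn (by simp only [h', mul_zero])
  ext n
  rw [thetaFun_coeff, coeff_add, coeff_mul, coeff_mul_left' f.isPWO_support (hsub f),
    coeff_mul_right' g.isPWO_support (hsub g), ← Finset.sum_add_distrib, Finset.mul_sum]
  refine Finset.sum_congr rfl fun ij hij => ?_
  simp only [Finset.mem_antidiagonal] at hij
  simp only [thetaFun_coeff]
  rw [← hij.2.2]
  push_cast
  ring

theorem thetaFun_C (r : R) : thetaFun (HahnSeries.C r : LaurentSeries R) = 0 := by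
  ext n
  rcases eq_or_ne n 0 with rfl | hn <;> simp [HahnSeries.C_apply, coeff_single_of_ne, *]

theorem thetaFun_twist (c : Rˣ) (f : LaurentSeries R) :
    thetaFun (twist c f) = twist c (thetaFun f) := by
  ext n; simp; ring

theorem thetaFun_ordGE {n : ℤ} {f : LaurentSeries R} (hf : OrdGE n f) : OrdGE n (thetaFun f) :=
  fun i hi => by simp [hf i hi]

section Field

variable {C : Type*} [Field C]

theorem order_thetaFun [CharZero C] {f : LaurentSeries C} (hf : f ≠ 0) (h0 : f.order ≠ 0) :
    thetaFun f ≠ 0 ∧ (thetaFun f).order = f.order := by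
  have hc : (thetaFun f).coeff f.order ≠ 0 := by
    simp [h0, coeff_order_eq_zero, hf]
  have hne : thetaFun f ≠ 0 := fun h => hc (by simp [h])
  exact ⟨hne, le_antisymm (order_le_of_coeff_ne_zero hc)
    ((ordGE_iff_le_order hne).1 (thetaFun_ordGE (ordGE_order f)))⟩

theorem order_inv' (f : LaurentSeries C) : f⁻¹.order = -f.order := by
  rcases eq_or_ne f 0 with rfl | hf
  · simp
  have h := HahnSeries.order_mul hf (inv_ne_zero hf)
  rw [mul_inv_cancel₀ hf, HahnSeries.order_one] at h
  omega

theorem order_div' {f g : LaurentSeries C} (hf : f ≠ 0) (hg : g ≠ 0) :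
    (f / g).order = f.order - g.order := by
  rw [div_eq_mul_inv, HahnSeries.order_mul hf (inv_ne_zero hg), order_inv']
  ring

theorem order_zpow' (f : LaurentSeries C) (n : ℤ) : (f ^ n).order = n * f.order := by
  obtain ⟨k, rfl | rfl⟩ := Int.eq_nat_or_neg n
  · simp
  · simp [order_inv']

end Field

end FA.ModField
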