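import Fermat.Agent.ModField.Laurent
import Fermat.Agent.ModField.Curve

/-!
# Places above a point from a full family of embeddings into Laurent series

A family of `[F : K(y)]` distinct embeddings `σ i : F → C((T))` with a common image `S` of `y` of
order `m`, closed under the deck transformations `T ↦ ζ T`, determines all places where `y` has
positive order: they correspond to the deck orbits, with ramification index the orbit length.
-/

set_option autoImplicit false
set_option linter.style.haveILetI false
set_option linter.unusedSectionVars false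

noncomputable section

namespace FA.ModField

open AlgebraicCurve Polynomial IntermediateField

variable {K F C : Type*} [Field K] [IsAlgClosed K] [Field F] [Algebra K F] [Field C] [CharZero C]
  [Algebra K C]

omit [IsAlgClosed K] [CharZero C] in
theorem algebraMap_laurent (a : K) :
    algebraMap K (LaurentSeries C) a = HahnSeries.C (algebraMap K C a) := by
  rw [HahnSeries.algebraMap_apply', PowerSeries.algebraMap_apply, HahnSeries.ofPowerSeries_C]

omit [IsAlgClosed K] [CharZero C] in
theorem order_algebraMap_laurent (a : K) :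
    (algebraMap K (LaurentSeries C) a).order = 0 := by
  rw [algebraMap_laurent, HahnSeries.order_C]

omit [IsAlgClosed K] [CharZero C] in
theorem twist_algebraMap (c : Cˣ) (a : K) :
    twist c (algebraMap K (LaurentSeries C) a) = algebraMap K (LaurentSeries C) a := by
  rw [algebraMap_laurent, twist_C]

variable (K F C) in
/-- A full family of embeddings above the zero of `y`, with deck transformations. -/
structure EmbFamily (L : IntermediateField K F) (y : F) (ι : Type*) [Fintype ι] where
  /-- the order of the common image of `y` -/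
  m : ℕ
  hm : 0 < m
  /-- the embeddings -/
  σ : ι → F →ₐ[K] LaurentSeries C
  σ_inj : Function.Injective σ
  /-- the common image of `y` -/
  S : LaurentSeries C
  σ_y : ∀ i, σ i y = S
  order_S : S.order = m
  /-- the deck transformation -/
  ζ : Cˣ
  hζ : IsPrimitiveRoot (ζ : C) m
  /-- the action of the deck transformation on the indices -/
  deck : ι → ι
  σ_deck : ∀ i f, σ (deck i) f = twist ζ (σ i f)
  L_eq : L = K⟮y⟯
  finite : FiniteDimensional L F
  card_eq : Fintype.card ι = Module.finrank L F

namespace EmbFamily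

variable {L : IntermediateField K F} {y : F} {ι : Type*} [Fintype ι]
  (E : EmbFamily K F C L y ι)

include E

theorem S_ne : E.S ≠ 0 := fun h => by
  have := E.order_S
  rw [h, HahnSeries.order_zero] at this
  exact E.hm.ne' (by exact_mod_cast this.symm)

theorem y_mem : y ∈ L := E.L_eq.symm ▸ IntermediateField.mem_adjoin_simple_self K y

theorem nonempty : Nonempty ι := by
  haveI := E.finite
  rw [← Fintype.card_pos_iff, E.card_eq]
  exact Module.finrank_pos

theorem y_transcendental : Transcendental K y := by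
  refine transcendental_of_not_const fun a ha => ?_
  obtain ⟨i⟩ := E.nonempty
  have h := E.order_S
  rw [← E.σ_y i, show E.σ i y = E.σ i (algebraMap K F a) from congrArg _ ha, AlgHom.commutes,
    order_algebraMap_laurent] at h
  exact E.hm.ne (by exact_mod_cast h)

theorem isCurve : IsCurve K F := by
  haveI := E.finite
  have h := E.L_eq
  subst h
  exact isCurve_of_finiteDimensional E.finite

theorem σ_deck_iterate (r : ℕ) (i : ι) (f : F) :
    E.σ (E.deck^[r] i) f = twist (E.ζ ^ r) (E.σ i f) := by
  induction r generalizing i with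
  | zero => simp
  | succ r ih =>
    rw [Function.iterate_succ_apply', E.σ_deck, ih, twist_twist, pow_succ']

theorem deck_iterate_m (i : ι) : E.deck^[E.m] i = i := by
  apply E.σ_inj
  refine AlgHom.ext fun f => ?_
  rw [E.σ_deck_iterate]
  have : E.ζ ^ E.m = 1 := Units.ext (by simpa using E.hζ.pow_eq_one)
  rw [this, twist_one_apply]

/-- The valuation ring of `σ i`. -/
def valRing (i : ι) : ValuationSubring F where
  toSubring := (nonnegSubring C).comap (E.σ i : F →+* LaurentSeries C)
  mem_or_inv_mem' f := by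
    rcases eq_or_ne f 0 with rfl | hf
    · exact Or.inl ((nonnegSubring C).comap (E.σ i : F →+* LaurentSeries C)).zero_mem
    have hne : E.σ i f ≠ 0 := (_root_.map_ne_zero (E.σ i)).2 hf
    have hne' : E.σ i f⁻¹ ≠ 0 := (_root_.map_ne_zero (E.σ i)).2 (inv_ne_zero hf)
    simp only [Subring.mem_carrier, Subring.mem_comap, mem_nonnegSubring,
      AlgHom.coe_toRingHom, ordGE_iff_le_order hne, ordGE_iff_le_order hne']
    rw [map_inv₀, order_inv']
    omega

theorem mem_valRing {i : ι} {f : F} : f ∈ E.valRing i ↔ 0 ≤ (E.σ i f).order := by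
  show E.σ i f ∈ nonnegSubring C ↔ _
  rcases eq_or_ne f 0 with rfl | hf
  · simp
  · rw [mem_nonnegSubring, ordGE_iff_le_order ((_root_.map_ne_zero (E.σ i)).2 hf)]

/-- The place induced by `σ i`. -/
def pl (i : ι) : Place K F where
  toValuationSubring := E.valRing i
  algebraMap_mem' a := by
    rw [E.mem_valRing, AlgHom.commutes, order_algebraMap_laurent]
  ne_top' h := by
    have : y⁻¹ ∈ E.valRing i := h ▸ ValuationSubring.mem_top _
    rw [E.mem_valRing, map_inv₀, E.σ_y, order_inv', E.order_S] at this
    have := E.hm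
    omega
  isPrincipalIdealRing' := by
    classical
    refine ⟨fun I => ?_⟩
    rcases eq_or_ne I ⊥ with rfl | hI
    · exact ⟨⟨0, by simp⟩⟩
    obtain ⟨a, haI, ha⟩ := Submodule.exists_mem_ne_zero_of_ne_bot hI
    have hex : ∃ n : ℕ, ∃ a ∈ I, a ≠ 0 ∧ (E.σ i (a : F)).order = n :=
      ⟨((E.σ i (a : F)).order).toNat, a, haI, ha,
        (Int.toNat_of_nonneg (E.mem_valRing.1 a.2)).symm⟩
    obtain ⟨b, hbI, hb, hbn⟩ := Nat.find_spec hex
    refine ⟨⟨b, le_antisymm (fun c hc => ?_) ((Ideal.span_singleton_le_iff_mem _).2 hbI)⟩⟩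
    rw [Ideal.mem_span_singleton']
    rcases eq_or_ne c 0 with rfl | hc0
    · exact ⟨0, by simp⟩
    have hb' : (b : F) ≠ 0 := by simpa using hb
    have hc' : (c : F) ≠ 0 := by simpa using hc0
    have hle : (Nat.find hex : ℤ) ≤ (E.σ i (c : F)).order := by
      have hnn := E.mem_valRing.1 c.2
      have := Nat.find_min' hex (m := ((E.σ i (c : F)).order).toNat)
        ⟨c, hc, hc0, (Int.toNat_of_nonneg hnn).symm⟩
      omega
    refine ⟨⟨(c : F) / b, E.mem_valRing.2 ?_⟩, Subtype.ext (by
      simp only [MulMemClass.coe_mul]; rw [div_mul_cancel₀ _ hb'])⟩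
    rw [map_div₀, order_div' ((_root_.map_ne_zero _).2 hc') ((_root_.map_ne_zero _).2 hb'), hbn]
    omega

theorem mem_pl {i : ι} {f : F} : f ∈ (E.pl i).toValuationSubring ↔ 0 ≤ (E.σ i f).order :=
  E.mem_valRing

theorem ord_nonneg_iff (i : ι) (f : F) : 0 ≤ (E.pl i).ord f ↔ 0 ≤ (E.σ i f).order := by
  rw [← mem_place_iff, E.mem_pl]

theorem exists_scale (i : ι) :
    ∃ k : ℤ, 0 < k ∧ ∀ f : F, (E.σ i f).order = k * (E.pl i).ord f := by
  obtain ⟨t, ht⟩ := exists_uniformizer (E.pl i)
  have ht0 : t ≠ 0 := by rintro rfl; simp at ht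
  refine ⟨(E.σ i t).order, ?_, fun f => ?_⟩
  · by_contra h
    have : 0 ≤ (E.σ i t⁻¹).order := by rw [map_inv₀, order_inv']; omega
    rw [← E.ord_nonneg_iff, Place.ord_inv, ht] at this
    omega
  rcases eq_or_ne f 0 with rfl | hf
  · simp
  set n := (E.pl i).ord f
  have hne : t ^ n ≠ 0 := zpow_ne_zero _ ht0
  have h1 : 0 ≤ (E.pl i).ord (f / t ^ n) := by
    rw [div_eq_mul_inv, Place.ord_mul _ hf (inv_ne_zero hne), Place.ord_inv, Place.ord_zpow, ht]
    omega
  have h2 : 0 ≤ (E.pl i).ord (t ^ n / f) := by
    rw [div_eq_mul_inv, Place.ord_mul _ hne (inv_ne_zero hf), Place.ord_inv, Place.ord_zpow, ht]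
    omega
  rw [E.ord_nonneg_iff, map_div₀,
    order_div' ((_root_.map_ne_zero _).2 hf) ((_root_.map_ne_zero _).2 hne)] at h1
  rw [E.ord_nonneg_iff, map_div₀,
    order_div' ((_root_.map_ne_zero _).2 hne) ((_root_.map_ne_zero _).2 hf)] at h2
  rw [map_zpow₀, order_zpow'] at h1 h2
  linarith

/-- The ramification index of `σ i` over its place. -/
def scale (i : ι) : ℤ := (E.exists_scale i).choose

theorem scale_pos (i : ι) : 0 < E.scale i := (E.exists_scale i).choose_spec.1

theorem order_σ (i : ι) (f : F) : (E.σ i f).order = E.scale i * (E.pl i).ord f :=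
  (E.exists_scale i).choose_spec.2 f

theorem scale_mul_ord_y (i : ι) : E.scale i * (E.pl i).ord y = E.m := by
  rw [← E.order_σ, E.σ_y, E.order_S]

theorem ord_y_pos (i : ι) : 0 < (E.pl i).ord y :=
  pos_of_mul_pos_right (E.scale_mul_ord_y i ▸ Int.natCast_pos.2 E.hm) (E.scale_pos i).le

theorem pl_deck_iterate (r : ℕ) (i : ι) : E.pl (E.deck^[r] i) = E.pl i := by
  refine Place.ext (SetLike.ext fun f => ?_)
  rw [E.mem_pl, E.mem_pl, E.σ_deck_iterate, order_twist]

theorem scale_congr {i j : ι} (h : E.pl i = E.pl j) : E.scale i = E.scale j := by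
  have h1 := E.scale_mul_ord_y i
  have h2 := E.scale_mul_ord_y j
  rw [h] at h1
  exact mul_right_cancel₀ (E.ord_y_pos j).ne' (h1.trans h2.symm)

/-- Key uniqueness: two embeddings above the same place with the same leading coefficient at a
uniformizer coincide. -/
theorem eq_of_pl_eq_of_leadingCoeff {i j : ι} (h : E.pl i = E.pl j) {t : F}
    (ht : (E.pl i).ord t = 1)
    (hlead : (E.σ i t).leadingCoeff = (E.σ j t).leadingCoeff) : E.σ i t = E.σ j t := by
  set v := E.pl i with hv
  set k := E.scale i
  set e := v.ord y with he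
  have hk : 0 < k := E.scale_pos i
  have ht0 : t ≠ 0 := by rintro rfl; simp at ht
  set s := E.σ i t with hsdef
  set s' := E.σ j t with hs'def
  have hs : s ≠ 0 := (_root_.map_ne_zero _).2 ht0
  have hs' : s' ≠ 0 := (_root_.map_ne_zero _).2 ht0
  have hks : s.order = k := by rw [hsdef, E.order_σ, ← hv, ht, mul_one]
  have hks' : s'.order = k := by
    rw [hs'def, E.order_σ, ← h, ht, mul_one, ← E.scale_congr h]
  by_contra hne
  set d := s - s' with hd
  have hd0 : d ≠ 0 := sub_ne_zero.2 hne
  -- `d` has order larger than `k`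
  have hdk : k < d.order := by
    refine lt_of_le_of_ne ((ordGE_iff_le_order hd0).1
      (((ordGE_order s).mono hks.ge).sub ((ordGE_order s').mono hks'.ge))) fun heq => ?_
    apply hd0
    rw [← HahnSeries.coeff_order_eq_zero, ← heq, hd, HahnSeries.coeff_sub, sub_eq_zero]
    rw [HahnSeries.leadingCoeff_eq, HahnSeries.leadingCoeff_eq, hks, hks'] at hlead
    exact hlead
  obtain ⟨e', he'⟩ : ∃ e' : ℕ, e = (e' : ℤ) + 1 :=
    ⟨(e - 1).toNat, by have : 0 < e := E.ord_y_pos i; omega⟩
  -- the unit `u = y / t ^ e`
  set u := y / t ^ (e' + 1) with hu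
  have hy0 : y ≠ 0 := fun h0 => by
    have := E.ord_y_pos i; simp [h0] at this
  have huord : v.ord u = 0 := by
    rw [hu, div_eq_mul_inv, v.ord_mul hy0 (inv_ne_zero (pow_ne_zero _ ht0)), v.ord_inv,
      place_ord_pow, ht]
    push_cast
    omega
  have humem : u ∈ v.toValuationSubring := mem_place_of_ord_nonneg v huord.ge
  obtain ⟨n, hn⟩ : ∃ n : ℕ, d.order < n * k :=
    ⟨(d.order).toNat + 1, by push_cast; nlinarith [Int.self_le_toNat d.order]⟩
  obtain ⟨P, g, hg, hPg⟩ := exists_expansion E.isCurve v ht humem n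
  -- `σ i u - σ j u` has order at least that of `d`
  have hgi : OrdGE 0 (E.σ i g) := by
    rcases eq_or_ne g 0 with rfl | hg0
    · simpa using ordGE_zero 0
    · exact (ordGE_iff_le_order ((_root_.map_ne_zero _).2 hg0)).2 (E.mem_valRing.1 hg)
  have hgj : OrdGE 0 (E.σ j g) := by
    rcases eq_or_ne g 0 with rfl | hg0
    · simpa using ordGE_zero 0
    · exact (ordGE_iff_le_order ((_root_.map_ne_zero _).2 hg0)).2
        (E.mem_valRing.1 (show g ∈ (E.pl j).toValuationSubring from h ▸ hg))
  have hsR : s ∈ nonnegSubring C := (ordGE_order s).mono (by omega)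
  have hsR' : s' ∈ nonnegSubring C := (ordGE_order s').mono (by omega)
  have hpoly : OrdGE d.order (aeval s P - aeval s' P) := by
    clear hPg
    induction P using Polynomial.induction_on' with
    | add a b ha hb =>
      simp only [map_add]
      convert ha.add hb using 1
      ring
    | monomial l a =>
      simp only [aeval_monomial, ← mul_sub]
      rw [← (geom_sum₂_mul s s' l), ← hd]
      have h1 : algebraMap K (LaurentSeries C) a * ((∑ i ∈ Finset.range l, s ^ i * s' ^ (l - 1 - i)))
          ∈ nonnegSubring C := by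
        refine mul_mem ?_ (sum_mem fun i _ => mul_mem (pow_mem hsR _) (pow_mem hsR' _))
        rw [mem_nonnegSubring, algebraMap_laurent]
        exact ordGE_C _
      rw [← mul_assoc]
      exact ((mem_nonnegSubring.1 h1).mul (ordGE_order d)).mono (by omega)
  have hud : OrdGE d.order (E.σ i u - E.σ j u) := by
    rw [hPg]
    simp only [map_add, map_mul, map_pow, ← Polynomial.aeval_algHom_apply, ← hsdef, ← hs'def]
    rw [add_sub_add_comm]
    refine hpoly.add (OrdGE.sub ?_ ?_)
    · exact ((((ordGE_order s).mono hks.ge).pow n).mul hgi).mono (by omega)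
    · exact ((((ordGE_order s').mono hks'.ge).pow n).mul hgj).mono (by omega)
  -- compare the two expressions for `S`
  have hyt : y = t ^ (e' + 1) * u := by rw [hu]; field_simp
  have heq : (s ^ (e' + 1) - s' ^ (e' + 1)) * E.σ i u =
      -(s' ^ (e' + 1) * (E.σ i u - E.σ j u)) := by
    have h1 : s ^ (e' + 1) * E.σ i u = s' ^ (e' + 1) * E.σ j u := by
      rw [hsdef, hs'def, ← map_pow, ← map_mul, ← map_pow, ← map_mul, ← hyt, E.σ_y, E.σ_y]
    linear_combination h1
  set G := ∑ l ∈ Finset.range (e' + 1), s ^ l * s' ^ (e' + 1 - 1 - l) with hG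
  -- the leading coefficient of `G`
  set c := s.leadingCoeff with hc
  have hc0 : c ≠ 0 := HahnSeries.leadingCoeff_ne_zero.2 hs
  have hterm : ∀ l ∈ Finset.range (e' + 1),
      (s ^ l * s' ^ (e' + 1 - 1 - l)).coeff ((e' : ℤ) * k) = c ^ e' := by
    intro l hl
    have hl' : l ≤ e' := Nat.lt_succ_iff.1 (Finset.mem_range.1 hl)
    have ho : (s ^ l * s' ^ (e' + 1 - 1 - l)).order = (e' : ℤ) * k := by
      rw [HahnSeries.order_mul (pow_ne_zero _ hs) (pow_ne_zero _ hs'), HahnSeries.order_pow,
        HahnSeries.order_pow, hks, hks', nsmul_eq_mul, nsmul_eq_mul]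
      push_cast [Nat.cast_sub hl', show e' + 1 - 1 = e' from rfl]
      ring
    rw [← ho, ← HahnSeries.leadingCoeff_eq, HahnSeries.leadingCoeff_mul]
    have hp : ∀ (z : LaurentSeries C) (q : ℕ), (z ^ q).leadingCoeff = z.leadingCoeff ^ q := by
      intro z q
      induction q with
      | zero => simp
      | succ q ih => rw [pow_succ, HahnSeries.leadingCoeff_mul, ih, pow_succ]
    rw [hp, hp, ← hlead, ← pow_add, Nat.add_sub_cancel, Nat.add_sub_cancel' hl']
  have hGc : G.coeff ((e' : ℤ) * k) ≠ 0 := by
    rw [hG, HahnSeries.coeff_sum, Finset.sum_congr rfl hterm, Finset.sum_const, Finset.card_range,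
      nsmul_eq_mul]
    exact mul_ne_zero (Nat.cast_ne_zero.2 (Nat.succ_ne_zero _)) (pow_ne_zero _ hc0)
  have hG0 : G ≠ 0 := fun h0 => hGc (by rw [h0]; rfl)
  have hGo : G.order ≤ (e' : ℤ) * k := HahnSeries.order_le_of_coeff_ne_zero hGc
  have hu0 : E.σ i u ≠ 0 :=
    (_root_.map_ne_zero _).2 (div_ne_zero hy0 (pow_ne_zero _ ht0))
  have hlhs : (s ^ (e' + 1) - s' ^ (e' + 1)) * E.σ i u ≠ 0 := by
    rw [← geom_sum₂_mul s s' (e' + 1)]
    exact mul_ne_zero (mul_ne_zero hG0 hd0) hu0
  have hr : OrdGE (((e' + 1 : ℕ) : ℤ) * k + d.order)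
      ((s ^ (e' + 1) - s' ^ (e' + 1)) * E.σ i u) := by
    rw [heq]
    exact (((((ordGE_order s').mono hks'.ge).pow (e' + 1)).mul hud)).neg
  rw [ordGE_iff_le_order hlhs, ← geom_sum₂_mul s s' (e' + 1),
    HahnSeries.order_mul (mul_ne_zero hG0 hd0) hu0, HahnSeries.order_mul hG0 hd0, E.order_σ,
    ← hv, huord] at hr
  push_cast at hr
  linarith

theorem eq_of_pl_eq {i j : ι} (h : E.pl i = E.pl j) {t : F} (ht : (E.pl i).ord t = 1)
    (hst : E.σ i t = E.σ j t) : i = j := by
  apply E.σ_inj
  set v := E.pl i with hv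
  have hmem : ∀ f ∈ v.toValuationSubring, E.σ i f = E.σ j f := by
    intro f hf
    by_contra hne
    set d := E.σ i f - E.σ j f with hd
    have hd0 : d ≠ 0 := sub_ne_zero.2 hne
    have hk : 0 < E.scale i := E.scale_pos i
    obtain ⟨n, hn⟩ : ∃ n : ℕ, d.order < n * E.scale i :=
      ⟨(d.order).toNat + 1, by push_cast; nlinarith [Int.self_le_toNat d.order]⟩
    obtain ⟨P, g, hg, hPg⟩ := exists_expansion E.isCurve v ht hf n
    have hd' : d = E.σ i (t ^ n * g) - E.σ j (t ^ n * g) := by
      rw [hd, hPg, map_add, map_add, ← Polynomial.aeval_algHom_apply,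
        ← Polynomial.aeval_algHom_apply, hst]
      ring
    have key : ∀ l, E.pl l = v → OrdGE ((n : ℤ) * E.scale i) (E.σ l (t ^ n * g)) := by
      intro l hl
      rcases eq_or_ne g 0 with rfl | hg0
      · simpa using ordGE_zero _
      have ht0 : t ≠ 0 := by rintro rfl; simp at ht
      refine ((ordGE_order _).mono ?_)
      rw [E.order_σ, hl, v.ord_mul (pow_ne_zero _ ht0) hg0, place_ord_pow, ht,
        E.scale_congr (hl.trans hv)]
      have := ord_nonneg_of_mem v hg
      nlinarith
    have := (key i rfl).sub (key j h.symm)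
    rw [← hd', ordGE_iff_le_order hd0] at this
    omega
  refine AlgHom.ext fun f => ?_
  rcases v.toValuationSubring.mem_or_inv_mem f with hf | hf
  · exact hmem f hf
  · simpa using congrArg (·⁻¹) (hmem _ hf)

/-- The ramification index, as a natural number. -/
def ram (i : ι) : ℕ := ((E.pl i).ord y).toNat

theorem ram_cast (i : ι) : (E.ram i : ℤ) = (E.pl i).ord y := Int.toNat_of_nonneg (E.ord_y_pos i).le

theorem ram_pos (i : ι) : 0 < E.ram i := by
  have := E.ord_y_pos i
  rw [ram]
  omega

theorem scale_toNat_mul_ram (i : ι) : (E.scale i).toNat * E.ram i = E.m := by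
  have h := E.scale_mul_ord_y i
  rw [← E.ram_cast, ← Int.toNat_of_nonneg (E.scale_pos i).le] at h
  exact_mod_cast h

theorem pl_eq_iff_exists {i j : ι} :
    E.pl i = E.pl j ↔ ∃ r < E.ram i, E.deck^[r] i = j := by
  constructor
  · intro h
    obtain ⟨t, ht⟩ := exists_uniformizer (E.pl i)
    have ht0 : t ≠ 0 := by rintro rfl; simp at ht
    set s := E.σ i t with hsdef
    set s' := E.σ j t with hs'def
    set k := (E.scale i).toNat with hkdef
    have hk : (k : ℤ) = E.scale i := Int.toNat_of_nonneg (E.scale_pos i).le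
    have hs : s ≠ 0 := (_root_.map_ne_zero _).2 ht0
    have hs' : s' ≠ 0 := (_root_.map_ne_zero _).2 ht0
    set u := y / t ^ E.ram i with hu
    have hy0 : y ≠ 0 := fun h0 => by have := E.ord_y_pos i; simp [h0] at this
    have huord : (E.pl i).ord u = 0 := by
      rw [hu, div_eq_mul_inv, Place.ord_mul _ hy0 (inv_ne_zero (pow_ne_zero _ ht0)), Place.ord_inv,
        place_ord_pow, ht, E.ram_cast]
      ring
    have hu0 : u ≠ 0 := div_ne_zero hy0 (pow_ne_zero _ ht0)
    have hyt : y = t ^ E.ram i * u := by rw [hu]; field_simp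
    -- the residue of `u` is the same constant under both embeddings
    obtain ⟨a, ha⟩ := exists_residue E.isCurve (E.pl i) (mem_place_of_ord_nonneg _ huord.ge)
    have ha0 : a ≠ 0 := by
      rintro rfl
      rcases ha with ha | ha
      · exact hu0 (by simpa using ha)
      · rw [map_zero, sub_zero, huord] at ha; exact lt_irrefl _ ha
    have hlu : ∀ l, E.pl l = E.pl i → (E.σ l u).leadingCoeff = algebraMap K C a := by
      intro l hl
      rw [HahnSeries.leadingCoeff_eq, E.order_σ, hl, huord, mul_zero]
      rcases ha with ha | ha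
      · rw [ha, AlgHom.commutes, algebraMap_laurent]; simp [HahnSeries.C_apply]
      · have hdo : 0 < (E.σ l (u - algebraMap K F a)).order := by
          rw [E.order_σ, hl]
          exact mul_pos (E.scale_pos l) ha
        have h0 := HahnSeries.coeff_eq_zero_of_lt_order hdo
        rw [map_sub, AlgHom.commutes, algebraMap_laurent, HahnSeries.coeff_sub, sub_eq_zero] at h0
        rw [h0]; simp [HahnSeries.C_apply]
    have hp : ∀ (z : LaurentSeries C) (q : ℕ), (z ^ q).leadingCoeff = z.leadingCoeff ^ q := by
      intro z q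
      induction q with
      | zero => simp
      | succ q ih => rw [pow_succ, HahnSeries.leadingCoeff_mul, ih, pow_succ]
    have hS : ∀ l, E.pl l = E.pl i →
        E.S.leadingCoeff = (E.σ l t).leadingCoeff ^ E.ram i * algebraMap K C a := by
      intro l hl
      rw [← hlu l hl, ← hp, ← HahnSeries.leadingCoeff_mul, ← map_pow, ← map_mul, ← hyt, E.σ_y]
    have hce : (s'.leadingCoeff / s.leadingCoeff) ^ E.ram i = 1 := by
      rw [div_pow, div_eq_one_iff_eq (pow_ne_zero _ (HahnSeries.leadingCoeff_ne_zero.2 hs))]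
      exact (mul_left_inj' ((_root_.map_ne_zero (algebraMap K C)).2 ha0)).1
        ((hS j h.symm).symm.trans (hS i rfl))
    haveI : NeZero (E.ram i) := ⟨(E.ram_pos i).ne'⟩
    have hprim : IsPrimitiveRoot ((E.ζ : C) ^ k) (E.ram i) :=
      E.hζ.pow E.hm (E.scale_toNat_mul_ram i).symm
    obtain ⟨r, hr, hrc⟩ := hprim.eq_pow_of_pow_eq_one hce
    refine ⟨r, hr, E.eq_of_pl_eq ((E.pl_deck_iterate r i).trans h) (t := t) ?_ ?_⟩
    · rw [E.pl_deck_iterate]; exact ht
    refine E.eq_of_pl_eq_of_leadingCoeff ((E.pl_deck_iterate r i).trans h) (t := t)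
      (by rw [E.pl_deck_iterate]; exact ht) ?_
    rw [E.σ_deck_iterate, ← hsdef, HahnSeries.leadingCoeff_eq, order_twist, twist_coeff,
      ← HahnSeries.leadingCoeff_eq]
    have hso : s.order = (k : ℤ) := by rw [hsdef, E.order_σ, ht, mul_one, hk]
    rw [hso, zpow_natCast, Units.val_pow_eq_pow_val, Units.val_pow_eq_pow_val, ← pow_mul,
      mul_comm r k, pow_mul, hrc, div_mul_cancel₀ _ (HahnSeries.leadingCoeff_ne_zero.2 hs)]
  · rintro ⟨r, -, rfl⟩
    exact (E.pl_deck_iterate r i).symm

theorem deck_iterate_injOn (i : ι) {r r' : ℕ} (hr : r < E.ram i) (hr' : r' < E.ram i)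
    (h : E.deck^[r] i = E.deck^[r'] i) : r = r' := by
  obtain ⟨t, ht⟩ := exists_uniformizer (E.pl i)
  have ht0 : t ≠ 0 := by rintro rfl; simp at ht
  have hs : E.σ i t ≠ 0 := (_root_.map_ne_zero _).2 ht0
  set k := (E.scale i).toNat with hkdef
  have hk : (k : ℤ) = E.scale i := Int.toNat_of_nonneg (E.scale_pos i).le
  have hso : (E.σ i t).order = (k : ℤ) := by rw [E.order_σ, ht, mul_one, hk]
  have h' : E.σ (E.deck^[r] i) t = E.σ (E.deck^[r'] i) t := by rw [h]
  rw [E.σ_deck_iterate, E.σ_deck_iterate] at h'
  have := congrArg (fun z : LaurentSeries C => z.coeff (k : ℤ)) h'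
  simp only [twist_coeff, zpow_natCast, Units.val_pow_eq_pow_val] at this
  rw [← pow_mul, ← pow_mul, mul_comm r, mul_comm r', pow_mul, pow_mul] at this
  have hne : (E.σ i t).coeff (k : ℤ) ≠ 0 := by
    rw [← hso, Ne, HahnSeries.coeff_order_eq_zero]; exact hs
  exact (E.hζ.pow E.hm (E.scale_toNat_mul_ram i).symm).pow_inj hr hr' (mul_right_cancel₀ hne this)

/-- The fibre of `pl` has exactly `ram i` elements. -/
theorem card_fibre [DecidableEq (Place K F)] (i : ι) :
    (Finset.univ.filter fun j => E.pl j = E.pl i).card = E.ram i := by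
  classical
  rw [show (Finset.univ.filter fun j => E.pl j = E.pl i) =
      (Finset.range (E.ram i)).image (fun r => E.deck^[r] i) from ?_,
    Finset.card_image_of_injOn, Finset.card_range]
  · intro r hr r' hr' h
    exact E.deck_iterate_injOn i (by simpa using hr) (by simpa using hr') h
  · ext j
    simp only [Finset.mem_filter, Finset.mem_univ, true_and, Finset.mem_image, Finset.mem_range]
    rw [eq_comm (a := E.pl j), E.pl_eq_iff_exists]

/-- `pl` orbits: same place iff same deck orbit. -/
theorem pl_eq_iff_orbit {i j : ι} : E.pl i = E.pl j ↔ ∃ r : ℕ, E.deck^[r] i = j := by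
  constructor
  · intro h
    obtain ⟨r, -, hr⟩ := E.pl_eq_iff_exists.1 h
    exact ⟨r, hr⟩
  · rintro ⟨r, rfl⟩
    exact (E.pl_deck_iterate r i).symm

/-- A fixed point of the deck transformation is unramified. -/
theorem ram_eq_one_iff (i : ι) : E.ram i = 1 ↔ E.deck i = i := by
  constructor
  · intro h
    obtain ⟨r, hr, hrd⟩ := (E.pl_eq_iff_exists (i := i) (j := E.deck i)).1
      (E.pl_deck_iterate 1 i).symm
    rw [h, Nat.lt_one_iff] at hr
    subst hr
    exact hrd.symm
  · intro h
    by_contra hne
    have h2 : 1 < E.ram i := lt_of_le_of_ne (E.ram_pos i) (Ne.symm hne)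
    have := E.deck_iterate_injOn i (E.ram_pos i) h2 (by simpa using h.symm)
    omega

/-! ### Algebra over `L` -/

/-- The common restriction of the embeddings to `L`. -/
theorem σ_eq_on_L (i j : ι) {f : F} (hf : f ∈ L) : E.σ i f = E.σ j f := by
  have : (E.σ i).comp L.val = (E.σ j).comp L.val :=
    IntermediateField.algHom_ext_of_eq_adjoin K E.L_eq fun z hz => by
      rw [Set.mem_singleton_iff] at hz
      subst hz
      simp [E.σ_y]
  exact AlgHom.congr_fun this ⟨f, hf⟩

/-- An algebraically closed field containing `C((T))`. -/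
local notation "Ω" => AlgebraicClosure (LaurentSeries C)

/-- Every element with integral images is integral at each place over the zero of `y`. -/
theorem roots_and_norm (f : F) :
    (∀ r : AlgebraicClosure (LaurentSeries C),
      (((minpoly L f).map ((E.σ (Classical.choice E.nonempty) : F →+* LaurentSeries C).comp
          (algebraMap L F))).map (algebraMap (LaurentSeries C) Ω)).IsRoot r →
        ∃ i, algebraMap (LaurentSeries C) Ω (E.σ i f) = r) ∧
    ∀ (i₀ : ι), E.σ i₀ (algebraMap L F (Algebra.norm L f)) = ∏ i, E.σ i f := by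
  classical
  haveI := E.finite
  haveI : CharZero K := (RingHom.charZero_iff (algebraMap K C).injective).2 inferInstance
  haveI : CharZero L := charZero_of_injective_algebraMap (algebraMap K L).injective
  set i₁ := Classical.choice E.nonempty
  letI : Algebra L Ω := ((algebraMap (LaurentSeries C) Ω).comp
    ((E.σ i₁ : F →+* LaurentSeries C).comp (algebraMap L F))).toAlgebra
  let τ : ι → F →ₐ[L] Ω := fun i =>
    { (algebraMap (LaurentSeries C) Ω).comp (E.σ i : F →+* LaurentSeries C) with
      commutes' := fun l => by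
        show algebraMap (LaurentSeries C) Ω (E.σ i (algebraMap L F l)) = _
        rw [E.σ_eq_on_L i i₁ (by simp)]
        rfl }
  have hτ : Function.Bijective τ := by
    rw [Fintype.bijective_iff_injective_and_card]
    refine ⟨fun i j h => E.σ_inj (AlgHom.ext fun z => ?_), by rw [AlgHom.card, E.card_eq]⟩
    exact (algebraMap (LaurentSeries C) Ω).injective (AlgHom.congr_fun h z)
  constructor
  · intro r hr
    haveI : Algebra.IsAlgebraic L F := Algebra.IsAlgebraic.of_finite L F
    haveI : Module.IsTorsionFree L Ω :=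
      Module.isTorsionFree_iff_algebraMap_injective.2 (algebraMap L Ω).injective
    have hmem : r ∈ (minpoly L f).rootSet Ω := by
      rw [Polynomial.mem_rootSet]
      refine ⟨minpoly.ne_zero (IsIntegral.of_finite _ _), ?_⟩
      rw [Polynomial.map_map] at hr
      rw [Polynomial.aeval_def, ← Polynomial.eval_map]
      exact hr
    rw [← Algebra.IsAlgebraic.range_eval_eq_rootSet_minpoly Ω f] at hmem
    simp only [Set.mem_range] at hmem
    obtain ⟨ψ, rfl⟩ := hmem
    obtain ⟨i, rfl⟩ := hτ.2 ψ
    exact ⟨i, rfl⟩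
  · intro i₀
    apply (algebraMap (LaurentSeries C) Ω).injective
    rw [map_prod, E.σ_eq_on_L i₀ i₁ (by simp)]
    show algebraMap L Ω (Algebra.norm L f) = _
    rw [Algebra.norm_eq_prod_embeddings L Ω f]
    exact (Fintype.prod_bijective τ hτ (fun i => algebraMap (LaurentSeries C) Ω (E.σ i f))
      (fun ψ => ψ f) fun i => rfl).symm

theorem order_norm {f : F} (hf : f ≠ 0) (i₀ : ι) :
    (E.σ i₀ (algebraMap L F (Algebra.norm L f))).order = ∑ i, (E.σ i f).order := by
  classical
  rw [(E.roots_and_norm f).2 i₀]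
  induction (Finset.univ : Finset ι) using Finset.induction with
  | empty => simp
  | @insert a s has ih =>
    rw [Finset.prod_insert has, Finset.sum_insert has,
      HahnSeries.order_mul ((_root_.map_ne_zero _).2 hf)
        (Finset.prod_ne_zero_iff.2 fun j _ => (_root_.map_ne_zero _).2 hf), ih]

/-- Elements of `L = K(y)` integral at one embedding are regular at every zero of `y`. -/
theorem ord_nonneg_of_mem_L {g : F} (hg : g ∈ L) (i : ι) (hi : OrdGE 0 (E.σ i g))
    (v : Place K F) (hv : 0 < v.ord y) : 0 ≤ v.ord g := by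
  rw [E.L_eq] at hg
  obtain ⟨P, Q, rfl⟩ := (IntermediateField.mem_adjoin_simple_iff K g).1 hg
  rcases eq_or_ne P 0 with rfl | hP
  · simp
  rcases eq_or_ne Q 0 with rfl | hQ
  · simp
  have htr := E.y_transcendental
  have hne : ∀ R : K[X], R ≠ 0 → aeval y R ≠ 0 := fun R hR h =>
    hR ((transcendental_iff.1 htr) R h)
  -- at any place with `ord y > 0` the order of `R(y)` is `rootMultiplicity 0 R * ord y`
  have hord : ∀ (w : Place K F), 0 < w.ord y → ∀ R : K[X], R ≠ 0 →
      w.ord (aeval y R) = R.rootMultiplicity 0 * w.ord y := by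
    intro w hw R hR
    obtain ⟨R', hR', hnd⟩ := R.exists_eq_pow_rootMultiplicity_mul_and_not_dvd hR 0
    rw [map_zero, sub_zero] at hR' hnd
    have hy0 : y ≠ 0 := by rintro rfl; simp at hw
    have hR'0 : R' ≠ 0 := by rintro rfl; simp at hnd
    conv_lhs => rw [hR']
    rw [map_mul, map_pow, aeval_X, Place.ord_mul _ (pow_ne_zero _ hy0) (hne _ hR'0), place_ord_pow]
    have h0 : w.ord (aeval y R') = 0 := by
      have hc : R'.coeff 0 ≠ 0 := fun h => hnd (Polynomial.X_dvd_iff.2 h)
      have hmem : ∀ T : K[X], aeval y T ∈ w.toValuationSubring := by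
        intro T
        rw [aeval_eq_sum_range]
        refine sum_mem fun l _ => ?_
        rw [Algebra.smul_def]
        exact mul_mem (w.algebraMap_mem' _) (pow_mem (mem_place_of_ord_nonneg w hw.le) _)
      refine le_antisymm ?_ (ord_nonneg_of_mem w (hmem R'))
      by_contra hlt
      push Not at hlt
      have hsplit : algebraMap K F (R'.coeff 0) = aeval y R' + -(y * aeval y R'.divX) := by
        have hsp := congrArg (aeval (R := K) y) R'.X_mul_divX_add
        simp only [map_add, map_mul, aeval_X, aeval_C] at hsp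
        linear_combination hsp
      have := place_ord_add w (f := aeval y R') (g := -(y * aeval y R'.divX)) (n := 1)
        (by rw [← hsplit]; simpa using hc) (Or.inr (by omega)) (by
          rcases eq_or_ne (aeval y R'.divX) 0 with h0 | h0
          · left; simp [h0]
          · right
            rw [place_ord_neg, w.ord_mul hy0 h0]
            have := ord_nonneg_of_mem w (hmem R'.divX)
            omega)
      rw [← hsplit, place_ord_algebraMap] at this
      omega
    rw [h0, add_zero]
  have hg0 : aeval y P / aeval y Q ≠ 0 := div_ne_zero (hne _ hP) (hne _ hQ)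
  have hplace : ∀ w : Place K F, 0 < w.ord y → w.ord (aeval y P / aeval y Q) =
      ((P.rootMultiplicity 0 : ℤ) - Q.rootMultiplicity 0) * w.ord y := by
    intro w hw
    rw [div_eq_mul_inv, w.ord_mul (hne _ hP) (inv_ne_zero (hne _ hQ)), w.ord_inv, hord w hw P hP,
      hord w hw Q hQ]
    ring
  have hi' : 0 ≤ (E.pl i).ord (aeval y P / aeval y Q) :=
    (E.ord_nonneg_iff i _).2 ((ordGE_iff_le_order ((_root_.map_ne_zero _).2 hg0)).1 hi)
  rw [hplace _ (E.ord_y_pos i)] at hi'
  rw [hplace _ hv]
  exact mul_nonneg (nonneg_of_mul_nonneg_left hi' (E.ord_y_pos i)) hv.le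

/-- All places over the zero of `y` come from the family. -/
theorem pl_surjective (v : Place K F) (hv : 0 < v.ord y) : ∃ i, E.pl i = v := by
  classical
  by_contra hno
  push Not at hno
  obtain ⟨f, hf0, hfv, hfS⟩ := exists_separating v (Finset.univ.image E.pl)
    (by simpa using hno)
  set i₁ := Classical.choice E.nonempty
  haveI := E.finite
  set q := minpoly L f with hq
  set φ : L →+* LaurentSeries C := (E.σ i₁ : F →+* LaurentSeries C).comp (algebraMap L F)
  set Ω' := AlgebraicClosure (LaurentSeries C)
  -- all coefficients have nonnegative order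
  have hint : IsIntegral L f := IsIntegral.of_finite _ _
  have hmon : ((q.map φ).map (algebraMap (LaurentSeries C) Ω')).Monic :=
    ((minpoly.monic hint).map _).map _
  have hsp : ((q.map φ).map (algebraMap (LaurentSeries C) Ω')).Splits := IsAlgClosed.splits _
  set R₀ : Subring Ω' := (nonnegSubring C).map (algebraMap (LaurentSeries C) Ω')
  have hroots : ∀ r ∈ ((q.map φ).map (algebraMap (LaurentSeries C) Ω')).roots, r ∈ R₀ := by
    intro r hr
    obtain ⟨i, rfl⟩ := (E.roots_and_norm f).1 r (Polynomial.mem_roots'.1 hr).2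
    refine ⟨_, (ordGE_iff_le_order ((_root_.map_ne_zero _).2 hf0)).2 ?_, rfl⟩
    rw [E.order_σ]
    exact mul_nonneg (E.scale_pos i).le (hfS _ (Finset.mem_image_of_mem _ (Finset.mem_univ i))).le
  have hcoeff : ∀ n, OrdGE 0 (φ (q.coeff n)) := by
    intro n
    have hmem : ((q.map φ).map (algebraMap (LaurentSeries C) Ω')).coeff n ∈ R₀ := by
      rw [hsp.eq_prod_roots_of_monic hmon]
      have : ((((q.map φ).map (algebraMap (LaurentSeries C) Ω')).roots.map
          fun a => X - Polynomial.C a).prod) ∈ Polynomial.lifts R₀.subtype := by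
        refine multiset_prod_mem _ fun p hp => ?_
        obtain ⟨a, ha, rfl⟩ := Multiset.mem_map.1 hp
        rw [sub_eq_add_neg]
        exact add_mem (X_mem_lifts _)
          (by rw [← map_neg]; exact C'_mem_lifts (by simpa using neg_mem (hroots a ha)))
      obtain ⟨z, hz⟩ := (lifts_iff_coeff_lifts _).1 this n
      rw [← hz]
      exact z.2
    obtain ⟨g, hg, hgeq⟩ := hmem
    rw [Polynomial.coeff_map, Polynomial.coeff_map] at hgeq
    rw [← (algebraMap (LaurentSeries C) Ω').injective hgeq]
    exact hg
  have hzero : aeval f q = 0 := minpoly.aeval _ _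
  rw [aeval_eq_sum_range, Finset.sum_range_succ, (minpoly.monic hint).coeff_natDegree, one_smul,
    add_eq_zero_iff_eq_neg'] at hzero
  -- `f` is integral over the valuation ring of `v`
  have hdeg : 0 < q.natDegree := minpoly.natDegree_pos hint
  have hordsum : ∀ s : Finset ℕ, (∀ n ∈ s, n < q.natDegree) →
      (∑ n ∈ s, q.coeff n • f ^ n) = 0 ∨
      ((q.natDegree : ℤ) - 1) * v.ord f ≤ v.ord (∑ n ∈ s, q.coeff n • f ^ n) := by
    intro s
    induction s using Finset.induction with
    | empty => simp
    | @insert a s has ih =>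
      intro hlt
      rw [Finset.sum_insert has]
      by_cases hz : q.coeff a • f ^ a + ∑ n ∈ s, q.coeff n • f ^ n = 0
      · exact Or.inl hz
      refine Or.inr (place_ord_add v hz ?_ (ih fun n hn => hlt n (Finset.mem_insert_of_mem hn)))
      rcases eq_or_ne (q.coeff a) 0 with h0 | h0
      · left; rw [h0, zero_smul]
      right
      have hca : (algebraMap L F (q.coeff a)) ≠ 0 := by simpa using h0
      rw [Algebra.smul_def, v.ord_mul hca (pow_ne_zero _ hf0), place_ord_pow]
      have h1 := E.ord_nonneg_of_mem_L (g := algebraMap L F (q.coeff a)) (by simp) i₁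
        (hcoeff a) v hv
      have h2 : (a : ℤ) ≤ (q.natDegree : ℤ) - 1 := by
        have := hlt a (Finset.mem_insert_self a s); omega
      nlinarith
  rcases hordsum (Finset.range q.natDegree) (fun n hn => Finset.mem_range.1 hn) with h | h
  · rw [h, neg_zero] at hzero; exact pow_ne_zero _ hf0 hzero
  · rw [← neg_eq_iff_eq_neg.2 hzero, place_ord_neg, place_ord_pow] at h
    linarith

/-- The finite set of places over the zero of `y`. -/
def places : Finset (Place K F) :=
  letI := Classical.decEq (Place K F)
  Finset.univ.image E.pl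

theorem mem_places {v : Place K F} : v ∈ E.places ↔ 0 < v.ord y := by
  simp only [places, Finset.mem_image, Finset.mem_univ, true_and]
  constructor
  · rintro ⟨i, rfl⟩; exact E.ord_y_pos i
  · exact fun h => E.pl_surjective v h

theorem sum_ord_y : ∑ v ∈ E.places, v.ord y = (Fintype.card ι : ℤ) := by
  classical
  have h := Finset.card_eq_sum_card_fiberwise (s := (Finset.univ : Finset ι)) (t := E.places)
    (f := E.pl) fun i _ => E.mem_places.2 (E.ord_y_pos i)
  rw [Finset.card_univ] at h
  rw [h, Nat.cast_sum]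
  refine Finset.sum_congr rfl fun v hv => ?_
  obtain ⟨i, rfl⟩ := E.pl_surjective v (E.mem_places.1 hv)
  rw [E.card_fibre, E.ram_cast]

/-- The order at the zero of `y` of the norm. -/
theorem mul_sum_ord {f : F} (hf : f ≠ 0) (i₀ : ι) :
    (E.m : ℤ) * ∑ v ∈ E.places, v.ord f =
      (E.σ i₀ (algebraMap L F (Algebra.norm L f))).order := by
  classical
  rw [E.order_norm hf, ← Finset.sum_fiberwise_of_maps_to
    (g := E.pl) (t := E.places) (fun i _ => E.mem_places.2 (E.ord_y_pos i)), Finset.mul_sum]
  refine Finset.sum_congr rfl fun v hv => ?_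
  obtain ⟨i, rfl⟩ := E.pl_surjective v (E.mem_places.1 hv)
  rw [Finset.sum_congr rfl (g := fun _ => E.scale i * (E.pl i).ord f), Finset.sum_const,
    E.card_fibre, nsmul_eq_mul, ← E.scale_mul_ord_y i, ← E.ram_cast]
  · ring
  · intro j hj
    rw [Finset.mem_filter] at hj
    rw [E.order_σ, hj.2, E.scale_congr hj.2]

/-- The number of places, when the deck transformations act freely outside fixed points. -/
theorem card_places_prime (hp : E.m.Prime ∨ E.m = 1) [DecidableEq ι] :
    (E.m : ℤ) * E.places.card = (Fintype.card ι : ℤ) +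
      ((E.m : ℤ) - 1) * (Finset.univ.filter fun i => E.deck i = i).card := by
  classical
  have hram : ∀ i, E.ram i = 1 ∨ E.ram i = E.m := by
    intro i
    have hd : E.ram i ∣ E.m := ⟨_, (mul_comm (E.ram i) _).trans (E.scale_toNat_mul_ram i) |>.symm⟩
    rcases hp with hp | hp
    · exact (Nat.dvd_prime hp).1 hd
    · exact Or.inl (Nat.dvd_one.1 (hp ▸ hd))
  have key : ∀ v ∈ E.places, ((Finset.univ.filter fun i => E.pl i = v).card : ℤ) +
      ((E.m : ℤ) - 1) *
        ((Finset.univ.filter fun i => E.deck i = i).filter fun i => E.pl i = v).card = E.m := by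
    intro v hv
    obtain ⟨i, rfl⟩ := E.pl_surjective v (E.mem_places.1 hv)
    rw [E.card_fibre]
    have hconst : ∀ j, E.pl j = E.pl i → (E.deck j = j ↔ E.ram i = 1) := fun j hj => by
      rw [← E.ram_eq_one_iff, ram, ram, hj]
    rcases hram i with h1 | h1
    · rw [show ((Finset.univ.filter fun l => E.deck l = l).filter fun j => E.pl j = E.pl i) =
          (Finset.univ.filter fun j => E.pl j = E.pl i) from ?_, E.card_fibre, h1]
      · ring
      · ext j
        simp only [Finset.mem_filter, Finset.mem_univ, true_and, and_iff_right_iff_imp]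
        exact fun hj => (hconst j hj).2 h1
    · rcases eq_or_ne (E.m) 1 with hm1 | hm1
      · rw [h1, hm1]; simp
      · rw [show ((Finset.univ.filter fun l => E.deck l = l).filter fun j => E.pl j = E.pl i) = ∅
            from ?_, h1]
        · simp
        · ext j
          simp only [Finset.mem_filter, Finset.mem_univ, true_and, Finset.notMem_empty,
            iff_false, not_and]
          intro hj hji
          exact hm1 (h1.symm.trans ((hconst j hji).1 hj))
  rw [← Finset.card_univ,
    Finset.card_eq_sum_card_fiberwise (f := E.pl) (t := E.places)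
      fun i _ => E.mem_places.2 (E.ord_y_pos i),
    Finset.card_eq_sum_card_fiberwise (s := Finset.univ.filter fun i => E.deck i = i)
      (f := E.pl) (t := E.places) fun i _ => E.mem_places.2 (E.ord_y_pos i)]
  push_cast
  rw [Finset.mul_sum, ← Finset.sum_add_distrib, Finset.sum_congr rfl key, Finset.sum_const,
    nsmul_eq_mul]
  ring

/-- The number of places is the number of deck orbits. -/
theorem card_places_eq_orbits {Q : Type*} [Fintype Q] (π : ι → Q) (hπ : Function.Surjective π)
    (hiff : ∀ i j, π i = π j ↔ ∃ r : ℕ, E.deck^[r] i = j) :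
    E.places.card = Fintype.card Q := by
  classical
  let g : Q → Place K F := fun q => E.pl (Function.surjInv hπ q)
  have hg : Function.Injective g := fun q q' h => by
    have := (hiff _ _).2 (E.pl_eq_iff_orbit.1 h)
    rwa [Function.surjInv_eq hπ, Function.surjInv_eq hπ] at this
  rw [show E.places = Finset.univ.image g from ?_, Finset.card_image_of_injective _ hg,
    Finset.card_univ]
  ext v
  simp only [E.mem_places, Finset.mem_image, Finset.mem_univ, true_and]
  constructor
  · intro hv
    obtain ⟨i, rfl⟩ := E.pl_surjective v hv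
    exact ⟨π i, E.pl_eq_iff_orbit.2 ((hiff _ _).1 (Function.surjInv_eq hπ _))⟩
  · rintro ⟨q, rfl⟩
    exact E.ord_y_pos _

end EmbFamily

end FA.ModField
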