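import Fermat.Agent.ModField.Degree
import Fermat.Agent.ModField.Family

/-!
# The embedding families of `X₀(N)` above every value of `j`

For each `a` a family above the zero of `j - a`, and one above the pole of `j`, all indexed by the
cosets; the numbers of places above `0`, `1728`, `∞` are given by `ν₃`, `ν₂` and the cusp count.
-/

set_option autoImplicit false
set_option linter.style.haveILetI false
set_option linter.unusedSectionVars false
set_option synthInstance.maxHeartbeats 200000
set_option maxHeartbeats 1600000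

noncomputable section

namespace FA.ModField

open UpperHalfPlane hiding I
open Complex HahnSeries CongruenceSubgroup ModularCurve IntermediateField
open scoped MatrixGroups Topology Manifold ComplexConjugate

instance cosFintype (N : ℕ) [NeZero N] : Fintype (FA.Dim.Cos N) := Fintype.ofFinite _

variable {L : Type} {N : ℕ} [NeZero N]

theorem conj_div_self_ne {d : ℂ} (hd : d ≠ 0) : conj d / d ≠ 0 :=
  div_ne_zero ((_root_.map_ne_zero _).2 hd) hd

/-- The rotation by which an element fixing `τ` acts on the Cayley parameter. -/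
def rotUnit (g : SL(2, ℤ)) (τ : ℍ) : ℂˣ :=
  Units.mk0 (conj (denom g τ) / denom g τ)
    (conj_div_self_ne (denom_ne_zero (g : GL (Fin 2) ℝ) τ))

theorem norm_rotUnit (g : SL(2, ℤ)) (τ : ℍ) : ‖(rotUnit g τ : ℂ)‖ = 1 := by
  simp only [rotUnit, Units.val_mk0, norm_div, RCLike.norm_conj]
  exact div_self (norm_ne_zero_iff.2 (denom_ne_zero (g : GL (Fin 2) ℝ) τ))

/-- The rotation of the punctured disc. -/
def discRot (g : SL(2, ℤ)) (τ : ℍ) (w : Disc) : Disc :=
  ⟨(rotUnit g τ : ℂ) * w, mul_ne_zero (Units.ne_zero _) w.2.1, by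
    rw [norm_mul, norm_rotUnit, one_mul]; exact w.2.2⟩

theorem smul_cayH {g : SL(2, ℤ)} {τ : ℍ} (hg : g • τ = τ) (w : Disc) :
    g • cayH τ w = cayH τ (discRot g τ w) := by
  have h : ‖conj (denom g τ) / denom g τ * (w : ℂ)‖ < 1 := (discRot g τ w).2.2
  exact smul_cay hg w.2.2 h

variable [Field L] [Algebra L ℂ]

variable (N) in
theorem exists_cusp_series :
    HasExp (cuspParam N).T (fun x => jfun ((cuspParam N).g₀ x)) (qExpand ℂ N (jqModC ℂ)) := by
  have h := hasExp_jfun.comp (U := qp N) id N 1 (fun z => by simp [qp_pow_self])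
  rwa [twist_one_apply] at h

variable [CharZero L]

/-- The family above the zero of `j - a`, where `a = j(τ)` and `g` generates the stabiliser. -/
def pointFam (a : L) (τ : ℍ) (ha : jfun τ = algebraMap L ℂ a) (g : SL(2, ℤ)) (hg : g • τ = τ)
    (m : ℕ) (hm : 0 < m) (hord : (jLocal τ).order = m)
    (hζ : IsPrimitiveRoot (rotUnit g τ : ℂ) m) :
    EmbFamily L (modularFunctionFieldFullC L N) ℂ (jField L N)
      (jElem L N - algebraMap L (modularFunctionFieldFullC L N) a) (FA.Dim.Cos N) where
  m := m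
  hm := hm
  σ := embCos (pointParam N τ)
  σ_inj := embCos_injective _
  S := jLocal τ
  σ_y i := by
    have hexp : HasExp (pointParam N τ).T (fun x => jfun ((pointParam N τ).g₀ x))
        (jLocal τ + HahnSeries.C (algebraMap L ℂ a)) :=
      ((hasExp_jLocal τ).add (hasExp_C _)).congr (funext fun w => by
        show jfun (cayH τ w) - jfun τ + algebraMap L ℂ a = jfun (cayH τ w)
        rw [ha]; ring)
    rw [map_sub, AlgHom.commutes, algebraMap_laurentC, embCos, emb_jElem _ _ hexp,
      add_sub_cancel_right]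
  order_S := hord
  ζ := rotUnit g τ
  hζ := hζ
  deck i := g⁻¹ • i
  σ_deck i f := embCos_deck (pointParam N τ) g (discRot g τ) (rotUnit g τ)
    (fun w => smul_cayH hg w) (fun _ => rfl) i f
  L_eq := by
    apply le_antisymm <;> rw [adjoin_simple_le_iff]
    · have h := add_mem (mem_adjoin_simple_self L
        (jElem L N - algebraMap L (modularFunctionFieldFullC L N) a))
        (IntermediateField.algebraMap_mem
          L⟮jElem L N - algebraMap L (modularFunctionFieldFullC L N) a⟯ a)
      rwa [sub_add_cancel] at h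
    · exact sub_mem (mem_adjoin_simple_self L _) (IntermediateField.algebraMap_mem _ _)
  finite := finite_jField
  card_eq := by rw [← Nat.card_eq_fintype_card, finrank_jField]

variable (L N) in
/-- The family above the pole of `j`. -/
def cuspFam : EmbFamily L (modularFunctionFieldFullC L N) ℂ (jField L N) (jElem L N)⁻¹
    (FA.Dim.Cos N) where
  m := N
  hm := Nat.pos_of_ne_zero (NeZero.ne N)
  σ := embCos (cuspParam N)
  σ_inj := embCos_injective _
  S := (qExpand ℂ N (jqModC ℂ))⁻¹
  σ_y i := by rw [map_inv₀, embCos, emb_jElem _ _ (exists_cusp_series N)]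
  order_S := by
    rw [order_inv', ← twist_one_apply (jqModC ℂ), order_qExpand_twist_jq, neg_neg]
  ζ := zetaN N
  hζ := zetaN_prim N
  deck i := ModularGroup.T⁻¹ • i
  σ_deck i f := embCos_deck (cuspParam N) ModularGroup.T (fun z : ℍ => ModularGroup.T • z) (zetaN N)
    (fun _ => rfl) (fun z => qp_T_smul N z) i f
  L_eq := by
    apply le_antisymm <;> rw [adjoin_simple_le_iff]
    · have h := inv_mem (mem_adjoin_simple_self L (jElem L N)⁻¹)
      rwa [inv_inv] at h
    · exact inv_mem (mem_adjoin_simple_self L _)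
  finite := finite_jField
  card_eq := by rw [← Nat.card_eq_fintype_card, finrank_jField]

theorem card_pointFam (hIsAlg : IsAlgClosed L) (a : L) (τ : ℍ)
    (ha : jfun τ = algebraMap L ℂ a) (g : SL(2, ℤ)) (hg : g • τ = τ) (m : ℕ) (hm : 0 < m)
    (hord : (jLocal τ).order = m) (hζ : IsPrimitiveRoot (rotUnit g τ : ℂ) m)
    (hp : m.Prime ∨ m = 1) :
    (m : ℤ) * (pointFam (N := N) a τ ha g hg m hm hord hζ).places.card = (dedekindPsi N : ℤ) +
      ((m : ℤ) - 1) * (Nat.card {i : FA.Dim.Cos N // g • i = i} : ℤ) := by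
  classical
  have h := (pointFam (N := N) a τ ha g hg m hm hord hζ).card_places_prime hp
  rw [← FA.Dim.card_cos, Nat.card_eq_fintype_card, Nat.card_eq_fintype_card,
    Fintype.card_subtype]
  refine h.trans ?_
  congr 4
  ext i
  simp only [Finset.mem_filter, Finset.mem_univ, true_and]
  exact inv_smul_eq_iff.trans eq_comm

variable [IsAlgClosed L]

variable (L N) in
theorem card_cuspFam : (cuspFam L N).places.card = cuspCount N := by
  classical
  haveI : Fintype (FA.Dim.CuspSet N) := Fintype.ofFinite _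
  rw [← FA.Dim.card_cuspSet, Nat.card_eq_fintype_card]
  refine (cuspFam L N).card_places_eq_orbits (fun i => Quotient.mk'' i)
    (fun q => q.inductionOn' fun i => ⟨i, rfl⟩) fun i j => ?_
  have hstab : ∀ k : ℤ, (ModularGroup.T⁻¹ ^ (N : ℤ)) ^ k • i = i := fun k =>
    MulAction.mem_stabilizer_iff.1 (zpow_mem (MulAction.mem_stabilizer_iff.2 (by
      have h1 := (cuspFam L N).deck_iterate_m i
      rw [show (cuspFam L N).deck = fun l => ModularGroup.T⁻¹ • l from rfl, smul_iterate] at h1
      rw [zpow_natCast]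
      exact h1)) k)
  have hdeck : ∀ r : ℕ, (cuspFam L N).deck^[r] i = (ModularGroup.T⁻¹ ^ r) • i := fun r => by
    rw [show (cuspFam L N).deck = fun l => ModularGroup.T⁻¹ • l from rfl, smul_iterate]
  rw [Quotient.eq'', MulAction.orbitRel_apply]
  constructor
  · rintro ⟨⟨t, ht⟩, hti⟩
    obtain ⟨k, rfl⟩ := Subgroup.mem_zpowers_iff.1 ht
    have hk : ModularGroup.T ^ k • j = i := hti
    refine ⟨(k % (N : ℤ)).toNat, ?_⟩
    rw [hdeck, ← zpow_natCast, Int.toNat_of_nonneg (Int.emod_nonneg _ (by
      exact_mod_cast NeZero.ne N))]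
    have hj : (ModularGroup.T⁻¹) ^ k • i = j := by
      rw [inv_zpow, ← hk, inv_smul_smul]
    conv_rhs => rw [← hj, ← Int.emod_add_mul_ediv k N, zpow_add, mul_smul, zpow_mul, hstab]
  · rintro ⟨r, rfl⟩
    rw [hdeck]
    refine ⟨⟨ModularGroup.T ^ (r : ℤ), Subgroup.zpow_mem_zpowers _ _⟩, ?_⟩
    show ModularGroup.T ^ (r : ℤ) • _ = i
    rw [zpow_natCast, inv_pow, smul_inv_smul]

theorem rotUnit_rho {g : SL(2, ℤ)} (hg : g = ModularGroup.S * ModularGroup.T) :
    IsPrimitiveRoot (rotUnit g rho : ℂ) 3 := by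
  have hne : (rho : ℂ) + 1 ≠ 0 := denom_ST hg rho ▸ denom_ne_zero (g : GL (Fin 2) ℝ) rho
  have hc : conj (rho : ℂ) = -1 - (rho : ℂ) := by
    apply Complex.ext <;> simp [rho] <;> norm_num
  have hval : (rotUnit g rho : ℂ) = (rho : ℂ) ^ 2 := by
    rw [rotUnit, Units.val_mk0, denom_ST hg, map_add, map_one, hc, div_eq_iff hne]
    linear_combination (-(rho : ℂ)) * rho_sq
  rw [hval, IsPrimitiveRoot.iff_orderOf]
  haveI : Fact (Nat.Prime 3) := ⟨Nat.prime_three⟩
  refine orderOf_eq_prime (by linear_combination ((rho : ℂ) ^ 3 + 1) * rho_cube) fun h => ?_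
  have h1 : (rho : ℂ) = -2 := by linear_combination rho_sq - h
  have := congrArg Complex.im h1
  simp [rho] at this

theorem rotUnit_I : IsPrimitiveRoot (rotUnit ModularGroup.S UpperHalfPlane.I : ℂ) 2 := by
  have hval : (rotUnit ModularGroup.S UpperHalfPlane.I : ℂ) = -1 := by
    rw [rotUnit, Units.val_mk0, denom_S', UpperHalfPlane.coe_I, Complex.conj_I, neg_div,
      div_self Complex.I_ne_zero]
  rw [hval]
  exact IsPrimitiveRoot.neg_one 0 (by norm_num)

theorem rotUnit_one (τ : ℍ) : IsPrimitiveRoot (rotUnit 1 τ : ℂ) 1 := by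
  have hval : (rotUnit 1 τ : ℂ) = 1 := by
    rw [rotUnit, Units.val_mk0, ModularGroup.denom_apply]
    simp
  rw [hval]
  exact IsPrimitiveRoot.one

variable (L N) in
/-- Every value of `j` has a family, with the expected number of places. -/
theorem exists_fam (a : L) : ∃ E : EmbFamily L (modularFunctionFieldFullC L N) ℂ (jField L N)
      (jElem L N - algebraMap L (modularFunctionFieldFullC L N) a) (FA.Dim.Cos N),
    (a = 0 → 3 * (E.places.card : ℤ) = (dedekindPsi N : ℤ) + 2 * nuThree N) ∧
    (a = 1728 → 2 * (E.places.card : ℤ) = (dedekindPsi N : ℤ) + nuTwo N) ∧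
    (a ≠ 0 → a ≠ 1728 → (E.places.card : ℤ) = (dedekindPsi N : ℤ)) := by
  have h1728 : (1728 : L) ≠ 0 := by norm_num
  rcases eq_or_ne a 0 with rfl | h0
  · obtain ⟨g, hg⟩ : ∃ g : SL(2, ℤ), g = ModularGroup.S * ModularGroup.T := ⟨_, rfl⟩
    have ha : jfun rho = algebraMap L ℂ 0 := by rw [jfun_rho, map_zero]
    have hfix : g • rho = rho := hg ▸ ST_smul_rho
    have h := card_pointFam (N := N) ‹_› (0 : L) rho ha g hfix 3 (by norm_num)
      order_jLocal_rho (rotUnit_rho hg) (Or.inl Nat.prime_three)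
    refine ⟨pointFam 0 rho ha g hfix 3 (by norm_num) order_jLocal_rho (rotUnit_rho hg),
      fun _ => ?_, fun h' => absurd h'.symm h1728, fun h' => absurd rfl h'⟩
    subst hg
    rw [FA.Dim.card_fixed_ST] at h
    linear_combination h
  rcases eq_or_ne a 1728 with rfl | h1
  · have ha : jfun UpperHalfPlane.I = algebraMap L ℂ 1728 := by rw [jfun_I, map_ofNat]
    have h := card_pointFam (N := N) ‹_› (1728 : L) UpperHalfPlane.I ha ModularGroup.S S_smul_I
      2 (by norm_num) order_jLocal_I rotUnit_I (Or.inl Nat.prime_two)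
    refine ⟨pointFam 1728 _ ha ModularGroup.S S_smul_I 2 (by norm_num) order_jLocal_I rotUnit_I,
      fun h' => absurd h' h1728, fun _ => ?_, fun _ h' => absurd rfl h'⟩
    rw [FA.Dim.card_fixed_S] at h
    have h' : ((2 : ℕ) : ℤ) - 1 = 1 := by norm_num
    rw [h', one_mul] at h
    exact_mod_cast h
  obtain ⟨τ, hτ⟩ := exists_jfun_eq (algebraMap L ℂ a)
  have hj0 : jfun τ ≠ 0 := by rw [hτ]; exact (_root_.map_ne_zero _).2 h0
  have hj1 : jfun τ ≠ 1728 := by
    rw [hτ, ← map_ofNat (algebraMap L ℂ) 1728]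
    exact fun h => h1 ((algebraMap L ℂ).injective h)
  have h := card_pointFam (N := N) ‹_› a τ hτ 1 (one_smul _ τ) 1 one_pos
    (order_jLocal_general hj0 hj1) (rotUnit_one τ) (Or.inr rfl)
  refine ⟨pointFam a τ hτ 1 (one_smul _ τ) 1 one_pos (order_jLocal_general hj0 hj1)
    (rotUnit_one τ), fun h' => absurd h' h0, fun h' => absurd h' h1, fun _ _ => ?_⟩
  simpa using h

variable (L N) in
/-- The chosen family above `j = a`. -/
def fam (a : L) : EmbFamily L (modularFunctionFieldFullC L N) ℂ (jField L N)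
      (jElem L N - algebraMap L (modularFunctionFieldFullC L N) a) (FA.Dim.Cos N) :=
  (exists_fam L N a).choose

theorem card_fam_zero : 3 * ((fam L N 0).places.card : ℤ) = (dedekindPsi N : ℤ) + 2 * nuThree N :=
  (exists_fam L N 0).choose_spec.1 rfl

theorem card_fam_1728 :
    2 * ((fam L N 1728).places.card : ℤ) = (dedekindPsi N : ℤ) + nuTwo N :=
  (exists_fam L N 1728).choose_spec.2.1 rfl

theorem card_fam_general {a : L} (h0 : a ≠ 0) (h1 : a ≠ 1728) :
    ((fam L N a).places.card : ℤ) = (dedekindPsi N : ℤ) :=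
  (exists_fam L N a).choose_spec.2.2 h0 h1

variable (L N) in
/-- Every place is induced by one of the families. -/
theorem exists_fam_of_place
    (v : AlgebraicCurve.Place L (modularFunctionFieldFullC L N)) :
    (∃ i, (cuspFam L N).pl i = v) ∨ ∃ (a : L) (i : FA.Dim.Cos N), (fam L N a).pl i = v := by
  rcases lt_or_ge (v.ord (jElem L N)) 0 with h | h
  · exact Or.inl ((cuspFam L N).pl_surjective v (by rw [v.ord_inv]; omega))
  · obtain ⟨a, ha⟩ := exists_residue (cuspFam L N).isCurve v (mem_place_of_ord_nonneg v h)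
    refine Or.inr ⟨a, (fam L N a).pl_surjective v (ha.resolve_left fun heq => ?_)⟩
    have h1 : Transcendental L (jElem L N) := jElem_transcendental
    exact h1 (heq ▸ isAlgebraic_algebraMap a)

end FA.ModField
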