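import Fermat.Agent.ModField.JFunction

/-!
# The derivative of `j`, elliptic points, local parameters

`D j = -E₄² E₆ / Δ`; `j` takes every value; at `i` and `ρ` the Cayley parameter linearises the
stabiliser and `j - j(τ)` has order exactly `2`, `3` (and `1` elsewhere).
-/

set_option autoImplicit false
set_option linter.style.haveILetI false

noncomputable section

namespace FA.ModField

open UpperHalfPlane hiding I
open Complex HahnSeries EisensteinSeries Derivative
open scoped MatrixGroups ModularForm Topology Manifold ComplexConjugate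

/-! ### `D j = -E₄² E₆ / Δ` -/

theorem D_discriminant (z : ℍ) :
    normalizedDerivOfComplex ModularForm.discriminant z = E2 z * ModularForm.discriminant z := by
  have heq : deriv (ModularForm.discriminant ∘ ofComplex) (z : ℂ) =
      deriv (fun w => ModularForm.eta w ^ 24) (z : ℂ) := by
    apply Filter.EventuallyEq.deriv_eq
    filter_upwards [isOpen_upperHalfPlaneSet.mem_nhds z.im_pos] with w hw
    simp [ModularForm.discriminant, ofComplex_apply_of_im_pos hw]
  have hd := ModularForm.differentiableAt_eta_of_mem_upperHalfPlaneSet z.im_pos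
  have hlog := ModularForm.logDeriv_eta_eq_E2 z
  rw [logDeriv_apply, div_eq_iff (ModularForm.eta_ne_zero z.im_pos)] at hlog
  rw [normalizedDerivOfComplex, heq, deriv_fun_pow hd 24, hlog]
  simp only [ModularForm.discriminant]
  generalize ModularForm.eta (z : ℂ) = e
  have hpi : (2 * Real.pi * I : ℂ) ≠ 0 := Complex.two_pi_I_ne_zero
  push_cast
  have h24 : e ^ 24 = e ^ 23 * e := pow_succ e 23
  rw [h24]
  generalize e ^ 23 = x
  field_simp
  ring

theorem serre_E4 : ∃ c : ℂ, ∀ z : ℍ,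
    serreDerivative 4 ModularForm.E₄ z = c * ModularForm.E₆ z := by
  set G := serreDerivative 4 (ModularForm.E₄ : ℍ → ℂ) with hG
  have hmd : MDiff (ModularForm.E₄ : ℍ → ℂ) := (ModularForm.E₄).holo'
  have hinv : ∀ g : SL(2, ℤ), G ∣[(6 : ℤ)] g = G := by
    intro g
    have h := serreDerivative_slash_invariant (k := 4) hmd (γ := g)
      (SlashInvariantForm.slash_action_eqn (ModularForm.E₄) (g : GL (Fin 2) ℝ) ⟨g, rfl⟩)
    simpa [hG] using h
  have hb : IsBoundedAtImInfty G := by
    have h1 : IsBoundedAtImInfty (normalizedDerivOfComplex (ModularForm.E₄ : ℍ → ℂ)) := by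
      refine isBoundedAtImInfty_of_hasExp (hasExp_E4.normalizedDeriv) ?_
      intro i hi
      rw [HahnSeries.C_apply, coeff_single_zero_mul, thetaFun_coeff,
        ModularCurve.ofPowerSeries_coeff_of_neg _ hi, mul_zero, mul_zero]
    have h2 : IsBoundedAtImInfty (fun z => (4 : ℂ) * 12⁻¹ * E2 z * ModularForm.E₄ z) := by
      have hE4 : IsBoundedAtImInfty (ModularForm.E₄ : ℍ → ℂ) :=
        isBoundedAtImInfty_of_hasExp hasExp_E4
          (fun i hi => ModularCurve.ofPowerSeries_coeff_of_neg _ hi)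
      exact ((Filter.const_boundedAtFilter _ ((4 : ℂ) * 12⁻¹)).mul isBoundedAtImInfty_E2).mul hE4
    exact h1.sub h2
  obtain ⟨c, hc⟩ := (finrank_eq_one_iff_of_nonzero' ModularForm.E₆
      (E_ne_zero _ ⟨3, rfl⟩)).mp
    (Module.rank_eq_one_iff_finrank_eq_one.mp ModularForm.levelOne_weight_six_rank_one)
    (levelOneForm G hinv (serreDerivative_mdifferentiable 4 hmd) hb)
  refine ⟨c, fun z => ?_⟩
  exact (DFunLike.congr_fun hc z).symm

/-- Leading coefficient of a product. -/
theorem coeff_mul_of_ordGE {R : Type*} [CommRing R] {a b : ℤ} {f g : LaurentSeries R}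
    (hf : OrdGE a f) (hg : OrdGE b g) :
    (f * g).coeff (a + b) = f.coeff a * g.coeff b := by
  rw [coeff_mul, Finset.sum_eq_single (a, b)]
  · intro p hp hne
    simp only [Finset.mem_antidiagonal, mem_support] at hp
    obtain ⟨h1, h2, h3⟩ := hp
    rcases lt_trichotomy p.1 a with hlt | heq | hgt
    · exact absurd (hf _ hlt) h1
    · exact absurd (Prod.ext heq (by omega)) hne
    · exact absurd (hg _ (by omega)) h2
  · intro hnot
    simp only [Finset.mem_antidiagonal, mem_support, not_and_or, not_not, and_true] at hnot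
    rcases hnot with h | h <;> simp [h]

theorem coeff_zero_mul {R : Type*} [CommRing R] {f g : LaurentSeries R}
    (hf : OrdGE 0 f) (hg : OrdGE 0 g) : (f * g).coeff 0 = f.coeff 0 * g.coeff 0 := by
  simpa using coeff_mul_of_ordGE hf hg

theorem deltaq_coeff {R : Type*} [CommRing R] :
    OrdGE 1 (deltaq R) ∧ (deltaq R).coeff 1 = 1 := by
  constructor
  · intro i hi
    rw [deltaq, coeff_single_mul, one_mul]
    exact ModularCurve.ofPowerSeries_coeff_of_neg _ (by omega)
  · rw [deltaq, coeff_single_mul, one_mul, sub_self, show (0 : ℤ) = ((0 : ℕ) : ℤ) from rfl,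
      ofPowerSeries_apply_coeff, PowerSeries.coeff_map, PowerSeries.coeff_zero_eq_constantCoeff,
      ModularCurve.constantCoeff_dedekindEtaUnit, map_one]

theorem E4_series_zero :
    (ofPowerSeries ℤ ℂ (ModularCurve.eisenstein4.map (Int.castRingHom ℂ))).coeff 0 = 1 := by
  rw [show (0 : ℤ) = ((0 : ℕ) : ℤ) from rfl, ofPowerSeries_apply_coeff, PowerSeries.coeff_map,
    PowerSeries.coeff_zero_eq_constantCoeff, ModularCurve.constantCoeff_eisenstein4, map_one]

/-- `D j = -E₄² E₆ / Δ`. -/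
theorem D_jfun (z : ℍ) : normalizedDerivOfComplex jfun z =
    -(ModularForm.E₄ z ^ 2 * ModularForm.E₆ z) / ModularForm.discriminant z := by
  obtain ⟨c, hc⟩ := serre_E4
  -- `D j * Δ = 3 c E₄² E₆`
  have key : ∀ w : ℍ, normalizedDerivOfComplex jfun w * ModularForm.discriminant w =
      3 * c * (ModularForm.E₄ w ^ 2 * ModularForm.E₆ w) := by
    intro w
    have hmd : MDiff (ModularForm.E₄ : ℍ → ℂ) := (ModularForm.E₄).holo'
    have hΔ : MDiff ModularForm.discriminant := CuspForm.discriminant.holo'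
    have hprod : jfun * ModularForm.discriminant = (ModularForm.E₄ : ℍ → ℂ) ^ 3 := by
      funext u
      simp only [Pi.mul_apply, Pi.pow_apply, jfun]
      rw [div_mul_cancel₀ _ (ModularForm.discriminant_ne_zero u)]
    have h := congrFun (congrArg normalizedDerivOfComplex hprod) w
    rw [normalizedDerivOfComplex_mul _ _ mdiff_jfun hΔ, normalizedDerivOfComplex_pow _ 3 hmd] at h
    simp only [Pi.add_apply, Pi.mul_apply, Pi.pow_apply, Pi.natCast_apply, D_discriminant] at h
    have hs := hc w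
    rw [serreDerivative_apply] at hs
    have hp := congrFun hprod w
    simp only [Pi.mul_apply, Pi.pow_apply] at hp
    push_cast at h
    linear_combination h - E2 w * hp + 3 * ModularForm.E₄ w ^ 2 * hs
  -- the constant
  have hc3 : 3 * c = -1 := by
    have hE6 : HasExp (qp 1) (ModularForm.E₆)
        (ofPowerSeries ℤ ℂ (qExpansion 1 (ModularForm.E₆ : ℍ → ℂ))) :=
      hasExp_ofPowerSeries fun w => by
        simpa [qp] using ModularForm.hasSum_qExpansion (h := 1) (f := ModularForm.E₆) one_pos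
          one_mem_strictPeriods_SL w
    have h1 := (hasExp_jfun.normalizedDeriv).mul (qp_ne_zero 1) hasExp_discriminant
    have h2 := (hasExp_C (T := qp 1) (3 * c)).mul (qp_ne_zero 1)
      ((hasExp_E4.pow (qp_ne_zero 1) 2).mul (qp_ne_zero 1) hE6)
    have hfun : (normalizedDerivOfComplex jfun * ModularForm.discriminant) =
        ((fun _ => 3 * c) * ((ModularForm.E₄ : ℍ → ℂ) ^ 2 * (ModularForm.E₆ : ℍ → ℂ))) :=
      funext key
    rw [hfun] at h1
    have heq := congrArg (fun L : LaurentSeries ℂ => L.coeff 0) (h1.unique (covers_qp 1) h2)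
    have h0E : OrdGE 0 (ofPowerSeries ℤ ℂ (ModularCurve.eisenstein4.map (Int.castRingHom ℂ))) :=
      fun i hi => ModularCurve.ofPowerSeries_coeff_of_neg _ hi
    have h06 : OrdGE 0 (ofPowerSeries ℤ ℂ (qExpansion 1 (ModularForm.E₆ : ℍ → ℂ))) :=
      fun i hi => ModularCurve.ofPowerSeries_coeff_of_neg _ hi
    have hE2' : OrdGE 0
        (ofPowerSeries ℤ ℂ (ModularCurve.eisenstein4.map (Int.castRingHom ℂ)) ^ 2) := by
      simpa using h0E.pow 2
    have hθ : OrdGE (-1) (HahnSeries.C (((1 : ℕ) : ℂ))⁻¹ * thetaFun (ModularCurve.jqModC ℂ)) := by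
      intro i hi
      rw [HahnSeries.C_apply, coeff_single_zero_mul, thetaFun_coeff, jqModC_coeff_of_lt hi,
        mul_zero, mul_zero]
    have hl := coeff_mul_of_ordGE hθ (deltaq_coeff (R := ℂ)).1
    rw [show (-1 : ℤ) + 1 = 0 by norm_num] at hl
    simp only [hl] at heq
    rw [(deltaq_coeff (R := ℂ)).2, HahnSeries.C_apply, coeff_single_zero_mul, HahnSeries.C_apply,
      coeff_single_zero_mul, coeff_zero_mul hE2' h06, thetaFun_coeff, jqModC_coeff_neg_one,
      sq, coeff_zero_mul h0E h0E, E4_series_zero,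
      show (0 : ℤ) = ((0 : ℕ) : ℤ) from rfl, ofPowerSeries_apply_coeff,
      E_qExpansion_coeff_zero _ ⟨3, rfl⟩] at heq
    simpa using heq.symm
  rw [eq_div_iff (ModularForm.discriminant_ne_zero z), key z, hc3]
  ring

theorem jfun_sub_1728 (z : ℍ) :
    jfun z - 1728 = ModularForm.E₆ z ^ 2 / ModularForm.discriminant z := by
  have h := ModularForm.discriminant_eq_E₄_cube_sub_E₆_sq z
  have hne := ModularForm.discriminant_ne_zero z
  rw [jfun, eq_div_iff hne, sub_mul, div_mul_cancel₀ _ hne]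
  linear_combination (-1728 : ℂ) * h

/-! ### `j` is surjective -/

theorem tendsto_of_hasExp {f : ℍ → ℂ} {L : LaurentSeries ℂ} (h : HasExp (qp 1) f L)
    (h0 : OrdGE 0 L) : Filter.Tendsto f atImInfty (𝓝 (L.coeff 0)) := by
  set L' : LaurentSeries ℂ := single (-1) 1 * (L - HahnSeries.C (L.coeff 0))
  have h' : HasExp (qp 1) ((fun z => 1 * qp 1 z ^ (-1 : ℤ)) * (f - fun _ => L.coeff 0)) L' :=
    (hasExp_single (-1) 1).mul (qp_ne_zero 1) (h.sub (hasExp_C _))
  have h0' : OrdGE 0 L' := by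
    intro i hi
    simp only [L', coeff_single_mul, coeff_sub, HahnSeries.C_apply, one_mul]
    rcases lt_or_eq_of_le (show i - -1 ≤ 0 by omega) with hlt | heq
    · rw [h0 _ hlt, coeff_single_of_ne hlt.ne, sub_zero]
    · rw [heq, coeff_single_same, sub_self]
  have hb := isBoundedAtImInfty_of_hasExp h' h0'
  have hq : IsZeroAtImInfty (qp 1) := by
    refine (qParam_tendsto_atImInfty (h := 1) one_pos).congr fun z => ?_
    simp [qp]
  have hz : IsZeroAtImInfty
      (qp 1 * ((fun z => 1 * qp 1 z ^ (-1 : ℤ)) * (f - fun _ => L.coeff 0))) :=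
    Filter.ZeroAtFilter.mul_boundedAtFilter hq hb
  have hz' := hz.add_const (L.coeff 0)
  rw [zero_add] at hz'
  refine hz'.congr fun z => ?_
  simp only [Pi.mul_apply, Pi.sub_apply, one_mul, zpow_neg_one]
  rw [← mul_assoc, mul_inv_cancel₀ (qp_ne_zero 1 z), one_mul, sub_add_cancel]

theorem exists_jfun_eq (a : ℂ) : ∃ τ : ℍ, jfun τ = a := by
  by_contra hno
  push Not at hno
  set f : ℍ → ℂ := fun z => (jfun z - a)⁻¹ with hf
  have hne : ∀ z, jfun z - a ≠ 0 := fun z => sub_ne_zero.2 (hno z)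
  have hm : MDiff f := by
    rw [UpperHalfPlane.mdifferentiable_iff]
    exact ((UpperHalfPlane.mdifferentiable_iff.1 mdiff_jfun).sub
      (differentiableOn_const a)).fun_inv fun z _ => hne _
  have hinv : ∀ g : SL(2, ℤ), f ∣[(0 : ℤ)] g = f := fun g =>
    (slash_eq_iff_smul g).2 fun z => by rw [zpow_zero, one_mul, hf]; simp only [jfun_smul]
  have hz : IsZeroAtImInfty f := by
    have h1 : Filter.Tendsto
        (fun z => ModularForm.discriminant z /
          (ModularForm.E₄ z ^ 3 - a * ModularForm.discriminant z)) atImInfty (𝓝 0) := by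
      have hE := tendsto_of_hasExp hasExp_E4
        (fun i hi => ModularCurve.ofPowerSeries_coeff_of_neg _ hi)
      rw [E4_series_zero] at hE
      have hD : Filter.Tendsto ModularForm.discriminant atImInfty (𝓝 0) :=
        ModularForm.discriminant_isZeroAtImInfty
      have := hD.div ((hE.pow 3).sub (hD.const_mul a)) (by simp)
      rw [zero_div] at this
      exact this
    refine h1.congr fun z => ?_
    have hne' := ModularForm.discriminant_ne_zero z
    simp only [hf, jfun]
    rw [div_sub' hne', inv_div, mul_comm (ModularForm.discriminant z) a]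
  obtain ⟨c, hc⟩ := ModularFormClass.levelOne_weight_zero_const
    (levelOneForm f hinv hm (Filter.ZeroAtFilter.boundedAtFilter hz))
  have hc' : f = fun _ => c := hc
  have hc0 : c = 0 := by
    rw [hc'] at hz
    exact tendsto_nhds_unique tendsto_const_nhds hz
  have := congrFun hc' UpperHalfPlane.I
  rw [hc0] at this
  exact inv_ne_zero (hne _) this

/-! ### Special points -/

/-- `ρ = e^{2πi/3}`. -/
def rho : ℍ := ⟨⟨-1 / 2, Real.sqrt 3 / 2⟩, by positivity⟩

theorem rho_sq : (rho : ℂ) ^ 2 + (rho : ℂ) + 1 = 0 := by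
  have h3 : (Real.sqrt 3) * Real.sqrt 3 = 3 := Real.mul_self_sqrt (by norm_num)
  apply Complex.ext <;>
    simp [rho, sq, Complex.mul_re, Complex.mul_im, Complex.add_re, Complex.add_im] <;>
    linarith

theorem rho_ne_zero : (rho : ℂ) ≠ 0 := fun h => by
  have := congrArg Complex.re h; simp [rho] at this

theorem rho_cube : (rho : ℂ) ^ 3 = 1 := by linear_combination ((rho : ℂ) - 1) * rho_sq

theorem S_smul_I : ModularGroup.S • UpperHalfPlane.I = UpperHalfPlane.I := by
  ext
  rw [modular_S_smul]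
  simp [Complex.inv_I]

theorem denom_S' (z : ℍ) : denom ModularGroup.S z = (z : ℂ) := by
  rw [ModularGroup.denom_apply]
  simp [ModularGroup.coe_S]

theorem denom_ST {g : SL(2, ℤ)} (hg : g = ModularGroup.S * ModularGroup.T) (z : ℍ) :
    denom g z = (z : ℂ) + 1 := by
  subst hg
  rw [ModularGroup.denom_apply]
  simp [ModularGroup.coe_S, ModularGroup.coe_T, Matrix.SpecialLinearGroup.coe_mul, Matrix.mul_apply,
    Fin.sum_univ_two]

theorem ST_smul_rho : (ModularGroup.S * ModularGroup.T) • rho = rho := by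
  rw [mul_smul]
  ext
  rw [modular_S_smul, modular_T_smul]
  have h1 : (rho : ℂ) + 1 ≠ 0 := fun h => by
    have := congrArg Complex.re h; simp [rho] at this; norm_num at this
  show (-(((1 : ℝ) +ᵥ rho : ℍ) : ℂ))⁻¹ = (rho : ℂ)
  rw [coe_vadd]
  push_cast
  refine inv_eq_of_mul_eq_one_right ?_
  linear_combination (-1 : ℂ) * rho_sq

theorem E6_I : ModularForm.E₆ UpperHalfPlane.I = 0 := by
  have h := (slash_eq_iff_smul ModularGroup.S).1
    (SlashInvariantForm.slash_action_eqn (ModularForm.E₆) (ModularGroup.S : GL (Fin 2) ℝ)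
      ⟨_, rfl⟩) UpperHalfPlane.I
  rw [S_smul_I, denom_S', UpperHalfPlane.coe_I] at h
  rw [show Complex.I ^ (6 : ℤ) = -1 by
    rw [show (6 : ℤ) = ((6 : ℕ) : ℤ) from rfl, zpow_natCast, show (6 : ℕ) = 4 + 2 from rfl,
      _root_.pow_add, Complex.I_pow_four, Complex.I_sq, one_mul]] at h
  linear_combination h / 2

theorem E4_rho : ModularForm.E₄ rho = 0 := by
  obtain ⟨g, hg⟩ : ∃ g : SL(2, ℤ), g = ModularGroup.S * ModularGroup.T := ⟨_, rfl⟩
  have h := (slash_eq_iff_smul g).1
    (SlashInvariantForm.slash_action_eqn (ModularForm.E₄) (g : GL (Fin 2) ℝ) ⟨g, rfl⟩) rho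
  have hs : g • rho = rho := by rw [hg]; exact ST_smul_rho
  rw [hs, denom_ST hg] at h
  rw [show ((rho : ℂ) + 1) ^ (4 : ℤ) = (rho : ℂ) ^ 2 by
      rw [show (4 : ℤ) = ((4 : ℕ) : ℤ) from rfl, zpow_natCast]
      rw [show (rho : ℂ) + 1 = -(rho : ℂ) ^ 2 by linear_combination rho_sq]
      linear_combination ((rho : ℂ) ^ 5 + (rho : ℂ) ^ 2) * rho_cube] at h
  have : (rho : ℂ) ^ 2 - 1 ≠ 0 := fun h0 => by
    have h2 : (rho : ℂ) = -2 := by linear_combination rho_sq - h0
    have := congrArg Complex.re h2; simp [rho] at this; norm_num at this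
  have : ((rho : ℂ) ^ 2 - 1) * ModularForm.E₄ rho = 0 := by linear_combination -h
  exact (mul_eq_zero.1 this).resolve_left ‹_›

theorem jfun_I : jfun UpperHalfPlane.I = 1728 := by
  have := jfun_sub_1728 UpperHalfPlane.I
  rw [E6_I] at this
  simpa [sub_eq_zero] using this

theorem jfun_rho : jfun rho = 0 := by simp [jfun, E4_rho]

theorem E4_ne_zero_of {z : ℍ} (h : jfun z ≠ 0) : ModularForm.E₄ z ≠ 0 := fun h' => h (by
  simp [jfun, h'])

theorem E6_ne_zero_of {z : ℍ} (h : jfun z ≠ 1728) : ModularForm.E₆ z ≠ 0 := fun h' => h (by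
  have := jfun_sub_1728 z
  rw [h'] at this
  simpa [sub_eq_zero] using this)

/-! ### The Cayley parameter -/

theorem cay_const_aux (τ : ℍ) (h : (τ : ℂ) - conj (τ : ℂ) = 0) : False := by
  have h1 := congrArg Complex.im h
  simp at h1
  have := τ.im_pos
  linarith

theorem cay_const_ne (τ : ℍ) : (τ : ℂ) - conj (τ : ℂ) ≠ 0 := cay_const_aux τ

/-- The punctured unit disc. -/
abbrev Disc : Type := {w : ℂ // w ≠ 0 ∧ ‖w‖ < 1}

theorem covers_disc : CoversPunctured (Subtype.val : Disc → ℂ) :=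
  ⟨1, one_pos, fun w hw h1 => ⟨⟨w, hw, h1⟩, rfl⟩⟩

theorem disc_ne_zero (w : Disc) : (w : ℂ) ≠ 0 := w.2.1

/-- The inverse Cayley map centred at `τ`. -/
def cay (τ : ℍ) (w : ℂ) : ℂ := ((τ : ℂ) - conj (τ : ℂ) * w) / (1 - w)

theorem one_sub_ne_zero {w : ℂ} (hw : ‖w‖ < 1) : 1 - w ≠ 0 := fun h => by
  rw [sub_eq_zero] at h; simp [← h] at hw

theorem cay_zero (τ : ℍ) : cay τ 0 = τ := by simp [cay]

theorem cay_im (τ : ℍ) {w : ℂ} (hw : ‖w‖ < 1) : 0 < (cay τ w).im := by
  have h1 : 0 < Complex.normSq (1 - w) := Complex.normSq_pos.2 (one_sub_ne_zero hw)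
  have h2 : Complex.normSq w < 1 := by
    rw [Complex.normSq_eq_norm_sq]
    nlinarith [norm_nonneg w]
  rw [Complex.normSq_apply] at h2
  rw [cay, Complex.div_im, ← sub_div]
  refine div_pos ?_ h1
  simp [Complex.mul_re, Complex.mul_im]
  nlinarith [τ.im_pos]

/-- The inverse Cayley map on the punctured disc. -/
def cayH (τ : ℍ) (w : Disc) : ℍ := ⟨cay τ w, cay_im τ w.2.2⟩

theorem cay_hasDerivAt (τ : ℍ) {w : ℂ} (hw : ‖w‖ < 1) :
    HasDerivAt (cay τ) (((τ : ℂ) - conj (τ : ℂ)) / (1 - w) ^ 2) w := by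
  have h1 : HasDerivAt (fun x : ℂ => (τ : ℂ) - conj (τ : ℂ) * x) (-conj (τ : ℂ)) w := by
    simpa using ((hasDerivAt_id w).const_mul (conj (τ : ℂ))).const_sub (τ : ℂ)
  have h2 : HasDerivAt (fun x : ℂ => 1 - x) (-1) w := by
    simpa using (hasDerivAt_id w).const_sub (1 : ℂ)
  refine (h1.div h2 (one_sub_ne_zero hw)).congr_deriv ?_
  ring

/-- The action of an element fixing `τ` in the Cayley parameter. -/
theorem smul_cay {τ : ℍ} {g : SL(2, ℤ)} (hg : g • τ = τ) {w : ℂ} (hw : ‖w‖ < 1)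
    (hw' : ‖conj (denom g τ) / denom g τ * w‖ < 1) :
    g • (⟨cay τ w, cay_im τ hw⟩ : ℍ) =
      ⟨cay τ (conj (denom g τ) / denom g τ * w), cay_im τ hw'⟩ := by
  set a : ℂ := ((g 0 0 : ℤ) : ℂ) with ha
  set b : ℂ := ((g 0 1 : ℤ) : ℂ) with hb
  set c : ℂ := ((g 1 0 : ℤ) : ℂ) with hc
  set d : ℂ := ((g 1 1 : ℤ) : ℂ) with hd
  have hden : denom g τ = c * τ + d := by simp [denom, hc, hd]
  have hfix : a * τ + b = (τ : ℂ) * (c * τ + d) := by
    have h := congrArg (fun z : ℍ => (z : ℂ)) hg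
    simp only [coe_specialLinearGroup_apply] at h
    simp only [algebraMap_int_eq, Int.coe_castRingHom, ← Complex.ofReal_intCast] at h
    rw [div_eq_iff] at h
    · push_cast at h; simpa [ha, hb, hc, hd] using h
    · have := denom_ne_zero (g : GL (Fin 2) ℝ) τ
      rw [hden] at this
      simpa [hc, hd] using this
  have hfix' : a * conj (τ : ℂ) + b = conj (τ : ℂ) * (c * conj (τ : ℂ) + d) := by
    have := congrArg conj hfix
    simpa [ha, hb, hc, hd, map_add, map_mul] using this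
  have hden0 : c * (τ : ℂ) + d ≠ 0 := hden ▸ denom_ne_zero (g : GL (Fin 2) ℝ) τ
  have hcd : conj (denom g τ) = c * conj (τ : ℂ) + d := by
    rw [hden]; simp [hc, hd]
  set p : ℍ := ⟨cay τ w, cay_im τ hw⟩ with hp
  have hdp : c * cay τ w + d ≠ 0 := by
    have := denom_ne_zero (g : GL (Fin 2) ℝ) p
    simpa [denom, hc, hd, hp] using this
  ext
  rw [coe_specialLinearGroup_apply]
  simp only [algebraMap_int_eq, Int.coe_castRingHom, Complex.ofReal_intCast]
  show (a * cay τ w + b) / (c * cay τ w + d) = cay τ _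
  rw [hcd, hden, div_eq_iff hdp]
  have hw1 : 1 - w ≠ 0 := one_sub_ne_zero hw
  have h3 : 1 - (c * conj (τ : ℂ) + d) / (c * τ + d) * w ≠ 0 := by
    rw [← hcd, ← hden]; exact one_sub_ne_zero hw'
  have h4 : c * (τ : ℂ) + d - (c * conj (τ : ℂ) + d) * w ≠ 0 := by
    intro h; apply h3; field_simp; linear_combination h
  simp only [cay]
  set e := c * (τ : ℂ) + d with hDdef
  set e' := c * conj (τ : ℂ) + d with hD'def
  have e1 : a * (((τ : ℂ) - conj (τ : ℂ) * w) / (1 - w)) + b =
      ((τ : ℂ) * e - w * (conj (τ : ℂ) * e')) / (1 - w) := by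
    rw [eq_div_iff hw1, add_mul, mul_assoc, div_mul_cancel₀ _ hw1]
    linear_combination hfix - w * hfix'
  have e2 : c * (((τ : ℂ) - conj (τ : ℂ) * w) / (1 - w)) + d = (e - e' * w) / (1 - w) := by
    rw [eq_div_iff hw1, add_mul, mul_assoc, div_mul_cancel₀ _ hw1, hDdef, hD'def]
    ring
  have e3 : ((τ : ℂ) - conj (τ : ℂ) * (e' / e * w)) / (1 - e' / e * w) =
      ((τ : ℂ) * e - w * (conj (τ : ℂ) * e')) / (e - e' * w) := by
    rw [div_eq_div_iff h3 h4]
    field_simp
  rw [e1, e2, e3, div_mul_div_comm, mul_comm (e - e' * w) (1 - w), mul_div_mul_right _ _ h4]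

/-! ### Taylor series in the disc -/

/-- The Taylor series at `0`. -/
def tay (g : ℂ → ℂ) : PowerSeries ℂ :=
  PowerSeries.mk fun n => (n.factorial : ℂ)⁻¹ * iteratedDeriv n g 0

theorem hasExp_tay {g : ℂ → ℂ} (hg : DifferentiableOn ℂ g (Metric.ball 0 1)) :
    HasExp (Subtype.val : Disc → ℂ) (fun w => g w) (ofPowerSeries ℤ ℂ (tay g)) := by
  refine hasExp_ofPowerSeries fun w => ?_
  have hz : (w : ℂ) ∈ Metric.ball (0 : ℂ) ((1 : NNReal) : ℝ) := by simpa using w.2.2
  have h := Complex.hasSum_taylorSeries_on_ball (c := 0) (r := (1 : NNReal))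
    (by simpa using hg) hz
  refine h.congr_fun fun n => ?_
  simp [tay, smul_eq_mul]
  ring

theorem tay_coeff_zero (g : ℂ → ℂ) : (ofPowerSeries ℤ ℂ (tay g)).coeff 0 = g 0 := by
  rw [show (0 : ℤ) = ((0 : ℕ) : ℤ) from rfl, ofPowerSeries_apply_coeff]
  simp [tay]

theorem thetaFun_tay (g : ℂ → ℂ) :
    thetaFun (ofPowerSeries ℤ ℂ (tay g)) =
      single (1 : ℤ) 1 * ofPowerSeries ℤ ℂ (tay (deriv g)) := by
  ext n
  rw [thetaFun_coeff, coeff_single_mul, one_mul]
  rcases lt_or_ge n 1 with hn | hn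
  · rw [ModularCurve.ofPowerSeries_coeff_of_neg _ (show n - 1 < 0 by omega)]
    rcases lt_or_eq_of_le (show n ≤ 0 by omega) with h | h
    · rw [ModularCurve.ofPowerSeries_coeff_of_neg _ h, mul_zero]
    · simp [h]
  · obtain ⟨m, rfl⟩ : ∃ m : ℕ, n = (m : ℤ) + 1 := ⟨(n - 1).toNat, by omega⟩
    rw [add_sub_cancel_right, show (m : ℤ) + 1 = ((m + 1 : ℕ) : ℤ) by push_cast; ring,
      ofPowerSeries_apply_coeff, ofPowerSeries_apply_coeff]
    simp only [tay, PowerSeries.coeff_mk, iteratedDeriv_succ', Nat.factorial_succ]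
    push_cast
    have : (m.factorial : ℂ) ≠ 0 := by exact_mod_cast m.factorial_ne_zero
    have : (m : ℂ) + 1 ≠ 0 := by exact_mod_cast Nat.succ_ne_zero m
    field_simp

theorem differentiableOn_pullback {f : ℍ → ℂ} (hf : MDiff f) (τ : ℍ) :
    DifferentiableOn ℂ (f ∘ ofComplex ∘ cay τ) (Metric.ball 0 1) := by
  intro w hw
  rw [Metric.mem_ball, dist_zero_right] at hw
  exact (((UpperHalfPlane.mdifferentiable_iff.1 hf).differentiableAt
    (isOpen_upperHalfPlaneSet.mem_nhds (cay_im τ hw))).comp w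
      (cay_hasDerivAt τ hw).differentiableAt).differentiableWithinAt

/-- The expansion of a holomorphic function in the Cayley parameter. -/
theorem hasExp_cay {f : ℍ → ℂ} (hf : MDiff f) (τ : ℍ) :
    HasExp (Subtype.val : Disc → ℂ) (f ∘ cayH τ)
      (ofPowerSeries ℤ ℂ (tay (f ∘ ofComplex ∘ cay τ))) := by
  refine (hasExp_tay (differentiableOn_pullback hf τ)).congr (funext fun w => ?_)
  simp [cayH, ofComplex_apply_of_im_pos (cay_im τ w.2.2)]

/-- A holomorphic function vanishing near a point of the Cayley disc vanishes. -/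
theorem eq_zero_of_tay_eq_zero {f : ℍ → ℂ} (hf : MDiff f) (τ : ℍ)
    (h : f ∘ cayH τ = 0) : f = 0 := by
  refine UpperHalfPlane.eq_zero_of_frequently hf (τ := τ) ?_
  rw [Filter.frequently_iff]
  intro U hU
  rw [mem_nhdsWithin] at hU
  obtain ⟨V, hVo, hτV, hVU⟩ := hU
  have hcont : ContinuousAt (fun w : ℂ => ofComplex (cay τ w)) 0 :=
    ContinuousAt.comp (f := cay τ) (UpperHalfPlane.contMDiffAt_ofComplex (n := 0)
      (by rw [cay_zero]; exact τ.im_pos)).continuousAt
      (cay_hasDerivAt τ (by simp)).continuousAt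
  have hev : ∀ᶠ w in 𝓝 (0 : ℂ), ofComplex (cay τ w) ∈ V :=
    hcont.eventually_mem (hVo.mem_nhds (by simpa [cay_zero, ofComplex_apply] using hτV))
  obtain ⟨r, hr, hball⟩ := Metric.eventually_nhds_iff.1 hev
  set e : ℝ := min (r / 2) (1 / 2)
  have he : 0 < e := lt_min (by positivity) (by norm_num)
  have he1 : ‖(e : ℂ)‖ < 1 := by
    rw [Complex.norm_real, Real.norm_eq_abs, abs_of_pos he]
    exact (min_le_right _ _).trans_lt (by norm_num)
  have heV := hball (y := (e : ℂ)) (by
    rw [dist_zero_right, Complex.norm_real, Real.norm_eq_abs, abs_of_pos he]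
    exact (min_le_left _ _).trans_lt (by linarith))
  let w : Disc := ⟨(e : ℂ), by exact_mod_cast he.ne', he1⟩
  refine ⟨cayH τ w, hVU ⟨by simpa [cayH, ofComplex_apply_of_im_pos (cay_im τ he1), w] using heV,
    ?_⟩, congrFun h w⟩
  intro hcon
  have h2 : cay τ (e : ℂ) = (τ : ℂ) := congrArg (fun z : ℍ => (z : ℂ)) hcon
  rw [cay, div_eq_iff (one_sub_ne_zero he1)] at h2
  have h3 : ((τ : ℂ) - conj (τ : ℂ)) * (e : ℂ) = 0 := by linear_combination h2
  rcases mul_eq_zero.1 h3 with h4 | h4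
  · exact cay_const_aux τ h4
  · exact he.ne' (by exact_mod_cast h4)

theorem jfun_ne_const (a : ℂ) : (fun z => jfun z - a) ≠ 0 := fun h => by
  have h1 := hasExp_jfun.sub (hasExp_C (T := qp 1) a)
  rw [show (jfun - fun _ => a) = 0 from h] at h1
  have h2 := congrArg (fun L : LaurentSeries ℂ => L.coeff (-1))
    (hasExp_eq_zero (covers_qp 1) h1)
  simp [jqModC_coeff_neg_one, HahnSeries.C_apply] at h2

/-- If `g = u Aᵐ` and `g' = h A^(m-1)` with units `u`, `h`, then `g` has order `m`. -/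
theorem order_tay_of_rel (g u A h : ℂ → ℂ) (m : ℕ)
    (hu : DifferentiableOn ℂ u (Metric.ball 0 1)) (hA : DifferentiableOn ℂ A (Metric.ball 0 1))
    (hh : DifferentiableOn ℂ h (Metric.ball 0 1)) (hg : DifferentiableOn ℂ g (Metric.ball 0 1))
    (hA0 : A 0 = 0) (hu0 : u 0 ≠ 0) (hh0 : h 0 ≠ 0) (hgne : ofPowerSeries ℤ ℂ (tay g) ≠ 0)
    (hm : 0 < m) (hrel : ∀ w : Disc, g w = u w * A w ^ m)
    (hrel' : ∀ w : Disc, deriv g w = h w * A w ^ (m - 1)) :
    (ofPowerSeries ℤ ℂ (tay g)).order = m := by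
  set G := ofPowerSeries ℤ ℂ (tay g)
  set U := ofPowerSeries ℤ ℂ (tay u) with hUdef
  set AA := ofPowerSeries ℤ ℂ (tay A) with hAdef
  set H := ofPowerSeries ℤ ℂ (tay h) with hHdef
  have hord0 : ∀ (P : PowerSeries ℂ), (ofPowerSeries ℤ ℂ P).coeff 0 ≠ 0 →
      (ofPowerSeries ℤ ℂ P).order = 0 := fun P hP =>
    le_antisymm (order_le_of_coeff_ne_zero hP)
      ((ordGE_iff_le_order (ne_zero_of_coeff_ne_zero hP)).1
        fun i hi => ModularCurve.ofPowerSeries_coeff_of_neg _ hi)
  have hUo : U.order = 0 := hord0 _ (by rw [tay_coeff_zero]; exact hu0)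
  have hHo : H.order = 0 := hord0 _ (by rw [tay_coeff_zero]; exact hh0)
  have hUne : U ≠ 0 := fun h0 => hu0 (by rw [← tay_coeff_zero u, ← hUdef, h0, coeff_zero])
  have hHne : H ≠ 0 := fun h0 => hh0 (by rw [← tay_coeff_zero h, ← hHdef, h0, coeff_zero])
  have h1 : G = U * AA ^ m :=
    (hasExp_tay hg).unique covers_disc
      (((hasExp_tay hu).mul disc_ne_zero ((hasExp_tay hA).pow disc_ne_zero m)).congr
        (funext fun w => (hrel w).symm))
  have h2 : ofPowerSeries ℤ ℂ (tay (deriv g)) = H * AA ^ (m - 1) :=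
    (hasExp_tay (hg.deriv Metric.isOpen_ball)).unique covers_disc
      (((hasExp_tay hh).mul disc_ne_zero ((hasExp_tay hA).pow disc_ne_zero (m - 1))).congr
        (funext fun w => (hrel' w).symm))
  have hAne : AA ≠ 0 := fun h0 => hgne (by rw [h1, h0, zero_pow hm.ne', mul_zero])
  have hApos : 0 < AA.order := by
    have h0 : 0 ≤ AA.order := (ordGE_iff_le_order hAne).1
      fun i hi => ModularCurve.ofPowerSeries_coeff_of_neg _ hi
    refine h0.lt_of_ne fun heq => ?_
    exact hAne (coeff_order_eq_zero.1 (by rw [← heq, hAdef, tay_coeff_zero, hA0]))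
  have hGo : G.order = m * AA.order := by
    rw [h1, order_mul hUne (pow_ne_zero _ hAne), hUo, zero_add, order_pow, nsmul_eq_mul]
  have hθ := (order_thetaFun hgne (by rw [hGo]; positivity)).2
  rw [thetaFun_tay, h2, order_mul (single_ne_zero one_ne_zero)
    (mul_ne_zero hHne (pow_ne_zero _ hAne)), order_single one_ne_zero,
    order_mul hHne (pow_ne_zero _ hAne), hHo, zero_add, order_pow, nsmul_eq_mul, hGo,
    Nat.cast_sub hm, Nat.cast_one] at hθ
  have : AA.order = 1 := by linarith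
  rw [hGo, this, mul_one]

theorem deriv_jcay (τ : ℍ) (a : ℂ) (w : Disc) :
    deriv ((fun z => jfun z - a) ∘ ofComplex ∘ cay τ) w =
      2 * Real.pi * I * (-(ModularForm.E₄ (cayH τ w) ^ 2 * ModularForm.E₆ (cayH τ w)) /
        ModularForm.discriminant (cayH τ w)) * (((τ : ℂ) - conj (τ : ℂ)) / (1 - (w : ℂ)) ^ 2) := by
  have hj : HasDerivAt ((fun z => jfun z - a) ∘ ofComplex)
      (deriv (jfun ∘ ofComplex) (cay τ w)) (cay τ w) := by
    have h := (((UpperHalfPlane.mdifferentiable_iff.1 mdiff_jfun).differentiableAt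
      (isOpen_upperHalfPlaneSet.mem_nhds (cay_im τ w.2.2))).hasDerivAt).sub_const a
    exact h
  have hc := hj.comp (w : ℂ) (cay_hasDerivAt τ w.2.2)
  have hD := D_jfun (cayH τ w)
  rw [normalizedDerivOfComplex] at hD
  have hD' : deriv (jfun ∘ ofComplex) (cay τ w) = 2 * Real.pi * I *
      (-(ModularForm.E₄ (cayH τ w) ^ 2 * ModularForm.E₆ (cayH τ w)) /
        ModularForm.discriminant (cayH τ w)) := by
    rw [← hD, ← mul_assoc, mul_inv_cancel₀ Complex.two_pi_I_ne_zero, one_mul]
    rfl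
  rw [show ((fun z => jfun z - a) ∘ ofComplex ∘ cay τ) =
    ((fun z => jfun z - a) ∘ ofComplex) ∘ cay τ from rfl, hc.deriv, hD']


/-- The local series of `j - j(τ)` at `τ`. -/
def jLocal (τ : ℍ) : LaurentSeries ℂ :=
  ofPowerSeries ℤ ℂ (tay ((fun z => jfun z - jfun τ) ∘ ofComplex ∘ cay τ))

theorem hasExp_jLocal (τ : ℍ) :
    HasExp (Subtype.val : Disc → ℂ) ((fun z => jfun z - jfun τ) ∘ cayH τ) (jLocal τ) :=
  hasExp_cay (mdiff_jfun.sub mdifferentiable_const) τ

theorem jLocal_ne_zero (τ : ℍ) : jLocal τ ≠ 0 := fun h => by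
  have h1 := hasExp_jLocal τ
  rw [h] at h1
  exact jfun_ne_const (jfun τ)
    (eq_zero_of_tay_eq_zero (mdiff_jfun.sub mdifferentiable_const) τ
      (h1.fun_unique hasExp_zero))

theorem mdiff_inv_discriminant : MDiff (fun z => (ModularForm.discriminant z)⁻¹) := by
  rw [UpperHalfPlane.mdifferentiable_iff]
  exact (UpperHalfPlane.mdifferentiable_iff.1 CuspForm.discriminant.holo').fun_inv
    fun z _ => ModularForm.discriminant_ne_zero _

theorem differentiableOn_cayFactor (τ : ℍ) : DifferentiableOn ℂ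
    (fun w : ℂ => 2 * Real.pi * I * (((τ : ℂ) - conj (τ : ℂ)) / (1 - w) ^ 2))
    (Metric.ball 0 1) := by
  intro w hw
  rw [Metric.mem_ball, dist_zero_right] at hw
  have h1 : DifferentiableAt ℂ (fun w : ℂ => (1 - w) ^ 2) w := by fun_prop
  exact (((differentiableAt_const _).div h1 (pow_ne_zero 2 (one_sub_ne_zero hw))).const_mul
      _).differentiableWithinAt

/-- The order of `j - j(τ)` at `τ`. -/
theorem order_jLocal (τ : ℍ) (f6 : ℍ → ℂ) (hf6 : MDiff f6) (u0 h0 : ℍ → ℂ) (hu0 : MDiff u0)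
    (hh0 : MDiff h0) (m : ℕ) (hm : 0 < m) (hA : f6 τ = 0) (hu : u0 τ ≠ 0) (hh : h0 τ ≠ 0)
    (hrel : ∀ z, jfun z - jfun τ = u0 z * f6 z ^ m)
    (hD : ∀ z, -(ModularForm.E₄ z ^ 2 * ModularForm.E₆ z) / ModularForm.discriminant z =
      h0 z * f6 z ^ (m - 1)) :
    (jLocal τ).order = m := by
  refine order_tay_of_rel _ (u0 ∘ ofComplex ∘ cay τ) (f6 ∘ ofComplex ∘ cay τ)
    (fun w => (h0 ∘ ofComplex ∘ cay τ) w *
      (2 * Real.pi * I * (((τ : ℂ) - conj (τ : ℂ)) / (1 - w) ^ 2))) m
    (differentiableOn_pullback hu0 τ) (differentiableOn_pullback hf6 τ)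
    ((differentiableOn_pullback hh0 τ).mul (differentiableOn_cayFactor τ))
    (differentiableOn_pullback (mdiff_jfun.sub mdifferentiable_const) τ) ?_ ?_ ?_
    (jLocal_ne_zero τ) hm ?_ ?_
  · simpa [cay_zero, ofComplex_apply] using hA
  · simpa [cay_zero, ofComplex_apply] using hu
  · simp [cay_zero, ofComplex_apply, hh, cay_const_ne τ, Real.pi_ne_zero]
  · intro w
    simp only [Function.comp_apply, ofComplex_apply_of_im_pos (cay_im τ w.2.2)]
    exact hrel _
  · intro w
    rw [deriv_jcay, hD]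
    simp only [Function.comp_apply, ofComplex_apply_of_im_pos (cay_im τ w.2.2)]
    simp only [cayH]
    ring

theorem order_jLocal_I : (jLocal UpperHalfPlane.I).order = 2 := by
  refine order_jLocal _ ModularForm.E₆ (ModularForm.E₆).holo'
    (fun z => (ModularForm.discriminant z)⁻¹)
    (fun z => -(ModularForm.E₄ z ^ 2) * (ModularForm.discriminant z)⁻¹) mdiff_inv_discriminant
    ((((ModularForm.E₄).holo').pow 2).neg.mul mdiff_inv_discriminant) 2 (by norm_num) E6_I
    (inv_ne_zero (ModularForm.discriminant_ne_zero _))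
    (mul_ne_zero (neg_ne_zero.2 (pow_ne_zero _ (E4_ne_zero_of (by rw [jfun_I]; norm_num))))
      (inv_ne_zero (ModularForm.discriminant_ne_zero _)))
    (fun z => by rw [jfun_I, jfun_sub_1728]; ring) (fun z => by ring)

theorem order_jLocal_rho : (jLocal rho).order = 3 := by
  refine order_jLocal _ ModularForm.E₄ (ModularForm.E₄).holo'
    (fun z => (ModularForm.discriminant z)⁻¹)
    (fun z => -(ModularForm.E₆ z) * (ModularForm.discriminant z)⁻¹) mdiff_inv_discriminant
    ((ModularForm.E₆).holo'.neg.mul mdiff_inv_discriminant) 3 (by norm_num) E4_rho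
    (inv_ne_zero (ModularForm.discriminant_ne_zero _))
    (mul_ne_zero (neg_ne_zero.2 (E6_ne_zero_of (by rw [jfun_rho]; norm_num)))
      (inv_ne_zero (ModularForm.discriminant_ne_zero _)))
    (fun z => by rw [jfun_rho]; simp [jfun]; ring) (fun z => by ring)

theorem order_jLocal_general {τ : ℍ} (h0 : jfun τ ≠ 0) (h1728 : jfun τ ≠ 1728) :
    (jLocal τ).order = 1 := by
  have hne : (jLocal τ).coeff 1 ≠ 0 := by
    rw [jLocal, show (1 : ℤ) = ((1 : ℕ) : ℤ) from rfl, ofPowerSeries_apply_coeff]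
    simp only [tay, PowerSeries.coeff_mk, iteratedDeriv_one, Nat.factorial_one, Nat.cast_one,
      inv_one, one_mul]
    have hj : HasDerivAt ((fun z => jfun z - jfun τ) ∘ ofComplex)
        (deriv (jfun ∘ ofComplex) (τ : ℂ)) (cay τ 0) := by
      rw [cay_zero]
      exact (((UpperHalfPlane.mdifferentiable_iff.1 mdiff_jfun).differentiableAt
        (isOpen_upperHalfPlaneSet.mem_nhds τ.im_pos)).hasDerivAt).sub_const _
    have hc := hj.comp (0 : ℂ) (cay_hasDerivAt τ (by simp))
    rw [show ((fun z => jfun z - jfun τ) ∘ ofComplex ∘ cay τ) =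
      ((fun z => jfun z - jfun τ) ∘ ofComplex) ∘ cay τ from rfl, hc.deriv]
    have hD := D_jfun τ
    rw [normalizedDerivOfComplex, inv_mul_eq_iff_eq_mul₀ Complex.two_pi_I_ne_zero] at hD
    rw [hD]
    simp [cay_const_ne τ, E4_ne_zero_of h0, E6_ne_zero_of h1728,
      ModularForm.discriminant_ne_zero, Real.pi_ne_zero]
  refine le_antisymm (order_le_of_coeff_ne_zero hne) ?_
  refine (ordGE_iff_le_order (jLocal_ne_zero τ)).1 fun i hi => ?_
  rcases lt_or_eq_of_le (show i ≤ 0 by omega) with h | h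
  · exact ModularCurve.ofPowerSeries_coeff_of_neg _ h
  · rw [h, jLocal, tay_coeff_zero]
    simp [cay_zero, ofComplex_apply]

end FA.ModField
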