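import Fermat.Agent.ModField.Expansion
import Fermat.Prelude.Def_ModularCurve_JqCoeff

/-!
# The modular `j`-function on the upper half plane
-/

set_option autoImplicit false
set_option linter.style.haveILetI false

noncomputable section

namespace FA.ModField

open UpperHalfPlane hiding I
open Complex HahnSeries EisensteinSeries Derivative
open scoped MatrixGroups ModularForm Topology Manifold PowerSeries.WithPiTopology

/-- `exp(2πi z / N)`. -/
def qp (N : ℕ) (z : ℍ) : ℂ := Function.Periodic.qParam (N : ℝ) (z : ℂ)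

theorem qp_ne_zero (N : ℕ) (z : ℍ) : qp N z ≠ 0 := exp_ne_zero _

theorem qp_eq (N : ℕ) (z : ℍ) : qp N z = cexp (2 * Real.pi * I * z / N) := by
  simp [qp, Function.Periodic.qParam]

theorem qp_pow_self (N : ℕ) [NeZero N] (z : ℍ) : qp N z ^ N = qp 1 z := by
  rw [qp_eq, qp_eq, ← Complex.exp_nat_mul]
  congr 1
  have : (N : ℂ) ≠ 0 := by exact_mod_cast NeZero.ne N
  field_simp
  simp

theorem norm_qp_lt_one (N : ℕ) [NeZero N] (z : ℍ) : ‖qp N z‖ < 1 :=
  Function.Periodic.norm_qParam_lt_one (by exact_mod_cast Nat.pos_of_ne_zero (NeZero.ne N)) z.im_pos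

theorem covers_qp (N : ℕ) [NeZero N] : CoversPunctured (qp N) := by
  refine ⟨1, one_pos, fun w hw hw1 => ?_⟩
  have hN : (0 : ℝ) < N := by exact_mod_cast Nat.pos_of_ne_zero (NeZero.ne N)
  exact ⟨⟨_, Function.Periodic.im_invQParam_pos_of_norm_lt_one hN hw1 hw⟩,
    Function.Periodic.qParam_right_inv hN.ne' hw⟩

/-- `j = E₄³/Δ`. -/
def jfun (z : ℍ) : ℂ := ModularForm.E₄ z ^ 3 / ModularForm.discriminant z

theorem slash_eq_iff_smul {k : ℤ} {f : ℍ → ℂ} (g : SL(2, ℤ)) :
    f ∣[k] g = f ↔ ∀ z : ℍ, f (g • z) = denom g z ^ k * f z := by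
  rw [funext_iff]
  refine forall_congr' fun z => ?_
  have hd : denom g z ^ k ≠ 0 := zpow_ne_zero _ (denom_ne_zero _ _)
  rw [ModularForm.SL_slash_apply, zpow_neg, mul_inv_eq_iff_eq_mul₀ hd, mul_comm]

theorem E4_smul (g : SL(2, ℤ)) (z : ℍ) :
    ModularForm.E₄ (g • z) = denom g z ^ (4 : ℤ) * ModularForm.E₄ z :=
  (slash_eq_iff_smul g).1 (SlashInvariantForm.slash_action_eqn (ModularForm.E₄)
    (g : GL (Fin 2) ℝ) ⟨g, rfl⟩) z

theorem discriminant_smul (g : SL(2, ℤ)) (z : ℍ) :
    ModularForm.discriminant (g • z) = denom g z ^ (12 : ℤ) * ModularForm.discriminant z :=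
  (slash_eq_iff_smul g).1 (SlashInvariantForm.slash_action_generators_SL2Z ModularForm.discriminant_S_invariant
    ModularForm.discriminant_T_invariant g) z

theorem jfun_smul (g : SL(2, ℤ)) (z : ℍ) : jfun (g • z) = jfun z := by
  have hd : denom g z ≠ 0 := denom_ne_zero _ _
  rw [jfun, jfun, E4_smul, discriminant_smul, mul_pow, ← zpow_natCast, ← zpow_mul]
  norm_num
  rw [mul_div_mul_left _ _ (pow_ne_zero _ hd)]

theorem mdiff_jfun : MDiff jfun := by
  rw [UpperHalfPlane.mdifferentiable_iff]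
  exact ((UpperHalfPlane.mdifferentiable_iff.1 (ModularForm.E₄).holo').pow 3).div
    (UpperHalfPlane.mdifferentiable_iff.1 CuspForm.discriminant.holo')
    (fun z _ => ModularForm.discriminant_ne_zero _)

/-! ### The expansion of `Δ` -/

theorem etaProd_taylor (k : ℕ) :
    iteratedDeriv k (fun q : ℂ => ∏' n : ℕ, (1 - q ^ (n + 1))) 0 =
      (k.factorial : ℂ) * ((PowerSeries.coeff k ModularCurve.etaProd : ℤ) : ℂ) := by
  classical
  set F : Finset ℕ → ℂ → ℂ := fun s q => ∏ n ∈ s, (1 - q ^ (n + 1)) with hF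
  set G : ℂ → ℂ := fun q => ∏' n : ℕ, (1 - q ^ (n + 1))
  have h0 : TendstoLocallyUniformlyOn F G Filter.atTop (Metric.ball (0 : ℂ) 1) :=
    ModularForm.multipliableLocallyUniformlyOn_one_sub_pow.hasProdLocallyUniformlyOn
  have hdiff : ∀ (s : Finset ℕ) (m : ℕ),
      Differentiable ℂ (iteratedDeriv m (F s)) := by
    intro s m
    exact ContDiff.differentiable_iteratedDeriv (n := ⊤) m (by fun_prop) (by simp)
  have hk : TendstoLocallyUniformlyOn (fun s => iteratedDeriv k (F s)) (iteratedDeriv k G)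
      Filter.atTop (Metric.ball (0 : ℂ) 1) := by
    clear hF
    induction k with
    | zero => simpa using h0
    | succ k ih =>
      have := ih.deriv (Filter.Eventually.of_forall fun s => (hdiff s k).differentiableOn)
        Metric.isOpen_ball
      simpa [iteratedDeriv_succ, Function.comp_def] using this
  have hlim := hk.tendsto_at (Metric.mem_ball_self one_pos)
  -- the partial products are polynomials
  let P : Finset ℕ → Polynomial ℤ := fun s => ∏ n ∈ s, (1 - Polynomial.X ^ (n + 1))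
  have hP : ∀ s, iteratedDeriv k (F s) 0 =
      (k.factorial : ℂ) * (((P s).coeff k : ℤ) : ℂ) := by
    intro s
    have hFs : F s = fun q => ((P s).map (Int.castRingHom ℂ)).eval q := by
      funext q
      simp [hF, P, Polynomial.map_prod, Polynomial.eval_prod]
    rw [hFs]
    generalize (P s) = p
    rw [iteratedDeriv_eq_iterate]
    have : ∀ m : ℕ, deriv^[m] (fun q => (p.map (Int.castRingHom ℂ)).eval q) =
        fun q => (Polynomial.derivative^[m] (p.map (Int.castRingHom ℂ))).eval q := by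
      intro m
      induction m with
      | zero => rfl
      | succ m ih =>
        rw [Function.iterate_succ_apply', ih, Function.iterate_succ_apply']
        funext q
        exact Polynomial.deriv _
    rw [this]
    beta_reduce
    rw [← Polynomial.coeff_zero_eq_eval_zero]
    simp [Polynomial.coeff_iterate_derivative, Nat.descFactorial_self, Polynomial.coeff_map,
      nsmul_eq_mul]
  simp only [hP] at hlim
  refine tendsto_nhds_unique hlim (Filter.Tendsto.const_mul _ ?_)
  have hps : Filter.Tendsto (fun s : Finset ℕ => PowerSeries.coeff k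
      (∏ n ∈ s, ((1 : PowerSeries ℤ) - PowerSeries.X ^ (n + 1)))) Filter.atTop
      (𝓝 (PowerSeries.coeff k ModularCurve.etaProd)) := by
    have h1 : HasProd (fun n : ℕ => (1 : PowerSeries ℤ) - PowerSeries.X ^ (n + 1))
        ModularCurve.etaProd :=
      (PowerSeries.WithPiTopology.multipliable_one_sub_X_pow ℤ).hasProd
    exact ((PowerSeries.WithPiTopology.continuous_coeff ℤ k).tendsto _).comp h1
  have hco : ∀ s : Finset ℕ, (P s).coeff k = PowerSeries.coeff k
      (∏ n ∈ s, ((1 : PowerSeries ℤ) - PowerSeries.X ^ (n + 1))) := by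
    intro s
    rw [← Polynomial.coeff_coe]
    congr 1
    have : ((P s : Polynomial ℤ) : PowerSeries ℤ) =
        Polynomial.coeToPowerSeries.ringHom (P s) := rfl
    rw [this, map_prod]
    simp [Polynomial.coeToPowerSeries.ringHom_apply]
  simp only [hco]
  exact ((continuous_of_discreteTopology (f := fun n : ℤ => (n : ℂ))).tendsto _).comp hps

/-- The series of `q ∏ (1 - qⁿ)²⁴`. -/
def deltaq (R : Type*) [CommRing R] : LaurentSeries R :=
  single (1 : ℤ) 1 * ofPowerSeries ℤ R (ModularCurve.dedekindEtaUnit.map (Int.castRingHom R))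

theorem hasExp_etaProd :
    HasExp (qp 1) (fun z : ℍ => ∏' n : ℕ, (1 - qp 1 z ^ (n + 1)))
      (ofPowerSeries ℤ ℂ (ModularCurve.etaProd.map (Int.castRingHom ℂ))) := by
  refine hasExp_ofPowerSeries fun z => ?_
  have hz : qp 1 z ∈ Metric.ball (0 : ℂ) ((1 : NNReal) : ℝ) := by
    simpa using norm_qp_lt_one 1 z
  have h := Complex.hasSum_taylorSeries_on_ball (c := 0) (r := (1 : NNReal))
    (f := fun q : ℂ => ∏' n : ℕ, (1 - q ^ (n + 1)))
    (by simpa using ModularForm.differentiableOn_tprod_one_sub_pow) hz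
  refine h.congr_fun fun n => ?_
  rw [etaProd_taylor, PowerSeries.coeff_map, smul_eq_mul, smul_eq_mul, sub_zero]
  have : (n.factorial : ℂ) ≠ 0 := by exact_mod_cast n.factorial_ne_zero
  field_simp
  simp [mul_comm]

/-- The expansion of `∏ (1 - qⁿ)²⁴`. -/
theorem map_etaUnit (R : Type*) [CommRing R] :
    ofPowerSeries ℤ R (ModularCurve.dedekindEtaUnit.map (Int.castRingHom R)) =
      (ofPowerSeries ℤ R (ModularCurve.etaProd.map (Int.castRingHom R))) ^ 24 := by
  unfold ModularCurve.dedekindEtaUnit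
  generalize ModularCurve.etaProd = e
  rw [RingHom.map_pow, RingHom.map_pow]

theorem hasExp_discriminant : HasExp (qp 1) ModularForm.discriminant (deltaq ℂ) := by
  have h := (hasExp_single (T := qp 1) 1 1).mul (qp_ne_zero 1)
    ((hasExp_etaProd.pow (qp_ne_zero 1) 24))
  rw [deltaq, map_etaUnit]
  generalize (ofPowerSeries ℤ ℂ (ModularCurve.etaProd.map (Int.castRingHom ℂ))) = L at h ⊢
  convert h using 1
  funext z
  symm
  have hq : qp 1 z = Function.Periodic.qParam (1 : ℝ) (z : ℂ) := by simp [qp]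
  simp only [Pi.mul_apply, Pi.pow_apply, zpow_one, one_mul]
  rw [ModularForm.discriminant_eq_q_prod, ← hq,
    ← (ModularForm.multipliable_one_sub_pow (norm_qp_lt_one 1 z)).tprod_pow 24]
  simp only [ModularForm.eta_q, ← hq]

theorem hasExp_inv_etaUnit :
    HasExp (qp 1) (fun z : ℍ => (∏' n : ℕ, (1 - qp 1 z ^ (n + 1)))⁻¹ ^ 24)
      (ofPowerSeries ℤ ℂ (ModularCurve.dedekindEtaUnitInv.map (Int.castRingHom ℂ))) := by
  set G : ℂ → ℂ := fun q => ∏' n : ℕ, (1 - q ^ (n + 1))
  have hG0 : ∀ q ∈ Metric.ball (0 : ℂ) 1, G q ≠ 0 := by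
    intro q hq
    rw [Metric.mem_ball, dist_zero_right] at hq
    refine tprod_one_add_ne_zero_of_summable (f := fun n => -q ^ (n + 1)) ?_ ?_
    · intro i h
      have hq1 : q ^ (i + 1) = 1 := by linear_combination -h
      have := congrArg (‖·‖) hq1
      simp only [norm_pow, norm_one] at this
      exact (pow_lt_one₀ (norm_nonneg _) hq (by omega)).ne this
    · simpa [summable_nat_add_iff (f := fun n => ‖q‖ ^ n) 1] using
        summable_geometric_of_lt_one (norm_nonneg _) hq
  have hdiff : DifferentiableOn ℂ (fun q => (G q)⁻¹ ^ 24) (Metric.ball (0 : ℂ) 1) :=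
    (ModularForm.differentiableOn_tprod_one_sub_pow.fun_inv hG0).fun_pow 24
  set P := PowerSeries.mk (fun n => (n.factorial : ℂ)⁻¹ *
    iteratedDeriv n (fun q => (G q)⁻¹ ^ 24) 0) with hP
  have hexp : HasExp (qp 1) (fun z : ℍ => (G (qp 1 z))⁻¹ ^ 24) (ofPowerSeries ℤ ℂ P) := by
    refine hasExp_ofPowerSeries fun z => ?_
    have hz : qp 1 z ∈ Metric.ball (0 : ℂ) ((1 : NNReal) : ℝ) := by
      simpa using norm_qp_lt_one 1 z
    have h := Complex.hasSum_taylorSeries_on_ball (c := 0) (r := (1 : NNReal))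
      (f := fun q => (G q)⁻¹ ^ 24) (by simpa using hdiff) hz
    refine h.congr_fun fun n => ?_
    simp [hP, smul_eq_mul]
    ring
  -- abstract in the exponent to keep the elaborator away from unfolding 24th powers
  have key : ∀ (n : ℕ) (L M N : LaurentSeries ℂ) (f g : ℍ → ℂ), HasExp (qp 1) f L →
      HasExp (qp 1) g M → (∀ z, f z ^ n * g z = 1) → L ^ n * N = 1 → M = N := by
    intro n L M N f g hf hg hfg hLN
    have h1 : HasExp (qp 1) 1 (L ^ n * M) := by
      convert (hf.pow (qp_ne_zero 1) n).mul (qp_ne_zero 1) hg using 1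
      funext z
      exact (hfg z).symm
    exact mul_left_cancel₀ (left_ne_zero_of_mul_eq_one hLN)
      ((h1.unique (covers_qp 1) hasExp_one).trans hLN.symm)
  have hinv := key 24 _ _
    (ofPowerSeries ℤ ℂ (ModularCurve.dedekindEtaUnitInv.map (Int.castRingHom ℂ))) _ _
    hasExp_etaProd hexp (fun z => by
      rw [inv_pow, mul_inv_cancel₀]
      exact pow_ne_zero _ (hG0 _ (by simpa using norm_qp_lt_one 1 z))) (by
      rw [← map_etaUnit, ← map_mul, ← map_mul, ModularCurve.dedekindEtaUnit_mul_inv, map_one,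
        map_one])
  rw [← hinv]
  exact hexp

theorem hasExp_E4 :
    HasExp (qp 1) (ModularForm.E₄)
      (ofPowerSeries ℤ ℂ (ModularCurve.eisenstein4.map (Int.castRingHom ℂ))) := by
  refine hasExp_ofPowerSeries fun z => ?_
  have h := ModularForm.hasSum_qExpansion (h := 1) (f := ModularForm.E₄) one_pos
    one_mem_strictPeriods_SL z
  refine h.congr_fun fun n => ?_
  rw [PowerSeries.coeff_map, EisensteinSeries.E_qExpansion_coeff _ ⟨2, rfl⟩,
    ModularCurve.eisenstein4, PowerSeries.coeff_mk]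
  simp only [qp, Nat.cast_one]
  congr 1
  split_ifs with hn
  · simp
  · rw [show bernoulli 4 = -1 / 30 by decide +kernel, ArithmeticFunction.sigma_apply]
    push_cast
    norm_num

theorem hasExp_jfun : HasExp (qp 1) jfun (ModularCurve.jqModC ℂ) := by
  have h := (hasExp_single (T := qp 1) (-1) 1).mul (qp_ne_zero 1)
    ((hasExp_E4.pow (qp_ne_zero 1) 3).mul (qp_ne_zero 1) hasExp_inv_etaUnit)
  have hL : ofPowerSeries ℤ ℂ (ModularCurve.jNum.map (Int.castRingHom ℂ)) =
      ofPowerSeries ℤ ℂ (ModularCurve.eisenstein4.map (Int.castRingHom ℂ)) ^ 3 *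
        ofPowerSeries ℤ ℂ (ModularCurve.dedekindEtaUnitInv.map (Int.castRingHom ℂ)) := by
    unfold ModularCurve.jNum
    generalize ModularCurve.eisenstein4 = e
    generalize ModularCurve.dedekindEtaUnitInv = i
    rw [RingHom.map_mul, RingHom.map_pow, RingHom.map_mul, RingHom.map_pow]
  rw [ModularCurve.jqModC, hL]
  convert h using 1
  funext z
  symm
  have hq : qp 1 z = Function.Periodic.qParam (1 : ℝ) (z : ℂ) := by simp [qp]
  simp only [Pi.mul_apply, Pi.pow_apply, one_mul, zpow_neg_one, jfun]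
  rw [ModularForm.discriminant_eq_q_prod, ← hq]
  simp only [ModularForm.eta_q, ← hq]
  rw [(ModularForm.multipliable_one_sub_pow (norm_qp_lt_one 1 z)).tprod_pow 24]
  rw [inv_pow]
  field_simp

/-! ### Derivatives of expansions -/

theorem qParam_hasDerivAt (N : ℕ) (z : ℂ) :
    HasDerivAt (Function.Periodic.qParam (N : ℝ))
      (2 * Real.pi * I / N * Function.Periodic.qParam (N : ℝ) z) z := by
  have h : HasDerivAt (fun w : ℂ => 2 * Real.pi * I * w / N) (2 * Real.pi * I / N) z := by
    simpa using ((hasDerivAt_id z).const_mul (2 * Real.pi * I)).div_const (N : ℂ)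
  unfold Function.Periodic.qParam
  simpa [mul_comm] using h.cexp

/-- Termwise differentiation of an expansion in `qp N`. -/
theorem HasExp.normalizedDeriv {N : ℕ} [NeZero N] {f : ℍ → ℂ} {L : LaurentSeries ℂ}
    (h : HasExp (qp N) f L) :
    HasExp (qp N) (normalizedDerivOfComplex f) ((HahnSeries.C ((N : ℂ))⁻¹) * thetaFun L) := by
  intro z
  set t : ℂ → ℂ := Function.Periodic.qParam (N : ℝ)
  have hN : (0 : ℝ) < N := by exact_mod_cast Nat.pos_of_ne_zero (NeZero.ne N)
  have hnorm : ∀ w : ℂ, ‖t w‖ = Real.exp (-2 * Real.pi * w.im / N) := fun w =>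
    Function.Periodic.norm_qParam _ _
  have h2 : 0 < z.im / 2 := by positivity
  set a := z.im / 2
  set b := 2 * z.im
  set U : Set ℂ := {w | a < w.im ∧ w.im < b}
  have hU : IsOpen U := (isOpen_lt continuous_const Complex.continuous_im).inter
    (isOpen_lt Complex.continuous_im continuous_const)
  have hzU : (z : ℂ) ∈ U := ⟨by simp [a]; linarith [z.im_pos], by simp [b]; linarith [z.im_pos]⟩
  set za : ℍ := ⟨⟨0, a⟩, h2⟩
  set zb : ℍ := ⟨⟨0, b⟩, by positivity⟩
  set u : ℤ → ℝ := fun n => ‖L.coeff n * qp N za ^ n‖ + ‖L.coeff n * qp N zb ^ n‖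
  have hu : Summable u := (h za).summable.norm.add (h zb).summable.norm
  set G : ℤ → ℂ → ℂ := fun n w => L.coeff n * t w ^ n
  have hdiff : ∀ n, DifferentiableOn ℂ (G n) U := fun n w _ =>
    ((DifferentiableAt.zpow (qParam_hasDerivAt N w).differentiableAt
      (Or.inl (exp_ne_zero _))).const_mul _).differentiableWithinAt
  have hle : ∀ n, ∀ w ∈ U, ‖G n w‖ ≤ u n := by
    rintro n w ⟨hw1, hw2⟩
    simp only [G, u, norm_mul, norm_zpow, qp, hnorm, za, zb, ← mul_add]
    refine mul_le_mul_of_nonneg_left ?_ (norm_nonneg _)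
    have hz : ∀ x : ℝ, Real.exp x ^ n = Real.exp ((n : ℝ) * x) := fun x => by
      rw [← Real.rpow_intCast, ← Real.exp_mul, mul_comm]
    simp only [hz, Function.Periodic.norm_qParam]
    rcases le_total 0 n with hn | hn
    · refine le_add_of_le_of_nonneg (Real.exp_le_exp.2 ?_) (Real.exp_pos _).le
      have h0 : (0 : ℝ) ≤ n := by exact_mod_cast hn
      refine mul_le_mul_of_nonneg_left ((div_le_div_iff_of_pos_right hN).2 ?_) h0
      nlinarith [Real.pi_pos]
    · refine le_add_of_nonneg_of_le (Real.exp_pos _).le (Real.exp_le_exp.2 ?_)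
      have h0 : (n : ℝ) ≤ 0 := by exact_mod_cast hn
      refine mul_le_mul_of_nonpos_left ((div_le_div_iff_of_pos_right hN).2 ?_) h0
      nlinarith [Real.pi_pos]
  have hsum := Complex.hasSum_deriv_of_summable_norm hu hdiff hU hle hzU
  have heq : deriv (fun w : ℂ => ∑' n, G n w) (z : ℂ) = deriv (f ∘ ofComplex) (z : ℂ) := by
    apply Filter.EventuallyEq.deriv_eq
    filter_upwards [isOpen_upperHalfPlaneSet.mem_nhds z.im_pos] with w hw
    have hw' := h ⟨w, hw⟩
    simp only [Function.comp_apply, ofComplex_apply_of_im_pos hw]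
    exact hw'.tsum_eq
  rw [heq] at hsum
  have hterm : ∀ n : ℤ, deriv (G n) (z : ℂ) =
      (2 * Real.pi * I) * ((N : ℂ)⁻¹ * ((n : ℂ) * L.coeff n) * qp N z ^ n) := by
    intro n
    have hd := ((hasDerivAt_zpow n (Function.Periodic.qParam (N : ℝ) (z : ℂ)) (Or.inl (exp_ne_zero _))).comp
      (z : ℂ) (qParam_hasDerivAt N (z : ℂ))).const_mul (L.coeff n)
    rw [show deriv (G n) (z : ℂ) = _ from hd.deriv]
    simp only [qp]
    have hne : Function.Periodic.qParam (N : ℝ) (z : ℂ) ≠ 0 := exp_ne_zero _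
    rw [zpow_sub_one₀ hne]
    field_simp
  simp only [hterm] at hsum
  have hsum' := hsum.mul_left (2 * Real.pi * I)⁻¹
  refine (hsum'.congr_fun fun n => ?_)
  simp only [HahnSeries.C_apply, HahnSeries.coeff_single_zero_mul, thetaFun_coeff]
  field_simp

/-! ### Level one forms with expansions -/

theorem isBoundedAtImInfty_of_hasExp {f : ℍ → ℂ} {L : LaurentSeries ℂ}
    (h : HasExp (qp 1) f L) (h0 : OrdGE 0 L) : IsBoundedAtImInfty f :=
  isBoundedAtImInfty_of_hasSum_qExpansion (h := 1) one_pos (c := fun n : ℕ => L.coeff n)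
    fun z => by simpa [qp, smul_eq_mul] using (hasExp_iff_nat h0).1 h z

/-- A modular form of level one from its invariance, holomorphy and boundedness. -/
def levelOneForm {k : ℤ} (f : ℍ → ℂ) (hf : ∀ g : SL(2, ℤ), f ∣[k] g = f) (hm : MDiff f)
    (hb : IsBoundedAtImInfty f) : ModularForm 𝒮ℒ k where
  toFun := f
  slash_action_eq' A hA := by
    obtain ⟨A, rfl⟩ := hA
    exact hf A
  holo' := hm
  bdd_at_cusps' hc := by
    rw [Subgroup.IsArithmetic.isCusp_iff_isCusp_SL2Z] at hc
    rw [OnePoint.isBoundedAt_iff_forall_SL2Z hc]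
    intro γ _
    rw [hf γ]
    exact hb

theorem eq_const_of_invariant {f : ℍ → ℂ} {L : LaurentSeries ℂ}
    (hinv : ∀ (g : SL(2, ℤ)) z, f (g • z) = f z) (hm : MDiff f)
    (h : HasExp (qp 1) f L) (h0 : OrdGE 0 L) : ∃ c, f = fun _ => c := by
  have hs : ∀ g : SL(2, ℤ), f ∣[(0 : ℤ)] g = f := fun g =>
    (slash_eq_iff_smul g).2 fun z => by rw [hinv, zpow_zero, one_mul]
  obtain ⟨c, hc⟩ := ModularFormClass.levelOne_weight_zero_const
    (levelOneForm f hs hm (isBoundedAtImInfty_of_hasExp h h0))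
  exact ⟨c, hc⟩

theorem jqModC_coeff_of_lt {R : Type*} [CommRing R] {k : ℤ} (hk : k < -1) :
    (ModularCurve.jqModC R).coeff k = 0 := by
  rw [ModularCurve.jqModC, coeff_single_mul, one_mul]
  exact ModularCurve.ofPowerSeries_coeff_of_neg _ (by omega)

theorem jqModC_coeff_neg_one {R : Type*} [CommRing R] :
    (ModularCurve.jqModC R).coeff (-1) = 1 := by
  rw [ModularCurve.jqModC, coeff_single_mul, one_mul, sub_self,
    show (0 : ℤ) = ((0 : ℕ) : ℤ) from rfl, ofPowerSeries_apply_coeff, PowerSeries.coeff_map,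
    PowerSeries.coeff_zero_eq_constantCoeff, ModularCurve.constantCoeff_jNum, map_one]

theorem ordGE_jqModC {R : Type*} [CommRing R] : OrdGE (-1) (ModularCurve.jqModC R) :=
  fun _ h => jqModC_coeff_of_lt h

theorem jqModC_pow_coeff {R : Type*} [CommRing R] (n : ℕ) :
    (ModularCurve.jqModC R ^ n).coeff (-(n : ℤ)) = 1 := by
  induction n with
  | zero => simp
  | succ n ih =>
    rw [pow_succ, ModularCurve.jqModC, ← ModularCurve.jqModC, mul_comm, ModularCurve.jqModC,
      mul_assoc, coeff_single_mul, one_mul, ← ModularCurve.jqModC]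
    rw [show -((n + 1 : ℕ) : ℤ) - -1 = -(n : ℤ) by push_cast; ring]
    rw [coeff_mul, Finset.sum_eq_single ((0 : ℤ), -(n : ℤ))]
    · rw [ih, mul_one, show (0 : ℤ) = ((0 : ℕ) : ℤ) from rfl, ofPowerSeries_apply_coeff,
        PowerSeries.coeff_map, PowerSeries.coeff_zero_eq_constantCoeff,
        ModularCurve.constantCoeff_jNum, map_one]
    · intro p hp hne
      simp only [Finset.mem_antidiagonal] at hp
      obtain ⟨h1, h2, h3⟩ := hp
      rcases lt_trichotomy p.1 0 with hlt | heq | hgt
      · exact absurd (ModularCurve.ofPowerSeries_coeff_of_neg _ hlt) h1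
      · exact absurd (Prod.ext heq (by omega)) hne
      · have := ((ordGE_jqModC (R := R)).pow n) p.2 (by omega)
        rw [this, mul_zero]
    · intro hnot
      simp only [Finset.mem_antidiagonal, mem_support, not_and_or, not_not] at hnot
      rcases hnot with h | h | h
      · rw [h, zero_mul]
      · rw [h, mul_zero]
      · simp at h

/-- An invariant holomorphic function with an expansion is a polynomial in `j`. -/
theorem exists_polynomial_of_invariant {f : ℍ → ℂ} {L : LaurentSeries ℂ}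
    (hinv : ∀ (g : SL(2, ℤ)) z, f (g • z) = f z) (hm : MDiff f) (h : HasExp (qp 1) f L) :
    ∃ P : Polynomial ℂ, f = fun z => P.eval (jfun z) := by
  obtain ⟨M, hM⟩ : ∃ M : ℕ, OrdGE (-(M : ℤ)) L :=
    ⟨(-L.order).toNat, (ordGE_order L).mono (by omega)⟩
  induction M generalizing f L with
  | zero =>
    obtain ⟨c, hc⟩ := eq_const_of_invariant hinv hm h (by simpa using hM)
    exact ⟨Polynomial.C c, by simpa using hc⟩
  | succ M ih =>
    set c := L.coeff (-((M + 1 : ℕ) : ℤ))
    set n := M + 1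
    have hinv' : ∀ (g : SL(2, ℤ)) z,
        (f - fun w => c * jfun w ^ n) (g • z) = (f - fun w => c * jfun w ^ n) z := fun g z => by
      rw [Pi.sub_apply, Pi.sub_apply, hinv, jfun_smul]
    have hm' : MDiff (f - fun w => c * jfun w ^ n) :=
      hm.sub (mdifferentiable_const.mul (mdiff_jfun.pow n))
    have h' : HasExp (qp 1) (f - fun w => c * jfun w ^ n)
        (L - HahnSeries.C c * ModularCurve.jqModC ℂ ^ n) :=
      h.sub ((hasExp_C c).mul (qp_ne_zero 1) (hasExp_jfun.pow (qp_ne_zero 1) n))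
    obtain ⟨P, hP⟩ := ih hinv' hm' h' (by
      intro i hi
      rw [coeff_sub, HahnSeries.C_apply, coeff_single_zero_mul]
      rcases lt_or_eq_of_le (show i ≤ -((M + 1 : ℕ) : ℤ) by push_cast; omega) with hlt | rfl
      · rw [hM i hlt, ((ordGE_jqModC (R := ℂ)).pow n) i (by simp [n] at hlt ⊢; omega), mul_zero,
          sub_zero]
      · rw [jqModC_pow_coeff, mul_one, sub_self])
    refine ⟨P + Polynomial.C c * Polynomial.X ^ n, funext fun z => ?_⟩
    have := congrFun hP z
    simp only [Pi.sub_apply] at this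
    simp [← this]

end FA.ModField
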