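import Fermat.Agent.ModField.Family
import Fermat.Prelude.Def_AlgebraicCurve_CanonicalDivisor

/-!
# Divisors of functions and of differentials from families above every value of `x`

Given embedding families above every `x = a` and above the pole of `x`, all places are known:
principal divisors have degree `0` and the degree of a canonical divisor is read off from the
numbers of places above each value.
-/

set_option autoImplicit false
set_option linter.style.haveILetI false
set_option linter.unusedSectionVars false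

noncomputable section

namespace FA.ModField

open AlgebraicCurve Polynomial IntermediateField

variable {K F C : Type*} [Field K] [IsAlgClosed K] [Field F] [Algebra K F] [Field C] [CharZero C]
  [Algebra K C]

namespace EmbFamily

variable {L : IntermediateField K F} {y : F} {ι : Type*} [Fintype ι]
  (E : EmbFamily K F C L y ι)

include E

theorem charZero_base : CharZero K :=
  (RingHom.charZero_iff (algebraMap K C).injective).2 inferInstance

/-- The order of the image of a polynomial in `x`. -/
theorem order_σ_aeval (i : ι) (x : F) (c : K → ℤ) (hx : ∀ b, x ≠ algebraMap K F b)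
    (h : ∀ b, (E.σ i (x - algebraMap K F b)).order = c b) {R : K[X]} (hR : R ≠ 0) :
    (E.σ i (aeval x R)).order = (R.roots.map c).sum := by
  have hs : R.Splits := IsAlgClosed.splits R
  conv_lhs => rw [hs.eq_prod_roots]
  rw [map_mul, aeval_C, map_mul, map_multiset_prod, Multiset.map_map, map_multiset_prod,
    Multiset.map_map, AlgHom.commutes]
  have hlin : ∀ a : K, aeval x (X - Polynomial.C a) = x - algebraMap K F a := fun a => by
    rw [map_sub, aeval_X, aeval_C]
  have key : ∀ s : Multiset K,
      (s.map ((E.σ i) ∘ (aeval x) ∘ fun a => X - Polynomial.C a)).prod ≠ 0 ∧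
      (s.map ((E.σ i) ∘ (aeval x) ∘ fun a => X - Polynomial.C a)).prod.order = (s.map c).sum := by
    intro s
    induction s using Multiset.induction with
    | empty => simp
    | cons a s ih =>
      have hne : E.σ i (x - algebraMap K F a) ≠ 0 :=
        (_root_.map_ne_zero _).2 (sub_ne_zero.2 (hx a))
      simp only [Multiset.map_cons, Multiset.prod_cons, Multiset.sum_cons, Function.comp_apply,
        hlin] at ih ⊢
      refine ⟨mul_ne_zero hne ih.1, ?_⟩
      rw [HahnSeries.order_mul hne ih.1, ih.2, h a]
  have hlead : algebraMap K (LaurentSeries C) R.leadingCoeff ≠ 0 :=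
    (_root_.map_ne_zero _).2 (leadingCoeff_ne_zero.2 hR)
  rw [HahnSeries.order_mul hlead (key _).1, order_algebraMap_laurent, zero_add, (key _).2]

end EmbFamily

/-! ### Differentials at a place of a family -/

namespace EmbFamily

open KaehlerDifferential

variable {L : IntermediateField K F} {y : F} {ι : Type*} [Fintype ι]
  (E : EmbFamily K F C L y ι)

include E

theorem smul_laurent (a : K) (s : LaurentSeries C) :
    a • s = algebraMap K (LaurentSeries C) a * s := by
  ext n
  rw [algebraMap_laurent, HahnSeries.C_apply, HahnSeries.coeff_single_zero_mul,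
    HahnSeries.coeff_smul, Algebra.smul_def]

theorem thetaFun_algebraMap_mul (a : K) (s : LaurentSeries C) :
    thetaFun (algebraMap K (LaurentSeries C) a * s) =
      algebraMap K (LaurentSeries C) a * thetaFun s := by
  rw [thetaFun_mul, algebraMap_laurent, thetaFun_C, zero_mul, add_zero]

/-- A linear functional on differentials extending `f ↦ θ (σ f)`. -/
theorem exists_thetaLift (i : ι) : ∃ φ : Ω[F⁄K] → LaurentSeries C,
    (∀ f, φ (D K F f) = thetaFun (E.σ i f)) ∧ ∀ g ω, φ (g • ω) = E.σ i g * φ ω := by
  letI : Algebra F (LaurentSeries C) := (E.σ i).toRingHom.toAlgebra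
  haveI : IsScalarTower K F (LaurentSeries C) := ⟨fun a f s => by
    show E.σ i (a • f) * s = a • (E.σ i f * s)
    rw [E.smul_laurent, Algebra.smul_def, map_mul, AlgHom.commutes, mul_assoc]⟩
  let lin : F →ₗ[K] LaurentSeries C :=
    { toFun := fun f => thetaFun (E.σ i f)
      map_add' := fun f g => by rw [map_add, thetaFun_add]
      map_smul' := fun a f => by
        rw [RingHom.id_apply, Algebra.smul_def, map_mul, AlgHom.commutes,
          E.thetaFun_algebraMap_mul, E.smul_laurent] }
  let δ : Derivation K F (LaurentSeries C) := Derivation.mk' lin fun f g => by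
    show thetaFun (E.σ i (f * g)) = E.σ i f * thetaFun (E.σ i g) + E.σ i g * thetaFun (E.σ i f)
    rw [map_mul, thetaFun_mul]
    ring
  exact ⟨δ.liftKaehlerDifferential, fun f => δ.liftKaehlerDifferential_comp_D f,
    fun g ω => by rw [map_smul]; rfl⟩

theorem thetaFun_σ_ne_zero (i : ι) {z : F} (hz : (E.pl i).ord z ≠ 0) :
    thetaFun (E.σ i z) ≠ 0 ∧ (thetaFun (E.σ i z)).order = E.scale i * (E.pl i).ord z := by
  have hz0 : z ≠ 0 := by rintro rfl; simp at hz
  have hord : (E.σ i z).order ≠ 0 := by
    rw [E.order_σ]; exact mul_ne_zero (E.scale_pos i).ne' hz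
  exact ⟨(order_thetaFun ((_root_.map_ne_zero _).2 hz0) hord).1,
    (order_thetaFun ((_root_.map_ne_zero _).2 hz0) hord).2.trans (E.order_σ i z)⟩

theorem nontrivial_differentials : Nontrivial Ω[F⁄K] := by
  obtain ⟨i⟩ := E.nonempty
  obtain ⟨φ, hφ, hsmul⟩ := E.exists_thetaLift i
  obtain ⟨t, ht⟩ := exists_uniformizer (E.pl i)
  refine ⟨⟨D K F t, 0, fun h => ?_⟩⟩
  have h1 := hφ t
  rw [h, ← zero_smul F (0 : Ω[F⁄K]), hsmul, map_zero, zero_mul] at h1
  exact (E.thetaFun_σ_ne_zero i (by rw [ht]; exact one_ne_zero)).1 h1.symm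

theorem exists_smul_D_of_transcendental {t : F} (ht : Transcendental K t) (f : F) :
    ∃ g : F, D K F f = g • D K F t := by
  haveI := E.charZero_base
  haveI := E.isCurve t ht
  haveI : CharZero K⟮t⟯ := charZero_of_injective_algebraMap (algebraMap K K⟮t⟯).injective
  exact exists_eq_smul_D f

theorem span_D {t : F} (ht : Transcendental K t) :
    Submodule.span F {D K F t} = ⊤ := by
  rw [eq_top_iff, ← span_range_derivation K F, Submodule.span_le]
  rintro _ ⟨f, rfl⟩
  obtain ⟨g, hg⟩ := E.exists_smul_D_of_transcendental ht f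
  rw [SetLike.mem_coe, Submodule.mem_span_singleton]
  exact ⟨g, hg.symm⟩

theorem dCoordGenerates (v : Place K F) : v.DCoordGenerates := by
  obtain ⟨t, ht, h⟩ : ∃ t, v.ord t = 1 ∧ v.dCoord = D K F t :=
    ⟨_, v.ord_coe_irreducible
      (IsDiscreteValuationRing.exists_irreducible v.toValuationSubring).choose_spec, rfl⟩
  exact ⟨h ▸ E.span_D (transcendental_of_ord_ne_zero v (ht ▸ one_ne_zero))⟩

theorem differential_at (i : ι) {z : F} (hz : (E.pl i).ord z ≠ 0) :
    (E.pl i).differentialCoeff (D K F z) ≠ 0 ∧
      (E.pl i).ordDifferential (D K F z) = (E.pl i).ord z - 1 := by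
  set v := E.pl i
  haveI := E.dCoordGenerates v
  haveI := E.nontrivial_differentials
  obtain ⟨t, ht, hdc⟩ : ∃ t, v.ord t = 1 ∧ v.dCoord = D K F t :=
    ⟨_, v.ord_coe_irreducible
      (IsDiscreteValuationRing.exists_irreducible v.toValuationSubring).choose_spec, rfl⟩
  obtain ⟨φ, hφ, hsmul⟩ := E.exists_thetaLift i
  have hg := v.differentialCoeff_smul_dCoord (D K F z)
  set g := v.differentialCoeff (D K F z) with hgdef
  have h := congrArg φ hg
  rw [hdc, hsmul, hφ, hφ] at h
  obtain ⟨hz1, hz2⟩ := E.thetaFun_σ_ne_zero i hz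
  obtain ⟨ht1, ht2⟩ := E.thetaFun_σ_ne_zero i (z := t) (ht ▸ one_ne_zero)
  have hg0 : g ≠ 0 := by
    intro h0
    rw [h0, map_zero, zero_mul] at h
    exact hz1 h.symm
  refine ⟨hg0, ?_⟩
  show v.ord g = _
  have ho := congrArg HahnSeries.order h
  rw [HahnSeries.order_mul ((_root_.map_ne_zero _).2 hg0) ht1, ht2, ht, hz2, E.order_σ] at ho
  refine mul_left_cancel₀ (E.scale_pos i).ne' ?_
  linear_combination ho

end EmbFamily

/-! ### All values of `x` -/

section AllValues

variable {L : IntermediateField K F} {x : F} {ι : Type*} [Fintype ι]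
  (fam : ∀ a : K, EmbFamily K F C L (x - algebraMap K F a) ι)
  (inf : EmbFamily K F C L x⁻¹ ι)

include fam

theorem AllValues.L_eq : L = K⟮x⟯ := by
  have h := (fam 0).L_eq
  rwa [map_zero, sub_zero] at h

theorem AllValues.x_transcendental : Transcendental K x := by
  have h := (fam 0).y_transcendental
  rwa [map_zero, sub_zero] at h

theorem AllValues.x_ne (b : K) : x ≠ algebraMap K F b := fun h =>
  AllValues.x_transcendental fam (h ▸ isAlgebraic_algebraMap b)

theorem AllValues.order_σ_linear (a b : K) (i : ι) [Decidable (b = a)] :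
    ((fam a).σ i (x - algebraMap K F b)).order = if b = a then ((fam a).m : ℤ) else 0 := by
  split_ifs with h
  · rw [h, (fam a).σ_y, (fam a).order_S]
  · have h1 : x - algebraMap K F b = (x - algebraMap K F a) + algebraMap K F (a - b) := by
      rw [map_sub]; ring
    have hc : algebraMap K (LaurentSeries C) (a - b) ≠ 0 :=
      (_root_.map_ne_zero _).2 (sub_ne_zero.2 (Ne.symm h))
    rw [h1, map_add, (fam a).σ_y, AlgHom.commutes, add_comm, algebraMap_laurent]
    have hm := (fam a).hm
    have hS := (fam a).order_S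
    have hne : (HahnSeries.C (algebraMap K C (a - b)) + (fam a).S).coeff 0 ≠ 0 := by
      rw [HahnSeries.coeff_add, HahnSeries.coeff_eq_zero_of_lt_order (i := 0) (x := (fam a).S)
        (by omega), add_zero, HahnSeries.C_apply, HahnSeries.coeff_single_same]
      exact (_root_.map_ne_zero _).2 (sub_ne_zero.2 (Ne.symm h))
    refine le_antisymm (HahnSeries.order_le_of_coeff_ne_zero hne) ?_
    refine (ordGE_iff_le_order (HahnSeries.ne_zero_of_coeff_ne_zero hne)).1 ?_
    exact (ordGE_C _).add ((ordGE_order _).mono (by omega))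

theorem AllValues.order_σ_poly (a : K) (i : ι) {R : K[X]} (hR : R ≠ 0) :
    ((fam a).σ i (aeval x R)).order = (fam a).m * (R.rootMultiplicity a : ℤ) := by
  classical
  rw [(fam a).order_σ_aeval i x (fun b => if b = a then ((fam a).m : ℤ) else 0)
    (AllValues.x_ne fam) (fun b => AllValues.order_σ_linear fam a b i) hR, ← count_roots]
  induction R.roots using Multiset.induction with
  | empty => simp
  | cons b s ih =>
    rw [Multiset.map_cons, Multiset.sum_cons, ih]
    by_cases h : b = a
    · subst h
      rw [if_pos rfl, Multiset.count_cons_self]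
      push_cast
      ring
    · rw [if_neg h, Multiset.count_cons_of_ne (Ne.symm h), zero_add]

include inf

theorem AllValues.order_σ_poly_inf (i : ι) {R : K[X]} (hR : R ≠ 0) :
    (inf.σ i (aeval x R)).order = -((inf.m : ℤ) * R.natDegree) := by
  have hx0 : x ≠ 0 := by simpa using AllValues.x_ne fam 0
  have hlin : ∀ b, (inf.σ i (x - algebraMap K F b)).order = -(inf.m : ℤ) := by
    intro b
    have hm := inf.hm
    have hne : inf.σ i x ≠ 0 := (_root_.map_ne_zero _).2 hx0
    have ho : (inf.σ i x).order = -(inf.m : ℤ) := by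
      have h := inf.σ_y i
      rw [map_inv₀] at h
      rw [← inv_inv (inf.σ i x), h, order_inv', inf.order_S]
    have hc : (inf.σ i x - algebraMap K (LaurentSeries C) b).coeff (-(inf.m : ℤ)) ≠ 0 := by
      rw [HahnSeries.coeff_sub, algebraMap_laurent, HahnSeries.C_apply,
        HahnSeries.coeff_single_of_ne (by omega), sub_zero, ← ho, Ne,
        HahnSeries.coeff_order_eq_zero]
      exact hne
    rw [map_sub, AlgHom.commutes]
    refine le_antisymm (HahnSeries.order_le_of_coeff_ne_zero hc) ?_
    refine (ordGE_iff_le_order (HahnSeries.ne_zero_of_coeff_ne_zero hc)).1 ?_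
    rw [algebraMap_laurent]
    exact ((ordGE_order _).mono ho.ge).sub ((ordGE_C _).mono (by omega))
  rw [inf.order_σ_aeval i x _ (AllValues.x_ne fam) hlin hR,
    ← (IsAlgClosed.splits R).natDegree_eq_card_roots.symm, Multiset.map_const',
    Multiset.sum_replicate, nsmul_eq_mul]
  ring

theorem AllValues.place_cases (v : Place K F) :
    v ∈ inf.places ∨ ∃ a, v ∈ (fam a).places := by
  rcases lt_or_ge (v.ord x) 0 with h | h
  · exact Or.inl (inf.mem_places.2 (by rw [v.ord_inv]; omega))
  · obtain ⟨a, ha⟩ := exists_residue inf.isCurve v (mem_place_of_ord_nonneg v h)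
    exact Or.inr ⟨a, (fam a).mem_places.2 (ha.resolve_left (AllValues.x_ne fam a))⟩

theorem AllValues.place_eq_pl (v : Place K F) :
    (∃ i, inf.pl i = v) ∨ ∃ a i, (fam a).pl i = v := by
  rcases AllValues.place_cases fam inf v with h | ⟨a, h⟩
  · exact Or.inl (inf.pl_surjective v (inf.mem_places.1 h))
  · exact Or.inr ⟨a, (fam a).pl_surjective v ((fam a).mem_places.1 h)⟩

theorem AllValues.disjoint_inf (a : K) {v : Place K F} (h1 : v ∈ (fam a).places)
    (h2 : v ∈ inf.places) : False := by
  have e1 := (fam a).mem_places.1 h1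
  have e2 := inf.mem_places.1 h2
  rw [v.ord_inv] at e2
  have hx : x ∈ v.toValuationSubring := by
    have h := add_mem (mem_place_of_ord_nonneg v e1.le) (v.algebraMap_mem' a)
    rwa [sub_add_cancel] at h
  have := ord_nonneg_of_mem v hx
  omega

omit inf

theorem AllValues.disjoint {a b : K} {v : Place K F} (h1 : v ∈ (fam a).places)
    (h2 : v ∈ (fam b).places) : a = b := by
  by_contra hne
  have e1 := (fam a).mem_places.1 h1
  have e2 := (fam b).mem_places.1 h2
  obtain ⟨i, rfl⟩ := (fam a).pl_surjective v e1
  have h := (fam a).order_σ i (x - algebraMap K F b)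
  classical
  rw [AllValues.order_σ_linear fam a b i, if_neg (Ne.symm hne)] at h
  rcases mul_eq_zero.1 h.symm with h' | h'
  · exact ((fam a).scale_pos i).ne' h'
  · omega

/-- The poles of a function lie over finitely many values of `x`. -/
theorem AllValues.finite_poles (f : F) :
    ∃ A : Finset K, ∀ a ∉ A, ∀ v ∈ (fam a).places, 0 ≤ v.ord f := by
  classical
  haveI := (fam 0).finite
  set q := minpoly L f
  have hint : IsIntegral L f := IsIntegral.of_finite _ _
  have hrep : ∀ n, ∃ P Q : K[X], ((q.coeff n : L) : F) = aeval x P / aeval x Q := fun n =>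
    (IntermediateField.mem_adjoin_simple_iff K _).1
      (AllValues.L_eq fam ▸ (q.coeff n).2 : ((q.coeff n : L) : F) ∈ K⟮x⟯)
  choose P Q hPQ using hrep
  refine ⟨(Finset.range (q.natDegree + 1)).biUnion fun n => (Q n).roots.toFinset,
    fun a ha v hv => ?_⟩
  obtain ⟨i, rfl⟩ := (fam a).pl_surjective v ((fam a).mem_places.1 hv)
  apply ord_nonneg_of_mem
  have hxmem : x ∈ ((fam a).pl i).toValuationSubring := by
    have h := add_mem (mem_place_of_ord_nonneg _ ((fam a).mem_places.1 hv).le)
      (((fam a).pl i).algebraMap_mem' a)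
    rwa [sub_add_cancel] at h
  have hpolymem : ∀ T : K[X], aeval x T ∈ ((fam a).pl i).toValuationSubring := by
    intro T
    rw [aeval_eq_sum_range]
    refine sum_mem fun l _ => ?_
    rw [Algebra.smul_def]
    exact mul_mem (((fam a).pl i).algebraMap_mem' _) (pow_mem hxmem _)
  have hcoef : ∀ n, ((q.coeff n : L) : F) ∈ ((fam a).pl i).toValuationSubring := by
    intro n
    rcases Nat.lt_or_ge q.natDegree n with hn | hn
    · rw [Polynomial.coeff_eq_zero_of_natDegree_lt hn, ZeroMemClass.coe_zero]
      exact zero_mem _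
    rw [hPQ n]
    rcases eq_or_ne (Q n) 0 with hQ | hQ
    · rw [hQ, map_zero, div_zero]; exact zero_mem _
    have hroot : (Q n).rootMultiplicity a = 0 := by
      refine rootMultiplicity_eq_zero fun hr => ha ?_
      rw [Finset.mem_biUnion]
      exact ⟨n, Finset.mem_range.2 (Nat.lt_succ_of_le hn),
        Multiset.mem_toFinset.2 ((mem_roots hQ).2 hr)⟩
    have h0 : ((fam a).pl i).ord (aeval x (Q n)) = 0 := by
      have h := (fam a).order_σ i (aeval x (Q n))
      rw [AllValues.order_σ_poly fam a i hQ, hroot, Nat.cast_zero, mul_zero] at h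
      exact (mul_eq_zero.1 h.symm).resolve_left ((fam a).scale_pos i).ne'
    rw [div_eq_mul_inv]
    exact mul_mem (hpolymem _) (mem_place_of_ord_nonneg _ (by rw [Place.ord_inv, h0]; norm_num))
  have hl : q.map (algebraMap L F) ∈
      Polynomial.lifts (algebraMap ((fam a).pl i).toValuationSubring F) := by
    rw [lifts_iff_coeff_lifts]
    intro n
    rw [coeff_map]
    exact ⟨⟨_, hcoef n⟩, rfl⟩
  obtain ⟨p, hp, -, hmon⟩ := lifts_and_degree_eq_and_monic hl ((minpoly.monic hint).map _)
  have hfint : IsIntegral ((fam a).pl i).toValuationSubring f := by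
    refine ⟨p, hmon, ?_⟩
    rw [← Polynomial.eval_map, hp, Polynomial.eval_map, ← aeval_def]
    exact minpoly.aeval _ _
  obtain ⟨⟨g, hg⟩, hgf⟩ := IsIntegrallyClosed.algebraMap_eq_of_integral hfint
  have : g = f := hgf
  exact this ▸ hg

include inf

/-- Every function has a divisor of degree zero. -/
theorem AllValues.principal {f : F} (hf : f ≠ 0) :
    ∃ (T₀ : Finset K), ∀ T : Finset K, T₀ ⊆ T →
      (∀ a ∉ T, ∀ v ∈ (fam a).places, v.ord f = 0) ∧
      (∑ a ∈ T, ∑ v ∈ (fam a).places, v.ord f) + ∑ v ∈ inf.places, v.ord f = 0 := by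
  classical
  obtain ⟨A₁, hA₁⟩ := AllValues.finite_poles fam f
  obtain ⟨A₂, hA₂⟩ := AllValues.finite_poles fam f⁻¹
  haveI := (fam 0).finite
  set g : F := algebraMap L F (Algebra.norm L f) with hgdef
  have hg0 : g ≠ 0 := (_root_.map_ne_zero _).2 (Algebra.norm_ne_zero_iff.2 hf)
  obtain ⟨P, Q, hPQ⟩ := (IntermediateField.mem_adjoin_simple_iff K g).1
    (AllValues.L_eq fam ▸ (Algebra.norm L f).2 : g ∈ K⟮x⟯)
  have hP : P ≠ 0 := by rintro rfl; simp [hg0] at hPQ
  have hQ : Q ≠ 0 := by rintro rfl; simp [hg0] at hPQ
  have hne : ∀ R : K[X], R ≠ 0 → aeval x R ≠ 0 := fun R hR h =>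
    hR ((transcendental_iff.1 (AllValues.x_transcendental fam)) R h)
  obtain ⟨i⟩ := inf.nonempty
  have hfin : ∀ a, ∑ v ∈ (fam a).places, v.ord f =
      (P.rootMultiplicity a : ℤ) - Q.rootMultiplicity a := by
    intro a
    have h := (fam a).mul_sum_ord hf i
    rw [← hgdef, hPQ, map_div₀, order_div' ((_root_.map_ne_zero _).2 (hne P hP))
      ((_root_.map_ne_zero _).2 (hne Q hQ)), AllValues.order_σ_poly fam a i hP,
      AllValues.order_σ_poly fam a i hQ, ← mul_sub] at h
    exact mul_left_cancel₀ (by exact_mod_cast (fam a).hm.ne') h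
  have hinf : ∑ v ∈ inf.places, v.ord f = (Q.natDegree : ℤ) - P.natDegree := by
    have h := inf.mul_sum_ord hf i
    rw [← hgdef, hPQ, map_div₀, order_div' ((_root_.map_ne_zero _).2 (hne P hP))
      ((_root_.map_ne_zero _).2 (hne Q hQ)), AllValues.order_σ_poly_inf fam inf i hP,
      AllValues.order_σ_poly_inf fam inf i hQ] at h
    refine mul_left_cancel₀ (a := (inf.m : ℤ)) (by exact_mod_cast inf.hm.ne') ?_
    rw [h]; ring
  refine ⟨A₁ ∪ A₂ ∪ P.roots.toFinset ∪ Q.roots.toFinset, fun T hT => ⟨fun a ha v hv => ?_, ?_⟩⟩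
  · have h1 := hA₁ a (fun h => ha (hT (by simp [h]))) v hv
    have h2 := hA₂ a (fun h => ha (hT (by simp [h]))) v hv
    rw [v.ord_inv] at h2
    omega
  · have hdeg : ∀ R : K[X], R.roots.toFinset ⊆ T →
        ∑ a ∈ T, (R.rootMultiplicity a : ℤ) = R.natDegree := by
      intro R hR
      simp only [← count_roots]
      rw [(IsAlgClosed.splits R).natDegree_eq_card_roots, ← Nat.cast_sum,
        Multiset.sum_count_eq_card fun a ha => hR (Multiset.mem_toFinset.2 ha)]
    rw [hinf, Finset.sum_congr rfl fun a _ => hfin a, Finset.sum_sub_distrib,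
      hdeg P (Finset.subset_union_right.trans (Finset.subset_union_left.trans hT)),
      hdeg Q (Finset.subset_union_right.trans hT)]
    ring

/-- The places over a finite set of values of `x` and over infinity. -/
def AllValues.placeSet (T : Finset K) : Finset (Place K F) :=
  letI := Classical.decEq (Place K F)
  inf.places ∪ T.biUnion fun a => (fam a).places

theorem AllValues.sum_placeSet (T : Finset K) (c : Place K F → ℤ) :
    ∑ v ∈ AllValues.placeSet fam inf T, c v =
      (∑ v ∈ inf.places, c v) + ∑ a ∈ T, ∑ v ∈ (fam a).places, c v := by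
  classical
  rw [AllValues.placeSet, Finset.sum_union, Finset.sum_biUnion]
  · intro a _ b _ hab
    rw [Function.onFun, Finset.disjoint_left]
    exact fun v h1 h2 => hab (AllValues.disjoint fam h1 h2)
  · rw [Finset.disjoint_left]
    intro v h1 h2
    obtain ⟨a, -, h3⟩ := Finset.mem_biUnion.1 h2
    exact AllValues.disjoint_inf fam inf a h3 h1

theorem AllValues.mem_of_not_placeSet {T : Finset K} {v : Place K F}
    (h : v ∉ AllValues.placeSet fam inf T) : ∃ a ∉ T, v ∈ (fam a).places := by
  classical
  simp only [AllValues.placeSet, Finset.mem_union, Finset.mem_biUnion, not_or, not_exists,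
    not_and] at h
  obtain ⟨a, ha⟩ := (AllValues.place_cases fam inf v).resolve_left h.1
  exact ⟨a, fun haT => h.2 a haT ha, ha⟩

theorem AllValues.degree_of_support (T : Finset K) (D : Divisor K F)
    (h : ∀ v ∉ AllValues.placeSet fam inf T, D v = 0) :
    Divisor.degree D = ∑ v ∈ AllValues.placeSet fam inf T, D v := by
  rw [Divisor.degree, Finsupp.liftAddHom_apply,
    Finsupp.sum_of_support_subset D (s := AllValues.placeSet fam inf T)
      (fun v hv => by_contra fun hn => Finsupp.mem_support_iff.1 hv (h v hn)) _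
      fun v _ => by simp]
  exact Finset.sum_congr rfl fun v _ => by simp [place_deg_eq_one inf.isCurve v]

theorem AllValues.hasPrincipalDivisors : HasPrincipalDivisors K F := by
  classical
  refine ⟨fun f hf => ?_⟩
  obtain ⟨T, hT⟩ := AllValues.principal fam inf hf
  obtain ⟨hsupp, hsum⟩ := hT T subset_rfl
  let D : Divisor K F := Finsupp.onFinset (AllValues.placeSet fam inf T) (fun v => v.ord f)
    fun v hv => by_contra fun hn => by
      obtain ⟨a, ha, hva⟩ := AllValues.mem_of_not_placeSet fam inf hn
      exact hv (hsupp a ha v hva)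
  refine ⟨D, fun v => rfl, ?_⟩
  rw [AllValues.degree_of_support fam inf T D fun v hn => by
    obtain ⟨a, ha, hva⟩ := AllValues.mem_of_not_placeSet fam inf hn
    exact hsupp a ha v hva, AllValues.sum_placeSet]
  show (∑ v ∈ inf.places, v.ord f) + ∑ a ∈ T, ∑ v ∈ (fam a).places, v.ord f = 0
  linarith

/-- The order of `dx` above a finite value and above infinity. -/
theorem AllValues.ordDifferential_dx (v : Place K F) :
    v.differentialCoeff (KaehlerDifferential.D K F x) ≠ 0 ∧
    (∀ a, v ∈ (fam a).places →
      v.ordDifferential (KaehlerDifferential.D K F x) = v.ord (x - algebraMap K F a) - 1) ∧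
    (v ∈ inf.places →
      v.ordDifferential (KaehlerDifferential.D K F x) = -v.ord x⁻¹ - 1) := by
  have hD : ∀ a, KaehlerDifferential.D K F (x - algebraMap K F a) =
      KaehlerDifferential.D K F x := fun a => by simp
  refine ⟨?_, fun a ha => ?_, fun h => ?_⟩
  · rcases AllValues.place_eq_pl fam inf v with ⟨i, rfl⟩ | ⟨a, i, rfl⟩
    · refine (inf.differential_at i ?_).1
      have := inf.ord_y_pos i
      rw [Place.ord_inv] at this
      omega
    · rw [← hD a]
      exact ((fam a).differential_at i ((fam a).ord_y_pos i).ne').1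
  · obtain ⟨i, rfl⟩ := (fam a).pl_surjective v ((fam a).mem_places.1 ha)
    rw [← hD a]
    exact ((fam a).differential_at i ((fam a).ord_y_pos i).ne').2
  · obtain ⟨i, rfl⟩ := inf.pl_surjective v (inf.mem_places.1 h)
    have := inf.ord_y_pos i
    rw [Place.ord_inv] at this
    rw [(inf.differential_at i (z := x) (by omega)).2, Place.ord_inv, neg_neg]

/-- Where the number of places is the degree, `x - a` is a uniformizer. -/
theorem AllValues.ord_eq_one {a : K} (h : ((fam a).places.card : ℤ) = Fintype.card ι)
    {v : Place K F} (hv : v ∈ (fam a).places) : v.ord (x - algebraMap K F a) = 1 := by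
  have hs := (fam a).sum_ord_y
  rw [← h, Finset.card_eq_sum_ones, Nat.cast_sum, Nat.cast_one] at hs
  have hle : ∀ w ∈ (fam a).places, (1 : ℤ) ≤ w.ord (x - algebraMap K F a) := fun w hw => by
    have := (fam a).mem_places.1 hw
    omega
  exact ((Finset.sum_eq_sum_iff_of_le hle).1 hs.symm v hv).symm

/-- Degree of the divisor of a nonzero differential. -/
theorem AllValues.differential_divisor (B : Finset K)
    (hB : ∀ a ∉ B, ((fam a).places.card : ℤ) = Fintype.card ι) {ω : Ω[F⁄K]} (hω : ω ≠ 0) :
    ∃ D : Divisor K F, (∀ v, D v = v.ordDifferential ω) ∧ Divisor.degree D =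
      (∑ a ∈ B, ((Fintype.card ι : ℤ) - (fam a).places.card)) -
        Fintype.card ι - inf.places.card := by
  classical
  have htr := AllValues.x_transcendental fam
  obtain ⟨f, hf⟩ : ∃ f : F, ω = f • KaehlerDifferential.D K F x := by
    have : ω ∈ Submodule.span F {KaehlerDifferential.D K F x} := by
      rw [inf.span_D htr]; trivial
    obtain ⟨f, hf⟩ := Submodule.mem_span_singleton.1 this
    exact ⟨f, hf.symm⟩
  have hf0 : f ≠ 0 := fun h => hω (by rw [hf, h, zero_smul])
  obtain ⟨T₀, hT₀⟩ := AllValues.principal fam inf hf0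
  set T := T₀ ∪ B
  obtain ⟨hsupp, hsum⟩ := hT₀ T Finset.subset_union_left
  haveI := inf.nontrivial_differentials
  have hord : ∀ v : Place K F, v.ordDifferential ω =
      v.ord f + v.ordDifferential (KaehlerDifferential.D K F x) := fun v => by
    haveI := inf.dCoordGenerates v
    rw [hf]
    exact v.ordDifferential_smul hf0 (AllValues.ordDifferential_dx fam inf v).1
  have hzero : ∀ v ∉ AllValues.placeSet fam inf T, v.ordDifferential ω = 0 := fun v hv => by
    obtain ⟨a, ha, hva⟩ := AllValues.mem_of_not_placeSet fam inf hv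
    rw [hord, hsupp a ha v hva, (AllValues.ordDifferential_dx fam inf v).2.1 a hva,
      AllValues.ord_eq_one fam inf (hB a fun h => ha (Finset.mem_union_right _ h)) hva]
    ring
  let D : Divisor K F := Finsupp.onFinset (AllValues.placeSet fam inf T)
    (fun v => v.ordDifferential ω) fun v hv => by_contra fun hn => hv (hzero v hn)
  refine ⟨D, fun v => rfl, ?_⟩
  rw [AllValues.degree_of_support fam inf T D hzero, AllValues.sum_placeSet]
  show (∑ v ∈ inf.places, v.ordDifferential ω) +
    ∑ a ∈ T, ∑ v ∈ (fam a).places, v.ordDifferential ω = _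
  simp only [hord, Finset.sum_add_distrib]
  have e1 : ∑ v ∈ inf.places, v.ordDifferential (KaehlerDifferential.D K F x) =
      -(Fintype.card ι : ℤ) - inf.places.card := by
    rw [Finset.sum_congr rfl fun v hv => (AllValues.ordDifferential_dx fam inf v).2.2 hv,
      Finset.sum_sub_distrib, Finset.sum_neg_distrib, inf.sum_ord_y]
    simp
  have e2 : ∀ a, ∑ v ∈ (fam a).places, v.ordDifferential (KaehlerDifferential.D K F x) =
      (Fintype.card ι : ℤ) - (fam a).places.card := fun a => by
    rw [Finset.sum_congr rfl fun v hv => (AllValues.ordDifferential_dx fam inf v).2.1 a hv,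
      Finset.sum_sub_distrib, (fam a).sum_ord_y]
    simp
  have e3 : ∑ a ∈ T, ((Fintype.card ι : ℤ) - (fam a).places.card) =
      ∑ a ∈ B, ((Fintype.card ι : ℤ) - (fam a).places.card) :=
    (Finset.sum_subset Finset.subset_union_right fun a _ ha => by rw [hB a ha, sub_self]).symm
  rw [e1, Finset.sum_congr rfl fun a _ => e2 a, e3]
  linarith

theorem AllValues.hasCanonicalDivisor (B : Finset K)
    (hB : ∀ a ∉ B, ((fam a).places.card : ℤ) = Fintype.card ι) :
    HasCanonicalDivisor (K := K) (F := F) :=
  ⟨fun _ hω => (AllValues.differential_divisor fam inf B hB hω).imp fun _ h => h.1⟩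

theorem AllValues.degree_canonicalDivisorOf [HasCanonicalDivisor (K := K) (F := F)] (B : Finset K)
    (hB : ∀ a ∉ B, ((fam a).places.card : ℤ) = Fintype.card ι) {ω : Ω[F⁄K]} (hω : ω ≠ 0) :
    Divisor.degree (canonicalDivisorOf hω) =
      (∑ a ∈ B, ((Fintype.card ι : ℤ) - (fam a).places.card)) -
        Fintype.card ι - inf.places.card := by
  obtain ⟨D, hD, hdeg⟩ := AllValues.differential_divisor fam inf B hB hω
  rw [show canonicalDivisorOf hω = D from
    Finsupp.ext fun v => by rw [canonicalDivisorOf_apply, hD], hdeg]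

end AllValues

end FA.ModField
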