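import Fermat.Agent.ModField.Families
import Fermat.Agent.ModField.Genus
import Fermat.Agent.ModField.Bar
import Fermat.Agent.S20
import Fermat.Prelude.Def_ModularCurve_GenusNumerics

/-!
# The genus of `X₀(N)`
-/

set_option autoImplicit false
set_option linter.style.haveILetI false
set_option linter.unusedSectionVars false
set_option synthInstance.maxHeartbeats 200000
set_option maxHeartbeats 1600000

noncomputable section

namespace FA.ModField

open AlgebraicCurve ModularCurve

theorem genus_fullC_eq (L : Type) [Field L] [Algebra L ℂ] [CharZero L] [IsAlgClosed L] (N : ℕ)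
    [NeZero N] [HasCanonicalDivisor (K := L) (F := modularFunctionFieldFullC L N)] :
    (genus L (modularFunctionFieldFullC L N) : ℚ) = genusFormula N := by
  classical
  haveI := (cuspFam L N).nontrivial_differentials
  have h : ∃ ω : Ω[(modularFunctionFieldFullC L N)⁄L], ω ≠ 0 := exists_ne 0
  have hcard : (Fintype.card (FA.Dim.Cos N) : ℤ) = (dedekindPsi N : ℤ) := by
    rw [← Nat.card_eq_fintype_card, FA.Dim.card_cos]
  have hB : ∀ a ∉ ({0, 1728} : Finset L),
      ((fam L N a).places.card : ℤ) = Fintype.card (FA.Dim.Cos N) := by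
    intro a ha
    simp only [Finset.mem_insert, Finset.mem_singleton, not_or] at ha
    rw [card_fam_general ha.1 ha.2, hcard]
  have hdeg := AllValues.degree_canonicalDivisorOf (fam L N) (cuspFam L N) {0, 1728} hB h.choose_spec
  rw [Finset.sum_pair (by norm_num : (0 : L) ≠ 1728), hcard, card_cuspFam] at hdeg
  have h0 := card_fam_zero (L := L) (N := N)
  have h1 := card_fam_1728 (L := L) (N := N)
  obtain ⟨k, hk⟩ : ∃ k : ℕ, genusFormula N = (k : ℚ) := ⟨_, (Fermat.Agent.S20.result N).symm⟩
  have key : Divisor.degree (canonicalDivisorOf h.choose_spec) + 2 = 2 * (k : ℤ) := by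
    have hQ := congrArg (Int.cast : ℤ → ℚ) hdeg
    have e0 := congrArg (Int.cast : ℤ → ℚ) h0
    have e1 := congrArg (Int.cast : ℤ → ℚ) h1
    push_cast at hQ e0 e1
    rw [genusFormula] at hk
    have : ((Divisor.degree (canonicalDivisorOf h.choose_spec) + 2 : ℤ) : ℚ) =
        ((2 * (k : ℤ) : ℤ) : ℚ) := by
      push_cast
      linear_combination hQ - (1 / 3 : ℚ) * e0 - (1 / 2 : ℚ) * e1 + 2 * hk
    exact_mod_cast this
  rw [genus, dif_pos h, key, hk]
  congr 1
  omega

theorem genus_eq_genusFormula (N : ℕ) [NeZero N]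
    (E : IntermediateField (AlgebraicClosure ℚ) (LaurentSeries (AlgebraicClosure ℚ)))
    (hE : E = modularFunctionFieldFullC (AlgebraicClosure ℚ) N)
    [HasCanonicalDivisor (K := AlgebraicClosure ℚ) (F := E)] :
    (genus (AlgebraicClosure ℚ) E : ℚ) = genusFormula N := by
  subst hE
  haveI : Algebra.IsAlgebraic ℚ (AlgebraicClosure ℚ) := AlgebraicClosure.isAlgebraic ℚ
  letI : Algebra (AlgebraicClosure ℚ) ℂ :=
    (IsAlgClosed.lift : AlgebraicClosure ℚ →ₐ[ℚ] ℂ).toRingHom.toAlgebra
  exact genus_fullC_eq (AlgebraicClosure ℚ) N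

end FA.ModField
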