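import Fermat.Agent.ModField.Elliptic
import Fermat.Prelude.Def_ModularCurve_X0ModL

/-!
# Modular functions of level `N` with expansions at all cusps; conjugates of `j(dz)`
-/

set_option autoImplicit false
set_option linter.style.haveILetI false

noncomputable section

namespace FA.ModField

open UpperHalfPlane hiding I
open Complex HahnSeries CongruenceSubgroup
open scoped MatrixGroups Topology Manifold

/-- `z ↦ d z`. -/
def scaleH (d : ℕ) [NeZero d] (z : ℍ) : ℍ :=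
  ⟨(d : ℂ) * z, by
    simp only [Complex.mul_im, Complex.natCast_re, Complex.natCast_im, zero_mul, add_zero]
    exact mul_pos (by exact_mod_cast Nat.pos_of_ne_zero (NeZero.ne d)) z.im_pos⟩

@[simp]
theorem coe_scaleH (d : ℕ) [NeZero d] (z : ℍ) : (scaleH d z : ℂ) = (d : ℂ) * z := rfl

/-- The standard primitive `N`-th root of unity. -/
def zetaN (N : ℕ) : ℂˣ := Units.mk0 (cexp (2 * Real.pi * I / N)) (exp_ne_zero _)

theorem zetaN_prim (N : ℕ) [NeZero N] : IsPrimitiveRoot (zetaN N : ℂ) N :=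
  Complex.isPrimitiveRoot_exp N (NeZero.ne N)

theorem coe_smul_int (γ : SL(2, ℤ)) (z : ℍ) :
    ((γ • z : ℍ) : ℂ) = (((γ 0 0 : ℤ) : ℂ) * z + ((γ 0 1 : ℤ) : ℂ)) /
      (((γ 1 0 : ℤ) : ℂ) * z + ((γ 1 1 : ℤ) : ℂ)) := by
  rw [coe_specialLinearGroup_apply]
  simp

theorem smul_denom_ne (γ : SL(2, ℤ)) (z : ℍ) :
    ((γ 1 0 : ℤ) : ℂ) * z + ((γ 1 1 : ℤ) : ℂ) ≠ 0 := by
  have := denom_ne_zero (γ : GL (Fin 2) ℝ) z
  simpa [ModularGroup.denom_apply] using this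

/-- `j(d γ z) = j((a z + b) / δ)` with `a δ = d` and `a ∣ γ₁₀`. -/
theorem exists_upper (d : ℕ) [NeZero d] (γ : SL(2, ℤ)) :
    ∃ (a δ : ℕ) (b : ℤ), 0 < a ∧ a * δ = d ∧ (a : ℤ) ∣ γ 1 0 ∧ ∀ z : ℍ, ∃ w : ℍ,
      (w : ℂ) = ((a : ℂ) * z + b) / δ ∧ jfun (scaleH d (γ • z)) = jfun w := by
  set A : ℤ := (d : ℤ) * γ 0 0 with hA
  set C : ℤ := γ 1 0 with hC
  have hdet : γ 0 0 * γ 1 1 - γ 0 1 * γ 1 0 = 1 := by
    have := γ.det_coe; rwa [Matrix.det_fin_two] at this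
  have hd0 : (d : ℤ) ≠ 0 := by exact_mod_cast NeZero.ne d
  set a := Int.gcd A C with ha
  have ha0 : 0 < a := by
    rw [ha, Nat.pos_iff_ne_zero]
    intro h
    obtain ⟨h1, h2⟩ := Int.gcd_eq_zero_iff.1 h
    rw [hA, mul_eq_zero, or_iff_right hd0] at h1
    rw [hC] at h2
    rw [h1, h2] at hdet
    simp at hdet
  obtain ⟨p, hp⟩ : (a : ℤ) ∣ A := Int.gcd_dvd_left _ _
  obtain ⟨r, hr⟩ : (a : ℤ) ∣ C := Int.gcd_dvd_right _ _
  obtain ⟨s, q, hsq⟩ : ∃ s q : ℤ, p * s - q * r = 1 := by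
    refine ⟨Int.gcdA A C, -Int.gcdB A C, ?_⟩
    have h := Int.gcd_eq_gcd_ab A C
    rw [← ha] at h
    have ha' : (a : ℤ) ≠ 0 := by exact_mod_cast ha0.ne'
    apply mul_left_cancel₀ ha'
    linear_combination -h - (Int.gcdA A C) * hp - (Int.gcdB A C) * hr
  set B : ℤ := (d : ℤ) * γ 0 1 with hB
  set δ : ℤ := p * γ 1 1 - r * B with hδ
  have haδ : (a : ℤ) * δ = d := by
    rw [hδ, hB]
    linear_combination (d : ℤ) * hdet - γ 1 1 * hp + (d : ℤ) * γ 0 1 * hr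
      + γ 1 1 * hA - (d : ℤ) * γ 0 1 * hC
  have hδ0 : 0 < δ := by
    have h1 : (0 : ℤ) < d := by exact_mod_cast Nat.pos_of_ne_zero (NeZero.ne d)
    have h2 : (0 : ℤ) < a := by exact_mod_cast ha0
    nlinarith
  refine ⟨a, δ.toNat, s * B - q * γ 1 1, ha0, ?_, Int.gcd_dvd_right _ _, fun z => ?_⟩
  · have : ((a * δ.toNat : ℕ) : ℤ) = d := by rw [Nat.cast_mul, Int.toNat_of_nonneg hδ0.le, haδ]
    exact_mod_cast this
  set b : ℤ := s * B - q * γ 1 1 with hb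
  have hδC : ((δ.toNat : ℕ) : ℂ) = (δ : ℂ) := by
    rw [← Int.cast_natCast (R := ℂ), Int.toNat_of_nonneg hδ0.le]
  have him : 0 < (((a : ℂ) * z + b) / (δ.toNat : ℂ)).im := by
    rw [Complex.div_natCast_im]
    simp only [Complex.add_im, Complex.mul_im, Complex.natCast_re, Complex.natCast_im, zero_mul,
      add_zero, Complex.intCast_im]
    exact div_pos (mul_pos (by exact_mod_cast ha0) z.im_pos)
      (by exact_mod_cast (by omega : 0 < δ.toNat))
  set w : ℍ := ⟨_, him⟩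
  refine ⟨w, rfl, ?_⟩
  let γ' : SL(2, ℤ) := ⟨!![p, q; r, s], by rw [Matrix.det_fin_two_of]; linarith⟩
  rw [← jfun_smul γ' w]
  congr 1
  ext
  rw [coe_scaleH, coe_smul_int, coe_smul_int]
  simp only [γ', Matrix.SpecialLinearGroup.coe_mk, Matrix.of_apply, Matrix.cons_val',
    Matrix.cons_val_zero, Matrix.cons_val_one, Matrix.empty_val', Matrix.cons_val_fin_one]
  have hden := smul_denom_ne γ z
  have hδne : (δ : ℂ) ≠ 0 := by exact_mod_cast hδ0.ne'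
  have hw : (w : ℂ) * δ = (a : ℂ) * z + b := by
    show ((a : ℂ) * z + b) / (δ.toNat : ℂ) * δ = _
    rw [hδC, div_mul_cancel₀ _ hδne]
  have hden' : (r : ℂ) * w + s ≠ 0 := by
    have := smul_denom_ne γ' w
    simpa [γ'] using this
  rw [← mul_div_assoc, div_eq_div_iff hden hden']
  apply mul_right_cancel₀ hδne
  have hp' : (d : ℂ) * γ 0 0 = (a : ℂ) * p := by exact_mod_cast hA ▸ hp
  have hr' : ((γ 1 0 : ℤ) : ℂ) = (a : ℂ) * r := by exact_mod_cast hC ▸ hr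
  have hsq' : (p : ℂ) * s - q * r = 1 := by exact_mod_cast hsq
  have hB' : (B : ℂ) = (d : ℂ) * γ 0 1 := by rw [hB]; push_cast; rfl
  have hb' : (b : ℂ) = (s : ℂ) * B - q * γ 1 1 := by rw [hb]; push_cast; rfl
  have hδ' : (δ : ℂ) = (p : ℂ) * γ 1 1 - r * B := by rw [hδ]; push_cast; rfl
  -- both sides are `(X, Y) = γ' (a z + b, δ)`
  have e1 : ((r : ℂ) * w + s) * δ = (γ 1 0 : ℂ) * z + γ 1 1 := by
    linear_combination (r : ℂ) * hw + (r : ℂ) * hb' + (s : ℂ) * hδ' + (γ 1 1 : ℂ) * hsq' - z * hr'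
  have e2 : ((p : ℂ) * w + q) * δ = (d : ℂ) * ((γ 0 0 : ℂ) * z + γ 0 1) := by
    linear_combination (p : ℂ) * hw + (p : ℂ) * hb' + (q : ℂ) * hδ' + (B : ℂ) * hsq' - z * hp'
      + hB'
  linear_combination (d : ℂ) * ((γ 0 0 : ℂ) * z + γ 0 1) * e1
    - ((γ 1 0 : ℂ) * z + γ 1 1) * e2

theorem qp_scale (d : ℕ) [NeZero d] (z : ℍ) : qp 1 (scaleH d z) = qp 1 z ^ d := by
  rw [qp_eq, qp_eq, ← Complex.exp_nat_mul, coe_scaleH]
  congr 1
  simp
  ring

theorem hasExp_scale (d : ℕ) [NeZero d] :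
    HasExp (qp 1) (fun z => jfun (scaleH d z))
      (ModularCurve.qExpand ℂ d (ModularCurve.jqModC ℂ)) := by
  have h := hasExp_jfun.comp (U := qp 1) (scaleH d) d 1 (fun z => by simp [qp_scale])
  rwa [twist_one_apply] at h

/-- The expansion of `j(d γ z)` at infinity. -/
theorem exists_coset_exp (N d : ℕ) [NeZero N] [NeZero d] (hd : d ∣ N) (γ : SL(2, ℤ)) :
    ∃ (a k : ℕ) (_ : NeZero k) (c : ℂˣ), k = a * a * (N / d) ∧ a ∣ d ∧ (a : ℤ) ∣ γ 1 0 ∧
      HasExp (qp N) (fun z => jfun (scaleH d (γ • z)))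
        (ModularCurve.qExpand ℂ k (twist c (ModularCurve.jqModC ℂ))) := by
  obtain ⟨a, δ, b, ha, haδ, hac, hw⟩ := exists_upper d γ
  obtain ⟨e, he⟩ := hd
  have hd0 : d ≠ 0 := NeZero.ne d
  have he0 : e ≠ 0 := fun h => NeZero.ne N (by rw [he, h, mul_zero])
  have hNd : N / d = e := by rw [he, Nat.mul_div_cancel_left _ (Nat.pos_of_ne_zero hd0)]
  haveI : NeZero (a * a * (N / d)) := ⟨by
    rw [hNd]; exact Nat.mul_ne_zero (Nat.mul_ne_zero ha.ne' ha.ne') he0⟩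
  choose w hwc hwj using hw
  refine ⟨a, a * a * (N / d), inferInstance, zetaN N ^ (b * (a * e : ℕ)), rfl, ⟨δ, haδ.symm⟩, hac, ?_⟩
  have h := hasExp_jfun.comp (U := qp N) w (a * a * (N / d)) (zetaN N ^ (b * (a * e : ℕ))) ?_
  · exact h.congr (funext fun z => (hwj z).symm)
  intro z
  rw [qp_eq, qp_eq, Units.val_zpow_eq_zpow_val, zetaN, Units.val_mk0, ← Complex.exp_int_mul,
    ← Complex.exp_nat_mul, ← Complex.exp_add, hwc, hNd]
  congr 1
  have hN : (N : ℂ) = (a : ℂ) * δ * e := by exact_mod_cast he.trans (by rw [haδ])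
  have hδne : (δ : ℂ) ≠ 0 := by
    intro h
    have : δ = 0 := by exact_mod_cast h
    rw [this, mul_zero] at haδ
    exact hd0 haδ.symm
  have hNne : (N : ℂ) ≠ 0 := by exact_mod_cast NeZero.ne N
  have hane : (a : ℂ) ≠ 0 := by exact_mod_cast ha.ne'
  have hene : (e : ℂ) ≠ 0 := by exact_mod_cast he0
  push_cast
  rw [hN] at hNne ⊢
  field_simp
  ring

theorem mdiff_smul_SL (γ : SL(2, ℤ)) : MDiff (fun z : ℍ => γ • z) :=
  mdifferentiable_smul (g := (γ : GL (Fin 2) ℝ)) (by simp)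

theorem mdiff_comp_smul {f : ℍ → ℂ} (hf : MDiff f) (γ : SL(2, ℤ)) :
    MDiff (fun z => f (γ • z)) :=
  hf.comp (mdiff_smul_SL γ)

theorem mdiff_jfun_scale (d : ℕ) [NeZero d] : MDiff (fun z => jfun (scaleH d z)) := by
  rw [UpperHalfPlane.mdifferentiable_iff]
  intro w hw
  have h1 : 0 < ((d : ℂ) * w).im := by
    simp only [Complex.mul_im, Complex.natCast_re, Complex.natCast_im, zero_mul, add_zero]
    exact mul_pos (by exact_mod_cast Nat.pos_of_ne_zero (NeZero.ne d)) hw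
  have h2 : DifferentiableAt ℂ (jfun ∘ ofComplex) ((d : ℂ) * w) :=
    (UpperHalfPlane.mdifferentiable_iff.1 mdiff_jfun).differentiableAt
      (isOpen_upperHalfPlaneSet.mem_nhds h1)
  refine ((h2.comp w (differentiableAt_id.const_mul _)).differentiableWithinAt).congr ?_ ?_
  · intro x hx
    have hx1 : 0 < ((d : ℂ) * x).im := by
      simp only [Complex.mul_im, Complex.natCast_re, Complex.natCast_im, zero_mul, add_zero]
      exact mul_pos (by exact_mod_cast Nat.pos_of_ne_zero (NeZero.ne d)) hx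
    simp [Function.comp_apply, ofComplex_apply_of_im_pos hx, ofComplex_apply_of_im_pos hx1, scaleH]
  · simp [Function.comp_apply, ofComplex_apply_of_im_pos hw, ofComplex_apply_of_im_pos h1, scaleH]

theorem scale_smul_Gamma0 (N d : ℕ) [NeZero d] (hd : d ∣ N) {γ : SL(2, ℤ)} (hγ : γ ∈ Gamma0 N)
    (z : ℍ) : jfun (scaleH d (γ • z)) = jfun (scaleH d z) := by
  rw [Gamma0_mem, ZMod.intCast_zmod_eq_zero_iff_dvd] at hγ
  obtain ⟨c, hc⟩ := (Int.natCast_dvd_natCast.2 hd).trans hγ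
  have hdet : γ 0 0 * γ 1 1 - γ 0 1 * γ 1 0 = 1 := by
    have := γ.det_coe; rwa [Matrix.det_fin_two] at this
  let γ' : SL(2, ℤ) := ⟨!![γ 0 0, (d : ℤ) * γ 0 1; c, γ 1 1], by
    rw [Matrix.det_fin_two_of]
    linear_combination hdet + γ 0 1 * hc⟩
  rw [← jfun_smul γ' (scaleH d z)]
  congr 1
  ext
  have hc' : ((γ 1 0 : ℤ) : ℂ) = (d : ℂ) * c := by exact_mod_cast hc
  rw [coe_scaleH, coe_smul_int, coe_smul_int]
  simp only [γ', Matrix.SpecialLinearGroup.coe_mk, Matrix.of_apply, Matrix.cons_val',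
    Matrix.cons_val_zero, Matrix.cons_val_one, Matrix.empty_val', Matrix.cons_val_fin_one,
    coe_scaleH, Int.cast_mul, Int.cast_natCast, hc']
  rw [← mul_div_assoc]
  congr 1 <;> ring

/-- Holomorphic `Γ₀(N)`-invariant functions with expansions at all cusps. -/
def modFuns (N : ℕ) : Subalgebra ℂ (ℍ → ℂ) where
  carrier := {f | MDiff f ∧ (∀ γ ∈ Gamma0 N, ∀ z, f (γ • z) = f z) ∧
    (∃ L, HasExp (qp 1) f L) ∧
    ∀ γ : SL(2, ℤ), ∃ L, HasExp (qp N) (fun z => f (γ • z)) L}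
  mul_mem' := by
    rintro f g ⟨hf1, hf2, ⟨L, hL⟩, hf4⟩ ⟨hg1, hg2, ⟨M, hM⟩, hg4⟩
    refine ⟨hf1.mul hg1, fun γ hγ z => by simp only [Pi.mul_apply, Pi.add_apply]; rw [hf2 γ hγ z, hg2 γ hγ z],
      ⟨_, hL.mul (qp_ne_zero 1) hM⟩, fun γ => ?_⟩
    obtain ⟨L', hL'⟩ := hf4 γ
    obtain ⟨M', hM'⟩ := hg4 γ
    exact ⟨_, hL'.mul (qp_ne_zero N) hM'⟩
  add_mem' := by
    rintro f g ⟨hf1, hf2, ⟨L, hL⟩, hf4⟩ ⟨hg1, hg2, ⟨M, hM⟩, hg4⟩
    refine ⟨hf1.add hg1, fun γ hγ z => by simp only [Pi.mul_apply, Pi.add_apply]; rw [hf2 γ hγ z, hg2 γ hγ z], ⟨_, hL.add hM⟩, fun γ => ?_⟩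
    obtain ⟨L', hL'⟩ := hf4 γ
    obtain ⟨M', hM'⟩ := hg4 γ
    exact ⟨_, hL'.add hM'⟩
  algebraMap_mem' c := ⟨mdifferentiable_const, fun _ _ _ => rfl, ⟨_, hasExp_C c⟩,
    fun _ => ⟨_, hasExp_C c⟩⟩

theorem scale_mem_modFuns (N d : ℕ) [NeZero N] [NeZero d] (hd : d ∣ N) :
    (fun z => jfun (scaleH d z)) ∈ modFuns N := by
  refine ⟨mdiff_jfun_scale d, fun γ hγ z => scale_smul_Gamma0 N d hd hγ z,
    ⟨_, hasExp_scale d⟩, fun γ => ?_⟩
  obtain ⟨a, k, hk, c, -, -, -, h⟩ := exists_coset_exp N d hd γ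
  exact ⟨_, h⟩

theorem order_qExpand_twist_jq (k : ℕ) [NeZero k] (c : ℂˣ) :
    (ModularCurve.qExpand ℂ k (twist c (ModularCurve.jqModC ℂ))).order = -(k : ℤ) := by
  have hc : (ModularCurve.qExpand ℂ k (twist c (ModularCurve.jqModC ℂ))).coeff (-(k : ℤ)) ≠ 0 := by
    rw [show -(k : ℤ) = (k : ℤ) * (-1) by ring, ModularCurve.qExpand_coeff_mul, twist_coeff,
      jqModC_coeff_neg_one, mul_one]
    exact Units.ne_zero _
  refine le_antisymm (order_le_of_coeff_ne_zero hc)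
    ((ordGE_iff_le_order (ne_zero_of_coeff_ne_zero hc)).1 fun i hi => ?_)
  by_cases hdvd : (k : ℤ) ∣ i
  · obtain ⟨m, rfl⟩ := hdvd
    have hk : (0 : ℤ) < k := by exact_mod_cast Nat.pos_of_ne_zero (NeZero.ne k)
    rw [ModularCurve.qExpand_coeff_mul, twist_coeff, jqModC_coeff_of_lt (by nlinarith), mul_zero]
  · exact ModularCurve.qExpand_coeff_of_not_dvd k _ hdvd

/-- `j(N z)` has stabiliser exactly `Γ₀(N)`. -/
theorem mem_Gamma0_of_scale_invariant (N : ℕ) [NeZero N] {g : SL(2, ℤ)}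
    (h : ∀ z, jfun (scaleH N (g • z)) = jfun (scaleH N z)) : g ∈ Gamma0 N := by
  obtain ⟨a, k, hk, c, hka, haN, hac, hexp⟩ := exists_coset_exp N N dvd_rfl g
  have h2 : HasExp (qp N) (fun z => jfun (scaleH N z))
      (ModularCurve.qExpand ℂ (N * N) (ModularCurve.jqModC ℂ)) := by
    have h3 := hasExp_jfun.comp (U := qp N) (scaleH N) (N * N) 1 (fun z => by
      rw [qp_scale, Units.val_one, one_mul, pow_mul, qp_pow_self])
    rwa [twist_one_apply] at h3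
  rw [funext h] at hexp
  have heq := congrArg HahnSeries.order (hexp.unique (covers_qp N) h2)
  have h4 : ModularCurve.jqModC ℂ = twist (1 : ℂˣ) (ModularCurve.jqModC ℂ) :=
    (twist_one_apply _).symm
  rw [order_qExpand_twist_jq, h4, order_qExpand_twist_jq] at heq
  rw [Nat.div_self (Nat.pos_of_ne_zero (NeZero.ne N)), mul_one] at hka
  have haN' : a = N := by
    have : a * a = N * N := by rw [← hka]; exact_mod_cast neg_injective heq
    exact Nat.mul_self_inj.1 this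
  rw [Gamma0_mem, ZMod.intCast_zmod_eq_zero_iff_dvd]
  exact haN' ▸ hac

/-- A parametrisation of a punctured neighbourhood of a point or cusp. -/
structure Param (N : ℕ) where
  /-- the parameter space -/
  X : Type
  /-- the parameter -/
  T : X → ℂ
  hT : ∀ x, T x ≠ 0
  cov : CoversPunctured T
  /-- the map to the upper half plane -/
  g₀ : X → ℍ
  hexp : ∀ f ∈ modFuns N, ∀ γ : SL(2, ℤ), ∃ M, HasExp T (fun x => f (γ • g₀ x)) M
  hinj : ∀ h : ℍ → ℂ, MDiff h → (∀ x, h (g₀ x) = 0) → h = 0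

/-- The parameter at infinity. -/
def cuspParam (N : ℕ) [NeZero N] : Param N where
  X := ℍ
  T := qp N
  hT := qp_ne_zero N
  cov := covers_qp N
  g₀ := id
  hexp _ hf γ := hf.2.2.2 γ
  hinj _ _ h0 := funext h0

/-- The Cayley parameter at `τ`. -/
def pointParam (N : ℕ) (τ : ℍ) : Param N where
  X := Disc
  T := Subtype.val
  hT := disc_ne_zero
  cov := covers_disc
  g₀ := cayH τ
  hexp _ hf γ := ⟨_, hasExp_cay (mdiff_comp_smul hf.1 γ) τ⟩
  hinj _ hm h0 := eq_zero_of_tay_eq_zero hm τ (funext h0)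

end FA.ModField
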