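import Fermat.Agent.ModField.ModFuns
import Fermat.Agent.Dim.Cosets

/-!
# The embeddings of the modular function field into `ℂ((T))`, one for each coset
-/

set_option autoImplicit false
set_option linter.style.haveILetI false
set_option linter.unusedSectionVars false
set_option synthInstance.maxHeartbeats 200000
set_option maxHeartbeats 1600000

noncomputable section

namespace FA.ModField

open UpperHalfPlane hiding I
open Complex HahnSeries CongruenceSubgroup ModularCurve IntermediateField
open scoped MatrixGroups Topology Manifold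

variable (L : Type) [Field L] [Algebra L ℂ] (N : ℕ) [NeZero N]

local notation "ι" => algebraMap L ℂ

theorem algebraMap_laurentC (a : L) :
    algebraMap L (LaurentSeries ℂ) a = HahnSeries.C (algebraMap L ℂ a) := by
  rw [HahnSeries.algebraMap_apply', PowerSeries.algebraMap_apply, HahnSeries.ofPowerSeries_C]

/-- The algebra generated by the `j(q^d)`, `d ∣ N`. -/
abbrev genAlg : Subalgebra L (LaurentSeries L) := Algebra.adjoin L (divisorExpansionsC L N)

/-- The function on the upper half plane of an element of `genAlg`. -/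
def toFun' (a : LaurentSeries L) (z : ℍ) : ℂ := ∑' n : ℤ, (coeffMap ι a).coeff n * qp 1 z ^ n

variable {L N}

theorem coeffMap_gen (d : ℕ) [NeZero d] :
    coeffMap ι (qExpand L d (jqModC L)) = qExpand ℂ d (jqModC ℂ) := by
  rw [coeffMap_qExpand, coeffMap_jqModC]

theorem exists_fun {a : LaurentSeries L} (ha : a ∈ genAlg L N) :
    ∃ f ∈ modFuns N, HasExp (qp 1) f (coeffMap ι a) := by
  induction ha using Algebra.adjoin_induction with
  | mem x hx =>
    obtain ⟨d, hd0, hd, rfl⟩ := hx
    exact ⟨_, scale_mem_modFuns N d hd, by rw [coeffMap_gen]; exact hasExp_scale d⟩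
  | algebraMap c =>
    refine ⟨fun _ => ι c, Subalgebra.algebraMap_mem _ (ι c), ?_⟩
    rw [algebraMap_laurentSeries_eq_single, coeffMap_single, ← HahnSeries.C_apply]
    exact hasExp_C _
  | add x y _ _ hx hy =>
    obtain ⟨f, hf, hf'⟩ := hx
    obtain ⟨g, hg, hg'⟩ := hy
    exact ⟨f + g, add_mem hf hg, by rw [map_add]; exact hf'.add hg'⟩
  | mul x y _ _ hx hy =>
    obtain ⟨f, hf, hf'⟩ := hx
    obtain ⟨g, hg, hg'⟩ := hy
    exact ⟨f * g, mul_mem hf hg, by rw [map_mul]; exact hf'.mul (qp_ne_zero 1) hg'⟩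

theorem toFun'_spec {a : LaurentSeries L} (ha : a ∈ genAlg L N) :
    HasExp (qp 1) (toFun' L a) (coeffMap ι a) ∧ toFun' L a ∈ modFuns N := by
  obtain ⟨f, hf, hf'⟩ := exists_fun ha
  have : toFun' L a = f := funext fun z => (hf' z).tsum_eq
  exact this ▸ ⟨hf', hf⟩

/-- `genAlg` as functions on the upper half plane. -/
def funHom : genAlg L N →+* (ℍ → ℂ) where
  toFun a := toFun' L (a : LaurentSeries L)
  map_one' := (toFun'_spec (N := N) (one_mem _)).1.fun_unique (by
    show HasExp (qp 1) 1 (coeffMap ι 1)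
    rw [map_one]; exact hasExp_one)
  map_zero' := (toFun'_spec (N := N) (zero_mem _)).1.fun_unique (by
    show HasExp (qp 1) 0 (coeffMap ι 0)
    rw [map_zero]; exact hasExp_zero)
  map_add' a b := (toFun'_spec (add_mem a.2 b.2)).1.fun_unique (by
    show HasExp (qp 1) _ (coeffMap ι ((a : LaurentSeries L) + b))
    rw [map_add]; exact (toFun'_spec a.2).1.add (toFun'_spec b.2).1)
  map_mul' a b := (toFun'_spec (mul_mem a.2 b.2)).1.fun_unique (by
    show HasExp (qp 1) _ (coeffMap ι ((a : LaurentSeries L) * b))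
    rw [map_mul]; exact (toFun'_spec a.2).1.mul (qp_ne_zero 1) (toFun'_spec b.2).1)

theorem funHom_mem (a : genAlg L N) : funHom a ∈ modFuns N := (toFun'_spec a.2).2

theorem funHom_exp (a : genAlg L N) : HasExp (qp 1) (funHom a) (coeffMap ι (a : LaurentSeries L)) :=
  (toFun'_spec a.2).1

theorem funHom_injective : Function.Injective (funHom (L := L) (N := N)) := by
  intro a b h
  have h1 := funHom_exp a
  rw [h] at h1
  have h2 := h1.unique (covers_qp 1) (funHom_exp b)
  exact Subtype.ext (HahnSeries.ext (funext fun n =>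
    (algebraMap L ℂ).injective (congrArg (fun s : LaurentSeries ℂ => s.coeff n) h2)))

theorem funHom_algebraMap (c : L) : funHom (algebraMap L (genAlg L N) c) = fun _ => ι c := by
  refine (funHom_exp _).fun_unique ?_
  show HasExp (qp 1) _ (coeffMap ι (algebraMap L (LaurentSeries L) c))
  rw [algebraMap_laurentSeries_eq_single, coeffMap_single, ← HahnSeries.C_apply]
  exact hasExp_C _

/-- The generator `j(q^d)` of `genAlg`. -/
def algGen (d : ℕ) [NeZero d] (hd : d ∣ N) : genAlg L N :=
  ⟨qExpand L d (jqModC L), Algebra.subset_adjoin (mem_divisorExpansionsC L N hd)⟩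

theorem funHom_gen (d : ℕ) [NeZero d] (hd : d ∣ N) :
    funHom (algGen (L := L) d hd) = fun z => jfun (scaleH d z) := by
  refine (funHom_exp _).fun_unique ?_
  show HasExp (qp 1) _ (coeffMap ι (qExpand L d (jqModC L)))
  rw [coeffMap_gen]
  exact hasExp_scale d

/-- The series of `f ∘ γ` in the parameter `P`. -/
def expAt (P : Param N) (γ : SL(2, ℤ)) (a : genAlg L N) : LaurentSeries ℂ :=
  (P.hexp _ (funHom_mem a) γ).choose

theorem expAt_spec (P : Param N) (γ : SL(2, ℤ)) (a : genAlg L N) :
    HasExp P.T (fun x => funHom a (γ • P.g₀ x)) (expAt P γ a) :=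
  (P.hexp _ (funHom_mem a) γ).choose_spec

theorem expAt_eq {P : Param N} {γ : SL(2, ℤ)} {a : genAlg L N} {M : LaurentSeries ℂ}
    (h : HasExp P.T (fun x => funHom a (γ • P.g₀ x)) M) : expAt P γ a = M :=
  (expAt_spec P γ a).unique P.cov h

/-- `expAt` as an algebra map. -/
def expHom (P : Param N) (γ : SL(2, ℤ)) : genAlg L N →ₐ[L] LaurentSeries ℂ where
  toFun := expAt P γ
  map_one' := expAt_eq (hasExp_one.congr (funext fun x => by rw [map_one]; rfl))
  map_zero' := expAt_eq (hasExp_zero.congr (funext fun x => by rw [map_zero]; rfl))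
  map_add' a b := expAt_eq (((expAt_spec P γ a).add (expAt_spec P γ b)).congr
    (funext fun x => by rw [map_add]; rfl))
  map_mul' a b := expAt_eq (((expAt_spec P γ a).mul P.hT (expAt_spec P γ b)).congr
    (funext fun x => by rw [map_mul]; rfl))
  commutes' c := expAt_eq (by
    rw [algebraMap_laurentC]
    exact (hasExp_C _).congr (funext fun x => by rw [funHom_algebraMap]))

theorem expHom_injective (P : Param N) (γ : SL(2, ℤ)) :
    Function.Injective (expHom (L := L) P γ) := by
  rw [injective_iff_map_eq_zero]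
  intro a ha
  have h := expAt_spec P γ a
  rw [show expAt P γ a = 0 from ha] at h
  have h0 := h.fun_unique hasExp_zero
  have h1 : (fun z => funHom a (γ • z)) = 0 :=
    P.hinj _ (mdiff_comp_smul (funHom_mem a).1 γ) (congrFun h0)
  have h2 : funHom a = 0 := funext fun z => by
    have h3 := congrFun h1 (γ⁻¹ • z)
    simpa [smul_smul] using h3
  exact funHom_injective (by rw [h2, map_zero])

theorem genAlg_le : genAlg L N ≤ (modularFunctionFieldFullC L N).toSubalgebra :=
  IntermediateField.algebra_adjoin_le_adjoin L _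

instance genAlgAlgebra : Algebra (genAlg L N) (modularFunctionFieldFullC L N) :=
  (Subalgebra.inclusion (genAlg_le (L := L) (N := N))).toRingHom.toAlgebra

instance genAlgScalarTower : IsScalarTower L (genAlg L N) (modularFunctionFieldFullC L N) :=
  IsScalarTower.of_algebraMap_eq fun _ => rfl

instance genAlgFaithful : FaithfulSMul (genAlg L N) (modularFunctionFieldFullC L N) := by
  rw [faithfulSMul_iff_algebraMap_injective]
  exact Subalgebra.inclusion_injective _

instance genAlgFractionRing : IsFractionRing (genAlg L N) (modularFunctionFieldFullC L N) :=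
  IsFractionRing.of_field _ _ fun f => by
    obtain ⟨x, hx, y, hy, heq⟩ := IntermediateField.mem_adjoin_iff_div.mp f.2
    exact ⟨⟨x, hx⟩, ⟨y, hy⟩, Subtype.ext heq⟩

/-- The embedding of the function field attached to `γ`. -/
def emb (P : Param N) (γ : SL(2, ℤ)) :
    modularFunctionFieldFullC L N →ₐ[L] LaurentSeries ℂ :=
  IsFractionRing.liftAlgHom (K := modularFunctionFieldFullC L N) (expHom_injective P γ)

theorem emb_coe (P : Param N) (γ : SL(2, ℤ)) (a : genAlg L N) :
    emb (L := L) P γ ⟨(a : LaurentSeries L),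
      IntermediateField.algebra_adjoin_le_adjoin L _ a.2⟩ = expAt P γ a :=
  IsFractionRing.lift_algebraMap (expHom_injective P γ) a

/-- An element of the function field is a quotient of elements of `genAlg`. -/
theorem exists_fraction_eq (f : modularFunctionFieldFullC L N) :
    ∃ a b : genAlg L N, b ≠ 0 ∧ f * ⟨(b : LaurentSeries L),
        IntermediateField.algebra_adjoin_le_adjoin L _ b.2⟩ =
      ⟨(a : LaurentSeries L), IntermediateField.algebra_adjoin_le_adjoin L _ a.2⟩ := by
  obtain ⟨⟨a, b⟩, h⟩ := IsLocalization.surj (nonZeroDivisors (genAlg L N))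
    (S := modularFunctionFieldFullC L N) f
  exact ⟨a, b, nonZeroDivisors.ne_zero b.2, h⟩

theorem emb_ext {P : Param N} {γ : SL(2, ℤ)} {σ : modularFunctionFieldFullC L N →+* LaurentSeries ℂ}
    (h : ∀ a : genAlg L N, σ ⟨(a : LaurentSeries L),
      IntermediateField.algebra_adjoin_le_adjoin L _ a.2⟩ = expAt P γ a)
    (f : modularFunctionFieldFullC L N) : σ f = emb P γ f := by
  obtain ⟨a, b, hb, hab⟩ := exists_fraction_eq f
  have h1 := congrArg σ hab
  have h2 := congrArg (emb P γ) hab
  rw [map_mul, h, h] at h1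
  rw [map_mul, emb_coe, emb_coe] at h2
  have hne : expAt P γ b ≠ 0 := fun h0 => hb (expHom_injective P γ (by
    show expAt P γ b = expHom P γ 0
    rw [map_zero]; exact h0))
  exact mul_right_cancel₀ hne (h1.trans h2.symm)

/-- The function `j`. -/
def jElem (L : Type) [Field L] (N : ℕ) : modularFunctionFieldFullC L N :=
  ⟨jqModC L, jqModC_mem_full L N⟩

theorem emb_jElem (P : Param N) (γ : SL(2, ℤ)) {M : LaurentSeries ℂ}
    (h : HasExp P.T (fun x => jfun (P.g₀ x)) M) : emb P γ (jElem L N) = M := by
  have hg : jElem L N = ⟨(algGen (L := L) 1 (one_dvd N) : LaurentSeries L),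
      IntermediateField.algebra_adjoin_le_adjoin L _ (algGen (L := L) 1 (one_dvd N)).2⟩ :=
    Subtype.ext (qExpand_one_apply _).symm
  rw [hg, emb_coe]
  refine expAt_eq (h.congr (funext fun x => ?_))
  rw [funHom_gen]
  show _ = jfun (scaleH 1 (γ • P.g₀ x))
  rw [show scaleH 1 (γ • P.g₀ x) = γ • P.g₀ x from UpperHalfPlane.ext (by simp), jfun_smul]

/-! ### Indexing by cosets -/

theorem emb_left_Gamma0 (P : Param N) {h : SL(2, ℤ)} (hh : h ∈ Gamma0 N) (γ : SL(2, ℤ)) :
    emb (L := L) P (h * γ) = emb P γ := by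
  refine AlgHom.ext fun f => ?_
  refine emb_ext (σ := (emb P (h * γ)).toRingHom) (fun a => ?_) f
  rw [AlgHom.toRingHom_eq_coe, AlgHom.coe_toRingHom, emb_coe]
  exact expAt_eq ((expAt_spec P γ a).congr (funext fun x => by
    rw [mul_smul, (funHom_mem a).2.1 h hh]))

/-- The embedding attached to a coset. -/
def embCos (P : Param N) (i : FA.Dim.Cos N) :
    modularFunctionFieldFullC L N →ₐ[L] LaurentSeries ℂ :=
  emb P (Quotient.out i)⁻¹

theorem embCos_mk (P : Param N) (g : SL(2, ℤ)) :
    embCos (L := L) P (QuotientGroup.mk g) = emb P g⁻¹ := by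
  obtain ⟨h, hh⟩ := QuotientGroup.mk_out_eq_mul (Gamma0 N) g
  rw [embCos, show Quotient.out (QuotientGroup.mk g : FA.Dim.Cos N) = g * h from hh, mul_inv_rev]
  exact emb_left_Gamma0 P (inv_mem h.2) _

/-- The function `j(Nz)`. -/
def jNElem (L : Type) [Field L] (N : ℕ) [NeZero N] : modularFunctionFieldFullC L N :=
  ⟨qExpand L N (jqModC L), jqModCd_mem_full L N (dvd_refl N)⟩

/-- The embeddings are already distinct on `j(Nz)`. -/
theorem embCos_jN_injective (P : Param N) :
    Function.Injective fun i => embCos (L := L) P i (jNElem L N) := by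
  intro i j h
  induction i using QuotientGroup.induction_on with
  | H g =>
  induction j using QuotientGroup.induction_on with
  | H g' =>
  simp only [embCos_mk] at h
  set a := algGen (L := L) N (dvd_refl N)
  have h1 : emb P g⁻¹ ⟨(a : LaurentSeries L),
      IntermediateField.algebra_adjoin_le_adjoin L _ a.2⟩ = emb P g'⁻¹ ⟨(a : LaurentSeries L),
      IntermediateField.algebra_adjoin_le_adjoin L _ a.2⟩ := h
  rw [emb_coe, emb_coe] at h1
  have e1 := expAt_spec P g⁻¹ a
  rw [h1] at e1
  have e2 := e1.fun_unique (expAt_spec P g'⁻¹ a)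
  have hm := mdiff_comp_smul (funHom_mem a).1
  have h2 : (fun z => funHom a (g⁻¹ • z)) - (fun z => funHom a (g'⁻¹ • z)) = 0 :=
    P.hinj _ ((hm g⁻¹).sub (hm g'⁻¹)) fun x => sub_eq_zero.2 (congrFun e2 x)
  have h3 : g'⁻¹ * g ∈ Gamma0 N := by
    refine mem_Gamma0_of_scale_invariant N fun z => ?_
    have h4 := congrFun h2 (g • z)
    simp only [Pi.sub_apply, Pi.zero_apply, sub_eq_zero, funHom_gen, a, inv_smul_smul] at h4
    rw [mul_smul]
    exact h4.symm
  rw [QuotientGroup.eq]
  simpa [mul_inv_rev] using inv_mem h3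

theorem embCos_injective (P : Param N) : Function.Injective (embCos (L := L) P) :=
  fun _ _ h => embCos_jN_injective P (AlgHom.congr_fun h (jNElem L N))

/-- Deck transformations. -/
theorem embCos_deck (P : Param N) (g : SL(2, ℤ)) (rot : P.X → P.X) (ζ : ℂˣ)
    (hg : ∀ x, g • P.g₀ x = P.g₀ (rot x)) (hT : ∀ x, P.T (rot x) = ζ * P.T x)
    (i : FA.Dim.Cos N) (f : modularFunctionFieldFullC L N) :
    embCos P (g⁻¹ • i) f = twist ζ (embCos P i f) := by
  induction i using QuotientGroup.induction_on with
  | H g' =>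
  rw [MulAction.Quotient.smul_mk, smul_eq_mul, embCos_mk, embCos_mk, mul_inv_rev, inv_inv]
  refine (emb_ext (σ := (twist ζ).comp (emb P g'⁻¹).toRingHom) (fun a => ?_) f).symm
  rw [RingHom.comp_apply, AlgHom.toRingHom_eq_coe, AlgHom.coe_toRingHom, emb_coe]
  symm
  refine expAt_eq ?_
  have h := (expAt_spec P g'⁻¹ a).comp (U := P.T) rot 1 ζ (fun x => by rw [pow_one, hT])
  rw [qExpand_one_apply] at h
  refine h.congr (funext fun x => ?_)
  rw [mul_smul, hg]
  rfl

end FA.ModField
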