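import Fermat.Agent.ModField.Laurent

/-!
# Functions given by convergent Laurent expansions in a parameter
-/

set_option autoImplicit false

noncomputable section

namespace FA.ModField

open HahnSeries

variable {X Y : Type*} {T : X → ℂ}

/-- `f` is the sum of the Laurent series `L` in the parameter `T`. -/
def HasExp (T : X → ℂ) (f : X → ℂ) (L : LaurentSeries ℂ) : Prop :=
  ∀ x, HasSum (fun n : ℤ => L.coeff n * T x ^ n) (f x)

theorem HasExp.congr {f g : X → ℂ} {L : LaurentSeries ℂ} (h : HasExp T f L) (he : f = g) :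
    HasExp T g L := he ▸ h

theorem hasExp_single (hk : ℤ) (r : ℂ) :
    HasExp T (fun x => r * T x ^ hk) (single hk r) := fun x => by
  convert hasSum_single (f := fun n : ℤ => (single hk r : LaurentSeries ℂ).coeff n * T x ^ n) hk
    (fun n hn => by simp [coeff_single_of_ne hn]) using 1
  simp

theorem hasExp_C (r : ℂ) : HasExp T (fun _ => r) (HahnSeries.C r) := by
  simpa [HahnSeries.C_apply] using hasExp_single (T := T) 0 r

theorem hasExp_zero : HasExp T 0 0 := fun x => by
  simpa using (hasSum_zero : HasSum (fun _ : ℤ => (0 : ℂ)) 0)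

theorem hasExp_one : HasExp T 1 1 := by
  have h := hasExp_C (T := T) 1
  rw [map_one] at h
  exact h

theorem HasExp.add {f g : X → ℂ} {L M : LaurentSeries ℂ} (hf : HasExp T f L)
    (hg : HasExp T g M) : HasExp T (f + g) (L + M) := fun x => by
  simpa [add_mul] using (hf x).add (hg x)

theorem HasExp.neg {f : X → ℂ} {L : LaurentSeries ℂ} (hf : HasExp T f L) :
    HasExp T (-f) (-L) := fun x => by
  simpa [neg_mul] using (hf x).neg

theorem HasExp.sub {f g : X → ℂ} {L M : LaurentSeries ℂ} (hf : HasExp T f L)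
    (hg : HasExp T g M) : HasExp T (f - g) (L - M) := by
  simpa [sub_eq_add_neg] using hf.add hg.neg

theorem HasExp.mul (hT : ∀ x, T x ≠ 0) {f g : X → ℂ} {L M : LaurentSeries ℂ}
    (hf : HasExp T f L) (hg : HasExp T g M) : HasExp T (f * g) (L * M) := fun x => by
  classical
  set a : ℤ → ℂ := fun n => L.coeff n * T x ^ n with ha
  set b : ℤ → ℂ := fun n => M.coeff n * T x ^ n with hb
  have hfa : HasSum a (f x) := hf x
  have hgb : HasSum b (g x) := hg x
  have hab : Summable fun p : ℤ × ℤ => a p.1 * b p.2 :=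
    summable_mul_of_summable_norm (f := a) (g := b) hfa.summable.norm hgb.summable.norm
  have hsum : HasSum (fun p : ℤ × ℤ => a p.1 * b p.2) (f x * g x) := hfa.mul hgb hab
  let e : (Σ _n : ℤ, ℤ) ≃ ℤ × ℤ :=
    { toFun := fun p => (p.2, p.1 - p.2)
      invFun := fun p => ⟨p.1 + p.2, p.1⟩
      left_inv := fun p => by simp
      right_inv := fun p => by simp }
  refine ((e.hasSum_iff (f := fun p : ℤ × ℤ => a p.1 * b p.2)).2 hsum).sigma fun n => ?_
  have hprod : ∀ i : ℤ, a i * b (n - i) = L.coeff i * M.coeff (n - i) * T x ^ n := by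
    intro i
    simp only [ha, hb]
    rw [show T x ^ n = T x ^ i * T x ^ (n - i) by rw [← zpow_add₀ (hT x)]; ring_nf]
    ring
  show HasSum (fun i : ℤ => a i * b (n - i)) ((L * M).coeff n * T x ^ n)
  simp only [hprod]
  refine HasSum.mul_right _ ?_
  rw [coeff_mul]
  let s := Finset.antidiagonal L.isPWO_support M.isPWO_support n
  have hsum2 : (∑ ij ∈ s, L.coeff ij.1 * M.coeff ij.2) =
      ∑ i ∈ s.image Prod.fst, L.coeff i * M.coeff (n - i) := by
    rw [Finset.sum_image]
    · refine Finset.sum_congr rfl fun ij hij => ?_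
      rw [show n - ij.1 = ij.2 by
        have := (Finset.mem_antidiagonal.1 hij).2.2; omega]
    · intro p hp q hq h
      have h1 := (Finset.mem_antidiagonal.1 hp).2.2
      have h2 := (Finset.mem_antidiagonal.1 hq).2.2
      exact Prod.ext h (by omega)
  rw [hsum2]
  refine hasSum_sum_of_ne_finset_zero fun i hi => ?_
  by_contra hne
  rw [mul_eq_zero, not_or] at hne
  exact hi (Finset.mem_image.2 ⟨(i, n - i), Finset.mem_antidiagonal.2
    ⟨hne.1, hne.2, by ring⟩, rfl⟩)

theorem HasExp.pow (hT : ∀ x, T x ≠ 0) {f : X → ℂ} {L : LaurentSeries ℂ} (hf : HasExp T f L)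
    (n : ℕ) : HasExp T (f ^ n) (L ^ n) := by
  induction n with
  | zero => simpa using hasExp_one
  | succ n ih => simpa [pow_succ] using ih.mul hT hf

theorem hasExp_sum {ι : Type*} (s : Finset ι) {f : ι → X → ℂ} {L : ι → LaurentSeries ℂ}
    (h : ∀ i ∈ s, HasExp T (f i) (L i)) : HasExp T (∑ i ∈ s, f i) (∑ i ∈ s, L i) := by
  classical
  induction s using Finset.induction with
  | empty => simpa using hasExp_zero
  | @insert a s has ih =>
    rw [Finset.sum_insert has, Finset.sum_insert has]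
    exact (h a (Finset.mem_insert_self a s)).add
      (ih fun i hi => h i (Finset.mem_insert_of_mem hi))

theorem hasExp_prod (hT : ∀ x, T x ≠ 0) {ι : Type*} (s : Finset ι) {f : ι → X → ℂ}
    {L : ι → LaurentSeries ℂ}
    (h : ∀ i ∈ s, HasExp T (f i) (L i)) : HasExp T (∏ i ∈ s, f i) (∏ i ∈ s, L i) := by
  classical
  induction s using Finset.induction with
  | empty => simpa using hasExp_one
  | @insert a s has ih =>
    rw [Finset.prod_insert has, Finset.prod_insert has]
    exact (h a (Finset.mem_insert_self a s)).mul hT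
      (ih fun i hi => h i (Finset.mem_insert_of_mem hi))

theorem ofPowerSeries_coeff_natCast (P : PowerSeries ℂ) (n : ℕ) :
    (ofPowerSeries ℤ ℂ P).coeff (n : ℤ) = PowerSeries.coeff n P :=
  HahnSeries.ofPowerSeries_apply_coeff _ _

theorem hasExp_ofPowerSeries {f : X → ℂ} {P : PowerSeries ℂ}
    (h : ∀ x, HasSum (fun n : ℕ => PowerSeries.coeff n P * T x ^ n) (f x)) :
    HasExp T f (ofPowerSeries ℤ ℂ P) := fun x => by
  refine (Function.Injective.hasSum_iff Nat.cast_injective ?_).1 ?_
  · intro n hn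
    rw [ModularCurve.ofPowerSeries_coeff_of_neg _ (by
      by_contra h
      exact hn ⟨n.toNat, Int.toNat_of_nonneg (not_lt.1 h)⟩), zero_mul]
  · simpa [Function.comp_def, ofPowerSeries_coeff_natCast] using h x

/-- Pull back along a map raising the parameter to the power `k` and scaling it. -/
theorem HasExp.comp {U : Y → ℂ} {f : X → ℂ} {L : LaurentSeries ℂ} (hf : HasExp T f L)
    (g : Y → X) (k : ℕ) [NeZero k] (c : ℂˣ)
    (hg : ∀ y, T (g y) = (c : ℂ) * U y ^ k) :
    HasExp U (f ∘ g) (ModularCurve.qExpand ℂ k (twist c L)) := fun y => by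
  have hk : Function.Injective (fun n : ℤ => (k : ℤ) * n) :=
    mul_right_injective₀ (by exact_mod_cast NeZero.ne k)
  refine (hk.hasSum_iff ?_).1 ?_
  · intro n hn
    rw [ModularCurve.qExpand_coeff_of_not_dvd, zero_mul]
    rintro ⟨m, rfl⟩
    exact hn ⟨m, rfl⟩
  · show HasSum _ (f (g y))
    convert hf (g y) using 1
    funext n
    simp only [Function.comp_apply, ModularCurve.qExpand_coeff_mul, twist_coeff, hg, mul_zpow,
      zpow_mul, zpow_natCast, Units.val_zpow_eq_zpow_val]
    ring

/-! ### Uniqueness -/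

/-- The parameter takes all small nonzero values. -/
def CoversPunctured (T : X → ℂ) : Prop :=
  ∃ r > (0 : ℝ), ∀ w : ℂ, w ≠ 0 → ‖w‖ < r → ∃ x, T x = w

theorem hasExp_eq_zero (hcov : CoversPunctured T) {L : LaurentSeries ℂ}
    (h : HasExp T 0 L) : L = 0 := by
  by_contra hL
  obtain ⟨r, hr, hcov⟩ := hcov
  set o := L.order
  set c : ℕ → ℂ := fun n => L.coeff (o + n) with hc
  -- the shifted power series vanishes on the punctured ball
  have hz : ∀ w : ℂ, w ≠ 0 → ‖w‖ < r → HasSum (fun n : ℕ => c n * w ^ n) 0 := by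
    intro w hw hwr
    obtain ⟨x, rfl⟩ := hcov w hw hwr
    have h0 : HasSum (fun n : ℤ => L.coeff n * T x ^ n) (0 : ℂ) := h x
    have h1 := (Function.Injective.hasSum_iff (g := fun n : ℕ => o + (n : ℤ))
      (fun a b hab => by simpa using hab) (f := fun n : ℤ => L.coeff n * T x ^ n) ?_).2 h0
    · have h2 := h1.mul_left (T x ^ (-o))
      rw [mul_zero] at h2
      refine h2.congr_fun fun n => ?_
      simp only [Function.comp_apply, hc, zpow_add₀ hw, zpow_natCast, zpow_neg]
      field_simp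
    · intro n hn
      rw [coeff_eq_zero_of_lt_order, zero_mul]
      by_contra hlt
      exact hn ⟨(n - o).toNat, show o + ((n - o).toNat : ℤ) = n by omega⟩
  have hc0 : c 0 ≠ 0 := by
    simp only [hc, Nat.cast_zero, add_zero]
    exact fun h0 => hL (coeff_order_eq_zero.1 h0)
  -- but the sum tends to `c 0` at the origin
  obtain ⟨ρ, hρ0, hρr⟩ := exists_between hr
  have hsum := (hz (ρ : ℂ) (by exact_mod_cast hρ0.ne')
    (by simpa [abs_of_pos hρ0] using hρr)).summable.norm
  simp only [norm_mul, norm_pow, Complex.norm_real, Real.norm_eq_abs, abs_of_pos hρ0] at hsum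
  set M := ∑' n, ‖c n‖ * ρ ^ n
  have hM : ∀ w : ℂ, w ≠ 0 → ‖w‖ ≤ ρ → ‖c 0‖ ≤ ‖w‖ / ρ * M := by
    intro w hw hwρ
    have h1 := hz w hw (hwρ.trans_lt hρr)
    rw [← hasSum_nat_add_iff' 1] at h1
    simp only [Finset.range_one, Finset.sum_singleton, pow_zero, mul_one, zero_sub] at h1
    have hs : HasSum (fun n : ℕ => ‖w‖ / ρ * (‖c (n + 1)‖ * ρ ^ (n + 1)))
        (‖w‖ / ρ * ∑' n, ‖c (n + 1)‖ * ρ ^ (n + 1)) :=
      (((summable_nat_add_iff 1).2 hsum).hasSum).mul_left _
    have h2 : ‖-c 0‖ ≤ ‖w‖ / ρ * ∑' n, ‖c (n + 1)‖ * ρ ^ (n + 1) := by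
      refine h1.norm_le_of_bounded hs fun n => ?_
      rw [norm_mul, norm_pow, pow_succ, pow_succ]
      have : ‖w‖ ^ n ≤ ρ ^ n := pow_le_pow_left₀ (norm_nonneg _) hwρ n
      field_simp
      gcongr
    rw [norm_neg] at h2
    refine h2.trans (mul_le_mul_of_nonneg_left ?_ (by positivity))
    have h3 := hsum.sum_add_tsum_nat_add 1
    simp only [Finset.range_one, Finset.sum_singleton] at h3
    linarith [h3, mul_nonneg (norm_nonneg (c 0)) (pow_nonneg hρ0.le 0)]
  have hMnn : 0 ≤ M := tsum_nonneg fun n => by positivity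
  have hcpos : 0 < ‖c 0‖ := norm_pos_iff.2 hc0
  set ε := min ρ (ρ * ‖c 0‖ / (2 * (M + 1))) with hε
  have hεpos : 0 < ε := lt_min hρ0 (by positivity)
  have h4 := hM (ε : ℂ) (by exact_mod_cast hεpos.ne')
    (by rw [Complex.norm_real, Real.norm_eq_abs, abs_of_pos hεpos]; exact min_le_left _ _)
  simp only [Complex.norm_real, Real.norm_eq_abs, abs_of_pos hεpos] at h4
  have h5 : ε / ρ * M ≤ ‖c 0‖ / (2 * (M + 1)) * M := by
    refine mul_le_mul_of_nonneg_right ?_ hMnn
    rw [div_le_iff₀ hρ0]
    exact (min_le_right _ _).trans (le_of_eq (by ring))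
  have h6 : ‖c 0‖ / (2 * (M + 1)) * M < ‖c 0‖ := by
    rw [div_mul_eq_mul_div, div_lt_iff₀ (by positivity)]
    nlinarith
  linarith

theorem HasExp.unique (hcov : CoversPunctured T) {f : X → ℂ} {L M : LaurentSeries ℂ}
    (hL : HasExp T f L) (hM : HasExp T f M) : L = M := by
  rw [← sub_eq_zero]
  exact hasExp_eq_zero hcov (by simpa using hL.sub hM)

theorem HasExp.fun_unique {f g : X → ℂ} {L : LaurentSeries ℂ}
    (hf : HasExp T f L) (hg : HasExp T g L) : f = g :=
  funext fun x => (hf x).unique (hg x)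

/-- The ring of functions with expansions, paired with their expansions. -/
def expPairs (hT : ∀ x, T x ≠ 0) : Subring ((X → ℂ) × LaurentSeries ℂ) where
  carrier := {p | HasExp T p.1 p.2}
  mul_mem' hf hg := HasExp.mul hT hf hg
  one_mem' := hasExp_one
  add_mem' hf hg := HasExp.add hf hg
  zero_mem' := hasExp_zero
  neg_mem' hf := HasExp.neg hf

/-- A series with no negative terms. -/
theorem hasExp_iff_nat {f : X → ℂ} {L : LaurentSeries ℂ} (h0 : OrdGE 0 L) :
    HasExp T f L ↔ ∀ x, HasSum (fun n : ℕ => L.coeff n * T x ^ n) (f x) := by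
  refine forall_congr' fun x => ?_
  rw [← Function.Injective.hasSum_iff (g := fun n : ℕ => (n : ℤ)) Nat.cast_injective]
  · simp [Function.comp_def]
  · intro n hn
    rw [h0 n (by by_contra h; exact hn ⟨n.toNat, Int.toNat_of_nonneg (not_lt.1 h)⟩), zero_mul]

end FA.ModField
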