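import Fermat.Agent.ModField.Degree

/-!
# The modular function field is generated by `j` and `j(Nz)`
-/

set_option autoImplicit false
set_option linter.style.haveILetI false
set_option linter.unusedSectionVars false
set_option synthInstance.maxHeartbeats 200000
set_option maxHeartbeats 1600000

noncomputable section

namespace FA.ModField

open UpperHalfPlane hiding I
open Complex HahnSeries CongruenceSubgroup ModularCurve IntermediateField
open scoped MatrixGroups

variable (L : Type) [Field L] [Algebra L ℂ] [CharZero L] (N : ℕ) [NeZero N]

/-- `L(j)(j_N)` is everything. -/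
theorem jField_adjoin_jN : (jField L N)⟮jNElem L N⟯ = ⊤ := by
  classical
  haveI := finite_jField (L := L) (N := N)
  haveI : Finite (FA.Dim.Cos N) := inferInstance
  haveI := Fintype.ofFinite (FA.Dim.Cos N)
  haveI : CharZero (jField L N) :=
    charZero_of_injective_algebraMap (algebraMap L (jField L N)).injective
  set E := (jField L N)⟮jNElem L N⟯
  set P := cuspParam N
  set M : LaurentSeries ℂ := qExpand ℂ N (jqModC ℂ)
  have hM : HasExp P.T (fun x => jfun (P.g₀ x)) M := by
    have h := hasExp_jfun.comp (U := qp N) id N 1 (fun z => by simp [qp_pow_self])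
    rwa [twist_one_apply] at h
  set i₀ : FA.Dim.Cos N := QuotientGroup.mk 1
  letI : Algebra (jField L N) (AlgebraicClosure (LaurentSeries ℂ)) :=
    ((algebraMap (LaurentSeries ℂ) _).comp
      ((embCos (L := L) P i₀).toRingHom.comp (algebraMap (jField L N) _))).toAlgebra
  let τ : FA.Dim.Cos N → E →ₐ[jField L N] AlgebraicClosure (LaurentSeries ℂ) := fun i =>
    { (algebraMap (LaurentSeries ℂ) _).comp ((embCos (L := L) P i).toRingHom.comp (algebraMap E _))
        with
      commutes' := fun x => by
        show algebraMap (LaurentSeries ℂ) _ (embCos P i (x : modularFunctionFieldFullC L N)) = _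
        rw [embCos_agree P hM i i₀]
        rfl }
  have hτ : Function.Injective τ := fun i j h => embCos_jN_injective P
    ((algebraMap (LaurentSeries ℂ) _).injective
      (AlgHom.congr_fun h ⟨jNElem L N, mem_adjoin_simple_self _ _⟩))
  have h1 : Nat.card (FA.Dim.Cos N) ≤ Module.finrank (jField L N) E := by
    rw [Nat.card_eq_fintype_card,
      ← AlgHom.card (jField L N) E (AlgebraicClosure (LaurentSeries ℂ))]
    exact Fintype.card_le_of_injective τ hτ
  refine IntermediateField.eq_of_le_of_finrank_le le_top ?_
  rw [IntermediateField.finrank_top', finrank_jField]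
  exact h1

/-- `L(j, j_N)` is everything. -/
theorem adjoin_j_jN : IntermediateField.adjoin L {jElem L N, jNElem L N} = ⊤ := by
  have h := congrArg (IntermediateField.restrictScalars L) (jField_adjoin_jN L N)
  rw [IntermediateField.adjoin_simple_adjoin_simple, restrictScalars_top] at h
  exact h

/-- The field generated by `j` and `j_N` is the full one. -/
theorem modularFunctionFieldC_eq_full :
    modularFunctionFieldC L N = modularFunctionFieldFullC L N := by
  refine le_antisymm (modularFunctionFieldC_le_full L N) fun x hx => ?_
  have h : (⟨x, hx⟩ : modularFunctionFieldFullC L N) ∈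
      IntermediateField.adjoin L {jElem L N, jNElem L N} := by rw [adjoin_j_jN]; trivial
  have h' : x ∈ (IntermediateField.adjoin L {jElem L N, jNElem L N}).map
      (modularFunctionFieldFullC L N).val := ⟨_, h, rfl⟩
  rw [IntermediateField.adjoin_map, Set.image_pair] at h'
  exact h'

end FA.ModField
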